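/-
GATE-P (S56) / [P-GW] E-GLUE part 0 (helper59): the fixed space of an involution is an exact
functor when `2` is invertible — additivity of `dim ker (σ − 1)` on short exact sequences.
Mathlib only.
-/
import Mathlib

set_option autoImplicit false

namespace Fermat.Agent.GP.GW.Euler

open Module

variable {k : Type*} [Field k] {A B C : Type*} [AddCommGroup A] [Module k A] [AddCommGroup B]
  [Module k B] [AddCommGroup C] [Module k C]

/-- `dim B^σ = dim A^σ + dim C^σ` for a `σ`-equivariant short exact sequence `0 → A → B → C → 0`,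
`σ² = 1` on `B`, `2 ≠ 0`. -/
theorem finrank_fixed_additive (h2 : (2 : k) ≠ 0) [FiniteDimensional k B]
    (f : A →ₗ[k] B) (g : B →ₗ[k] C) (hf : Function.Injective f) (hg : Function.Surjective g)
    (hex : Function.Exact f g) (σA : A →ₗ[k] A) (σB : B →ₗ[k] B) (σC : C →ₗ[k] C)
    (hfσ : ∀ a, f (σA a) = σB (f a)) (hgσ : ∀ b, g (σB b) = σC (g b))
    (hB : ∀ b, σB (σB b) = b) :
    finrank k (LinearMap.ker (σB - 1)) =
      finrank k (LinearMap.ker (σA - 1)) + finrank k (LinearMap.ker (σC - 1)) := by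
  have memA : ∀ a : A, a ∈ LinearMap.ker (σA - 1) ↔ σA a = a := fun a => by
    rw [LinearMap.mem_ker, LinearMap.sub_apply, Module.End.one_apply, sub_eq_zero]
  have memB : ∀ b : B, b ∈ LinearMap.ker (σB - 1) ↔ σB b = b := fun b => by
    rw [LinearMap.mem_ker, LinearMap.sub_apply, Module.End.one_apply, sub_eq_zero]
  have memC : ∀ c : C, c ∈ LinearMap.ker (σC - 1) ↔ σC c = c := fun c => by
    rw [LinearMap.mem_ker, LinearMap.sub_apply, Module.End.one_apply, sub_eq_zero]
  -- the restriction of `g` to the fixed spaces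
  let φ : LinearMap.ker (σB - 1) →ₗ[k] LinearMap.ker (σC - 1) :=
    (g.comp (LinearMap.ker (σB - 1)).subtype).codRestrict _ (fun b => by
      rw [memC, LinearMap.comp_apply, Submodule.subtype_apply, ← hgσ, (memB b.1).1 b.2])
  have hφ : Function.Surjective φ := by
    rintro ⟨y, hy⟩
    obtain ⟨b, rfl⟩ := hg y
    have hy' := (memC _).1 hy
    refine ⟨⟨(2 : k)⁻¹ • (b + σB b), ?_⟩, ?_⟩
    · rw [memB, map_smul, map_add, hB, add_comm]
    · apply Subtype.ext
      show g ((2 : k)⁻¹ • (b + σB b)) = g b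
      rw [map_smul, map_add, hgσ, hy', ← two_smul k (g b), smul_smul, inv_mul_cancel₀ h2, one_smul]
  -- the kernel of `φ` is the fixed space of `A`
  let ψ : LinearMap.ker (σA - 1) →ₗ[k] LinearMap.ker φ :=
    ((f.comp (LinearMap.ker (σA - 1)).subtype).codRestrict (LinearMap.ker (σB - 1)) (fun a => by
      rw [memB, LinearMap.comp_apply, Submodule.subtype_apply, ← hfσ, (memA a.1).1 a.2])).codRestrict
      _ (fun a => by
        rw [LinearMap.mem_ker]
        apply Subtype.ext
        show g (f a.1) = 0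
        exact hex.apply_apply_eq_zero a.1)
  have hψi : Function.Injective ψ := by
    intro a a' h
    apply Subtype.ext
    apply hf
    exact congrArg (fun x : LinearMap.ker φ => ((x : LinearMap.ker (σB - 1)) : B)) h
  have hψs : Function.Surjective ψ := by
    rintro ⟨⟨b, hb⟩, hb'⟩
    have h0 : g b = 0 := congrArg Subtype.val (LinearMap.mem_ker.1 hb')
    obtain ⟨a, rfl⟩ := (hex b).1 h0
    have ha : σA a = a := by
      apply hf
      rw [hfσ]
      exact (memB _).1 hb
    exact ⟨⟨a, (memA a).2 ha⟩, rfl⟩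
  have e : LinearMap.ker (σA - 1) ≃ₗ[k] LinearMap.ker φ := LinearEquiv.ofBijective ψ ⟨hψi, hψs⟩
  have h1 := LinearMap.finrank_range_add_finrank_ker φ
  rw [LinearMap.range_eq_top.2 hφ, finrank_top, ← e.finrank_eq] at h1
  omega

end Fermat.Agent.GP.GW.Euler
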