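/-
GATE-P (S56) / [P-GW] E-GLUE (helper59): **Tate's global Euler characteristic from the modular
Artin induction theorem (E1) and the cyclic prime-to-`p` base case (E3).**

* `tateDefect S N = χ(G_S, N) − dim N^{c=1} + dim N` (`χ` = helper74's `ChiAdd.chi`);
  `tateLe_of_tateDefect_eq_zero`;
* `tateDefect_congr`, `tateDefect_additive` (`p` odd; finiteness of `Hlcⁱ`, `i ≤ 2`, and `Hlc³ = 0`
  as a binder `HlcFinite S` — delivered by GW-1d (iv) from `PTData`);
* `ArtinInduction p Γ` : the INTERFACE of E1 (helper30) as a `Prop`;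
* `InfCoind` : the INTERFACE of the leaf INFCOIND (helper17);
* `BaseCase S U` : the INTERFACE of E3 (cyclic `p'` base case over `G_ℚ`, one normal `U`);
* `tateDefect_eq_zero_of_artin_base` : E1 + E3 + INFCOIND ⟹ E-MAIN.
-/
import Mathlib
import Fermat.Agent.GP.GW.Model
import Fermat.Agent.GP.GW.ChiAdd
import Fermat.Agent.GP.GW.Euler.FixedAdd

set_option autoImplicit false

namespace Fermat.Agent.GP.GW.Euler

open Fermat.Agent.GC.Prof Fermat.Agent.GC.PT Fermat.Agent.GC.PT.Triples CategoryTheory
  ExtCitation Module Fermat.Agent.GC.C0 Fermat.Agent.GP.GW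

noncomputable section

variable {p : ℕ} [Fact p.Prime]

/-! ### Tate's defect -/

/-- `φ_S(N) = χ(G_S, N) − dim N^{c=1} + dim N`; Tate's formula is `φ_S = 0`. -/
def tateDefect (S : Finset Nat.Primes) (N : Rep (ZMod p) GQ) [IsDiscrete (levelS S) N] : ℤ :=
  ChiAdd.chi (levelS S) N -
    (finrank (ZMod p) (LinearMap.ker (N.ρ complexConjugation - 1)) : ℤ) + (finrank (ZMod p) N : ℤ)

theorem tateLe_of_tateDefect_le (S : Finset Nat.Primes) (N : Rep (ZMod p) GQ)
    [IsDiscrete (levelS S) N] (h : tateDefect S N ≤ 0) : TateLe S N := by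
  unfold tateDefect ChiAdd.chi at h
  unfold TateLe
  omega

/-- Finiteness of `Hlcⁱ`, `i ≤ 2`, and vanishing of `Hlc³` for all f.d. discrete modules
(consequence of `PTData`; exported by GW-1d (iv)). -/
def HlcFinite (S : Finset Nat.Primes) : Prop :=
  ∀ (N : Rep (ZMod p) GQ) [FiniteDimensional (ZMod p) N] [IsDiscrete (levelS S) N],
    (∀ i, i ≤ 2 → FiniteDimensional (ZMod p) (Hlc (levelS S) N i)) ∧
      ∀ x : Hlc (levelS S) N 3, x = 0

section Congr

variable {S : Finset Nat.Primes} {N N' : Rep (ZMod p) GQ} [IsDiscrete (levelS S) N]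
  [IsDiscrete (levelS S) N']

/-- The linear equivalence underlying an isomorphism of representations. -/
def isoLinearEquiv (e : N ≅ N') : N ≃ₗ[ZMod p] N' :=
  LinearEquiv.ofLinearMap e.hom.hom.toLinearMap e.inv.hom.toLinearMap
    (by
      ext x
      simp)
    (by
      ext x
      simp)

theorem tateDefect_congr (e : N ≅ N') : tateDefect S N = tateDefect S N' := by
  unfold tateDefect
  rw [ChiAdd.chi_congr (levelS S) e, (isoLinearEquiv e).finrank_eq]
  congr 2
  -- the fixed spaces correspond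
  have hcomm : ∀ x : N, isoLinearEquiv e (N.ρ complexConjugation x) =
      N'.ρ complexConjugation (isoLinearEquiv e x) := fun x =>
    (Rep.hom_comm_apply e.hom complexConjugation x)
  have hmap : (LinearMap.ker (N.ρ complexConjugation - 1)).map
      (isoLinearEquiv e : N →ₗ[ZMod p] N') = LinearMap.ker (N'.ρ complexConjugation - 1) := by
    ext y
    rw [Submodule.mem_map]
    constructor
    · rintro ⟨x, hx, rfl⟩
      rw [LinearMap.mem_ker, LinearMap.sub_apply, Module.End.one_apply, sub_eq_zero] at hx ⊢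
      rw [LinearEquiv.coe_coe, ← hcomm, hx]
    · intro hy
      rw [LinearMap.mem_ker, LinearMap.sub_apply, Module.End.one_apply, sub_eq_zero] at hy
      refine ⟨(isoLinearEquiv e).symm y, ?_, by simp⟩
      rw [LinearMap.mem_ker, LinearMap.sub_apply, Module.End.one_apply, sub_eq_zero]
      apply (isoLinearEquiv e).injective
      rw [hcomm, LinearEquiv.apply_symm_apply, hy]
  rw [← hmap]
  exact_mod_cast ((isoLinearEquiv e).submoduleMap _).finrank_eq

end Congr

/-! ### Additivity -/

section Additive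

variable {S : Finset Nat.Primes} {X : ShortComplex (Rep (ZMod p) GQ)}
  [IsDiscrete (levelS S) X.X₁] [IsDiscrete (levelS S) X.X₂] [IsDiscrete (levelS S) X.X₃]

theorem tateDefect_additive (hp2 : p ≠ 2) (hfinS : HlcFinite (p := p) S) (hX : X.ShortExact)
    [FiniteDimensional (ZMod p) X.X₂] :
    tateDefect S X.X₂ = tateDefect S X.X₁ + tateDefect S X.X₃ := by
  obtain ⟨hinj, hsurj, hex⟩ := elementwise_of_shortExact hX
  have hfd1 : FiniteDimensional (ZMod p) X.X₁ :=
    Module.Finite.of_injective X.f.hom.toLinearMap hinj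
  have hfd3 : FiniteDimensional (ZMod p) X.X₃ :=
    Module.Finite.of_surjective X.g.hom.toLinearMap hsurj
  obtain ⟨f1, z1⟩ := hfinS X.X₁
  obtain ⟨f2, _⟩ := hfinS X.X₂
  obtain ⟨f3, _⟩ := hfinS X.X₃
  have hchi := ChiAdd.chi_additive (levelS S) hX (fun i hi => ⟨f1 i hi, f2 i hi, f3 i hi⟩) z1
  have h2 : (2 : ZMod p) ≠ 0 := by
    intro h
    have h' : ((2 : ℕ) : ZMod p) = 0 := by exact_mod_cast h
    rw [ZMod.natCast_eq_zero_iff] at h'
    have hp : p.Prime := Fact.out
    exact hp2 ((Nat.prime_dvd_prime_iff_eq hp Nat.prime_two).1 h')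
  have hexact : Function.Exact X.f.hom.toLinearMap X.g.hom.toLinearMap := by
    intro y
    constructor
    · intro hy
      exact hex y hy
    · rintro ⟨x, rfl⟩
      have h := X.zero
      have : (X.f ≫ X.g).hom x = 0 := by rw [h]; rfl
      exact this
  have hcc : ∀ b : X.X₂, X.X₂.ρ complexConjugation (X.X₂.ρ complexConjugation b) = b := by
    intro b
    have := congrArg (fun g => X.X₂.ρ g b) complexConjugation_mul_self
    simpa [map_mul] using this
  have hfix := finrank_fixed_additive h2 X.f.hom.toLinearMap X.g.hom.toLinearMap hinj hsurj hexact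
    (X.X₁.ρ complexConjugation) (X.X₂.ρ complexConjugation) (X.X₃.ρ complexConjugation)
    (fun a => Rep.hom_comm_apply X.f complexConjugation a)
    (fun b => Rep.hom_comm_apply X.g complexConjugation b) hcc
  have hdim : finrank (ZMod p) X.X₂ = finrank (ZMod p) X.X₁ + finrank (ZMod p) X.X₃ := by
    have h1 := LinearMap.finrank_range_add_finrank_ker X.g.hom.toLinearMap
    rw [LinearMap.range_eq_top.2 hsurj, finrank_top, hexact.linearMap_ker_eq,
      LinearMap.finrank_range_of_inj hinj] at h1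
    omega
  unfold tateDefect
  rw [hchi, hfix, hdim]
  push_cast
  ring

end Additive

/-- Elementwise form of `tateDefect_additive`. -/
theorem tateDefect_additive' {S : Finset Nat.Primes} (hp2 : p ≠ 2) (hfinS : HlcFinite (p := p) S)
    {N₁ N₂ N₃ : Rep.{0} (ZMod p) GQ} [IsDiscrete (levelS S) N₁] [IsDiscrete (levelS S) N₂]
    [IsDiscrete (levelS S) N₃] [FiniteDimensional (ZMod p) N₂] (f : N₁ ⟶ N₂) (g : N₂ ⟶ N₃)
    (hf : Function.Injective f.hom) (hg : Function.Surjective g.hom)
    (hzero : ∀ x, g.hom (f.hom x) = 0) (hex : ∀ y, g.hom y = 0 → ∃ x, f.hom x = y) :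
    tateDefect S N₂ = tateDefect S N₁ + tateDefect S N₃ := by
  have hz : f ≫ g = 0 := by
    apply Rep.hom_ext
    apply Representation.IntertwiningMap.ext
    apply LinearMap.ext
    intro x
    exact hzero x
  have hX : (ShortComplex.mk f g hz).ShortExact :=
    shortExact_of_elementwise (ShortComplex.mk f g hz) hf hg hex
  exact tateDefect_additive (X := ShortComplex.mk f g hz) hp2 hfinS hX

/-! ### Interfaces of E1, INFCOIND, E3 and the main reduction -/

/-- **E1 (helper30): modular Artin induction for additive functions**, as an interface: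
an isomorphism-invariant function on `F_p[Γ]`-modules which is additive on short exact sequences
of finite-dimensional modules and vanishes on all modules coinduced from cyclic subgroups of
order prime to `p` vanishes on every finite-dimensional module. -/
def ArtinInduction (p : ℕ) [Fact p.Prime] (Γ : Type) [Group Γ] : Prop :=
  ∀ Φ : Rep.{0} (ZMod p) Γ → ℤ,
    (∀ A B : Rep.{0} (ZMod p) Γ, Nonempty (A ≅ B) → Φ A = Φ B) →
    (∀ X : ShortComplex (Rep.{0} (ZMod p) Γ), X.ShortExact → FiniteDimensional (ZMod p) X.X₂ →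
      Φ X.X₂ = Φ X.X₁ + Φ X.X₃) →
    (∀ C : Subgroup Γ, IsCyclic C → ¬ p ∣ Nat.card C →
      ∀ Y : Rep.{0} (ZMod p) C, FiniteDimensional (ZMod p) Y → Φ (Rep.coind C.subtype Y) = 0) →
    ∀ A : Rep.{0} (ZMod p) Γ, FiniteDimensional (ZMod p) A → Φ A = 0

section Main

variable (S : Finset Nat.Primes) (U : Subgroup GQ) [U.Normal]

/-- Inflation along `G_ℚ → G_ℚ ⧸ U`. -/
abbrev infl (X : Rep.{0} (ZMod p) (GQ ⧸ U)) : Rep.{0} (ZMod p) GQ := Rep.res (QuotientGroup.mk' U) X

variable {U} in
theorem isDiscrete_infl (hU : U ∈ (levelS S).sets) (X : Rep.{0} (ZMod p) (GQ ⧸ U)) :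
    IsDiscrete (levelS S) (infl U X) :=
  ⟨fun m => ⟨U, hU, fun s hs => by
    show X.ρ (QuotientGroup.mk' U s) m = m
    have h1 : QuotientGroup.mk' U s = 1 := (QuotientGroup.eq_one_iff s).2 hs
    rw [h1, map_one]
    rfl⟩⟩

/-- Discreteness passes along isomorphisms. -/
theorem isDiscrete_of_iso {M M' : Rep.{0} (ZMod p) GQ} (e : M ≅ M') [IsDiscrete (levelS S) M] :
    IsDiscrete (levelS S) M' :=
  ⟨fun m' => by
    obtain ⟨V, hV, h⟩ := IsDiscrete.exists_fix (𝒰 := levelS S) (M := M) (e.inv.hom m')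
    refine ⟨V, hV, fun s hs => ?_⟩
    have h1 := Rep.hom_comm_apply e.hom s (e.inv.hom m')
    have h2 : e.hom.hom (e.inv.hom m') = m' := (isoLinearEquiv e).apply_symm_apply m'
    rw [h s hs, h2] at h1
    exact h1.symm⟩

/-- **INFCOIND (helper17), as an interface**: inflation commutes with coinduction. -/
def InfCoind : Prop :=
  ∀ (C : Subgroup (GQ ⧸ U)) (Y : Rep.{0} (ZMod p) C),
    Nonempty (infl U (Rep.coind C.subtype Y) ≅
      Rep.coind (C.comap (QuotientGroup.mk' U)).subtype
        (Rep.res ((QuotientGroup.mk' U).subgroupComap C) Y))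

/-- **E3 BASE, as an interface** (shape of helper71 4028 / helper8 4080: ONE normal `U` for all
cyclic `C`; the class-group hypothesis `Hlc¹(G_{F,S}, O_S^×) = 0` for the fixed field `F` of `U`
is a hypothesis of whoever PROVES `BaseCase S U`). -/
def BaseCase : Prop :=
  ∀ (H : Subgroup GQ), U ≤ H → IsCyclic (H.map (QuotientGroup.mk' U)) →
    ¬ p ∣ Nat.card (H.map (QuotientGroup.mk' U)) →
    ∀ (Y : Rep.{0} (ZMod p) H) [FiniteDimensional (ZMod p) Y],
      (∀ u : H, (u : GQ) ∈ U → Y.ρ u = 1) →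
      ∀ [IsDiscrete (levelS S) (Rep.coind H.subtype Y)],
        tateDefect S (Rep.coind H.subtype Y) = 0

variable {S U}

/-- The additive function on `Rep (ZMod p) (G_ℚ ⧸ U)`: Tate's defect of the inflation. -/
def inflDefect (hU : U ∈ (levelS S).sets) (X : Rep.{0} (ZMod p) (GQ ⧸ U)) : ℤ :=
  @tateDefect p _ S (infl U X) (isDiscrete_infl S hU X)

set_option maxHeartbeats 1000000 in
theorem inflDefect_congr (hU : U ∈ (levelS S).sets) (A B : Rep.{0} (ZMod p) (GQ ⧸ U))
    (h : Nonempty (A ≅ B)) : inflDefect hU A = inflDefect hU B := by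
  obtain ⟨e⟩ := h
  have := isDiscrete_infl (p := p) S hU A
  have := isDiscrete_infl (p := p) S hU B
  exact tateDefect_congr ((Rep.resFunctor (QuotientGroup.mk' U)).mapIso e)

set_option maxHeartbeats 1000000 in
theorem inflDefect_additive (hp2 : p ≠ 2) (hU : U ∈ (levelS S).sets)
    (hfinS : HlcFinite (p := p) S) (X : ShortComplex (Rep.{0} (ZMod p) (GQ ⧸ U)))
    (hX : X.ShortExact) (hfd : FiniteDimensional (ZMod p) X.X₂) :
    inflDefect hU X.X₂ = inflDefect hU X.X₁ + inflDefect hU X.X₃ := by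
  obtain ⟨hinj, hsurj, hex⟩ := elementwise_of_shortExact hX
  have hzero : ∀ x : X.X₁, X.g.hom (X.f.hom x) = 0 := by
    intro x
    have h := X.zero
    have : (X.f ≫ X.g).hom x = 0 := by rw [h]; rfl
    exact this
  have i1 : IsDiscrete (levelS S) (infl U X.X₁) := isDiscrete_infl (p := p) S hU X.X₁
  have i2 : IsDiscrete (levelS S) (infl U X.X₂) := isDiscrete_infl (p := p) S hU X.X₂
  have i3 : IsDiscrete (levelS S) (infl U X.X₃) := isDiscrete_infl (p := p) S hU X.X₃
  have i4 : FiniteDimensional (ZMod p) (infl U X.X₂) := hfd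
  exact tateDefect_additive' (N₁ := infl U X.X₁) (N₂ := infl U X.X₂) (N₃ := infl U X.X₃) hp2 hfinS
    ((Rep.resFunctor (QuotientGroup.mk' U)).map X.f)
    ((Rep.resFunctor (QuotientGroup.mk' U)).map X.g) hinj hsurj hzero hex

set_option maxHeartbeats 1000000 in
theorem inflDefect_coind (hU : U ∈ (levelS S).sets) (hIC : InfCoind (p := p) U)
    (base : BaseCase (p := p) S U) (C : Subgroup (GQ ⧸ U)) (hC : IsCyclic C)
    (hpC : ¬ p ∣ Nat.card C) (Y : Rep.{0} (ZMod p) C) (hY : FiniteDimensional (ZMod p) Y) :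
    inflDefect hU (Rep.coind C.subtype Y) = 0 := by
  obtain ⟨e⟩ := hIC C Y
  have i1 := isDiscrete_infl (p := p) S hU (Rep.coind C.subtype Y)
  have i2 : IsDiscrete (levelS S) (Rep.coind (C.comap (QuotientGroup.mk' U)).subtype
      (Rep.res ((QuotientGroup.mk' U).subgroupComap C) Y)) := isDiscrete_of_iso S e
  have hmap : (C.comap (QuotientGroup.mk' U)).map (QuotientGroup.mk' U) = C :=
    Subgroup.map_comap_eq_self_of_surjective (QuotientGroup.mk'_surjective U) C
  have hle : U ≤ C.comap (QuotientGroup.mk' U) := by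
    intro u hu
    rw [Subgroup.mem_comap]
    have h1 : QuotientGroup.mk' U u = 1 := (QuotientGroup.eq_one_iff u).2 hu
    rw [h1]
    exact one_mem C
  have i3 : FiniteDimensional (ZMod p) (Rep.res ((QuotientGroup.mk' U).subgroupComap C) Y) := hY
  have hb := base (C.comap (QuotientGroup.mk' U)) hle (by rw [hmap]; exact hC)
    (by rw [hmap]; exact hpC) (Rep.res ((QuotientGroup.mk' U).subgroupComap C) Y) (by
      intro u hu
      show Y.ρ ((QuotientGroup.mk' U).subgroupComap C u) = 1
      have h1 : (QuotientGroup.mk' U).subgroupComap C u = 1 := by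
        apply Subtype.ext
        exact (QuotientGroup.eq_one_iff (u : GQ)).2 hu
      rw [h1, map_one])
  show tateDefect S (infl U (Rep.coind C.subtype Y)) = 0
  rw [tateDefect_congr e]
  exact hb

set_option maxHeartbeats 1000000 in
/-- **E-MAIN from E1 + INFCOIND + E3.**  `N` finite-dimensional, trivial on the normal level `U`. -/
theorem tateDefect_eq_zero_of_artin_base (hp2 : p ≠ 2) (hU : U ∈ (levelS S).sets)
    (hfinS : HlcFinite (p := p) S) (artin : ArtinInduction p (GQ ⧸ U))
    (hIC : InfCoind (p := p) U) (base : BaseCase (p := p) S U)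
    (N : Rep.{0} (ZMod p) GQ) [hfd : FiniteDimensional (ZMod p) N] [IsDiscrete (levelS S) N]
    (hN : ∀ u ∈ U, N.ρ u = 1) : tateDefect S N = 0 := by
  have : Representation.IsTrivial (N.ρ.comp U.subtype) := ⟨fun u => by
    show N.ρ (u : GQ) = LinearMap.id
    rw [hN u u.2]
    rfl⟩
  exact artin (inflDefect hU) (inflDefect_congr hU) (inflDefect_additive hp2 hU hfinS)
    (inflDefect_coind hU hIC base) (N.ofQuotient U) hfd

/-- **(TATE) for `N`** in the consumer shape of `GP/GW/Model.lean`. -/
theorem tateLe_of_artin_base (hp2 : p ≠ 2) (hU : U ∈ (levelS S).sets)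
    (hfinS : HlcFinite (p := p) S) (artin : ArtinInduction p (GQ ⧸ U))
    (hIC : InfCoind (p := p) U) (base : BaseCase (p := p) S U)
    (N : Rep.{0} (ZMod p) GQ) [FiniteDimensional (ZMod p) N] [IsDiscrete (levelS S) N]
    (hN : ∀ u ∈ U, N.ρ u = 1) : TateLe S N :=
  tateLe_of_tateDefect_le S N
    (le_of_eq (tateDefect_eq_zero_of_artin_base hp2 hU hfinS artin hIC base N hN))

end Main

end

end Fermat.Agent.GP.GW.Euler
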