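/-
GATE-P / S56 [P-GW] node E-GLUE, halves (b)+(c) (helper78): **inflation from a finite level and its
compatibility with coinduction**, generic in `(G, 𝒰, k)`.

* `exists_level_trivial` : a finite, `𝒰`-discrete representation `N` is trivial on some NORMAL member
  `U` of the level system, which can be chosen inside any given open subgroup `V`;
* `isTrivial_of_forall`, `inflIso` : then `N ≅ Rep.res (mk' U) (N.ofQuotient U)` (identity on carriers);
  `exists_inflation` : the packaged existence statement;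
* `isDiscrete_res` : `Rep.res π X` is `𝒰`-discrete when `ker π` is open; finiteness is inherited;
  short exact sequences are preserved (`Rep.shortExact_res`, Mathlib);
* `resCoindIso` : `Rep.res π (coind_C^Γ Y) ≅ coind_{π⁻¹C}^G (Rep.res π|_C Y)` for `π : G →* Γ` ONTO,
  `C ≤ Γ`, `Y : Rep k C` (the map is `F ↦ F ∘ π`);
* `isOpenSub_comap`, `ker_le_comap`, `subgroupComap_surjective`, `ker_subgroupComap`,
  `comapQuotientEquiv : (C.comap π) ⧸ ker ≃* C`, `isCyclic_comap_quotient`, `card_comap_quotient`,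
  `res_subgroupComap_trivial` : the hypotheses of the cyclic base case for `H := π⁻¹C`, `H₀ := ker π`.
-/
import Fermat.Agent.GC.Prof.InflGen
import Fermat.Agent.GC.Prof.CoindDisc

set_option autoImplicit false
set_option linter.unusedSectionVars false

open CategoryTheory

noncomputable section

namespace Fermat.Agent.GP.GW.Euler.InflCoind

open Fermat.Agent.GC.Prof

universe u

/-! ### (b) a finite discrete representation is inflated from a finite level -/

section Level

variable {k G : Type u} [CommRing k] [Group G] (𝒰 : LevelSystem G)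

/-- A finite `𝒰`-discrete representation is trivial on a normal member of the level system, which
may be chosen inside any given open subgroup. -/
theorem exists_level_trivial (N : Rep.{u} k G) [Module.Finite k N] [IsDiscrete 𝒰 N]
    {V : Subgroup G} (hV : IsOpenSub 𝒰 V) :
    ∃ U ∈ 𝒰.sets, U.Normal ∧ U.FiniteIndex ∧ U ≤ V ∧ ∀ u ∈ U, N.ρ u = LinearMap.id := by
  classical
  obtain ⟨s, hs⟩ := (Module.finite_def.1 (inferInstance : Module.Finite k N))
  have hfix : ∀ m : N, ∃ U ∈ 𝒰.sets, ∀ g ∈ U, N.ρ g m = m :=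
    fun m => IsDiscrete.exists_fix (𝒰 := 𝒰) m
  choose W hW hWfix using hfix
  obtain ⟨U₁, hU₁, hU₁le, -, -⟩ :=
    𝒰.exists_normal_le_finite (s : Set N) s.finite_toSet W (fun m _ => hW m)
  obtain ⟨V₀, hV₀, hV₀V⟩ := hV
  obtain ⟨U, hU, hUU₁, hUV₀, hn, hfi⟩ := 𝒰.exists_normal_le_inf hU₁ hV₀
  refine ⟨U, hU, hn, hfi, hUV₀.trans hV₀V, fun u hu => ?_⟩
  have hle : (⊤ : Submodule k N) ≤ LinearMap.eqLocus (N.ρ u) LinearMap.id := by
    rw [← hs, Submodule.span_le]
    intro m hm
    exact hWfix m u (hU₁le m hm (hUU₁ hu))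
  ext m
  exact hle (Submodule.mem_top : m ∈ ⊤)

variable {𝒰}

/-- the `IsTrivial` instance needed by `Rep.ofQuotient`. -/
theorem isTrivial_of_forall (N : Rep.{u} k G) (U : Subgroup G)
    (hU : ∀ u ∈ U, N.ρ u = LinearMap.id) : Representation.IsTrivial (N.ρ.comp U.subtype) :=
  ⟨fun u => hU u u.2⟩

/-- `N` is the inflation of `N.ofQuotient U` (identity on carriers). -/
def inflIso (N : Rep.{u} k G) (U : Subgroup G) [U.Normal]
    [Representation.IsTrivial (N.ρ.comp U.subtype)] :
    N ≅ Rep.res (QuotientGroup.mk' U) (N.ofQuotient U) :=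
  (Rep.resOfQuotientIso N U).symm

theorem inflIso_hom_apply (N : Rep.{u} k G) (U : Subgroup G) [U.Normal]
    [Representation.IsTrivial (N.ρ.comp U.subtype)] (m : N) :
    (inflIso N U).hom.hom m = m := rfl

/-- **packaged form**: a finite discrete representation is the inflation of a finite representation
of a finite quotient `G ⧸ U`, `U` a normal member of the level system inside a given open `V`. -/
theorem exists_inflation (𝒰 : LevelSystem G) (N : Rep.{u} k G) [Module.Finite k N]
    [IsDiscrete 𝒰 N] {V : Subgroup G} (hV : IsOpenSub 𝒰 V) :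
    ∃ (U : Subgroup G) (_ : U.Normal), U ∈ 𝒰.sets ∧ U.FiniteIndex ∧ U ≤ V ∧
      ∃ X : Rep.{u} k (G ⧸ U), Module.Finite k X ∧
        Nonempty (N ≅ Rep.res (QuotientGroup.mk' U) X) := by
  obtain ⟨U, hU, hn, hfi, hUV, htriv⟩ := exists_level_trivial 𝒰 N hV
  have := hn
  have := isTrivial_of_forall N U htriv
  exact ⟨U, hn, hU, hfi, hUV, N.ofQuotient U, inferInstanceAs (Module.Finite k N),
    ⟨inflIso N U⟩⟩

end Level

/-! ### inflation preserves discreteness and finiteness -/

section Res

variable {k G Γ : Type u} [CommRing k] [Group G] [Group Γ] {𝒰 : LevelSystem G}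

/-- the inflation of a representation along a map with open kernel is discrete. -/
theorem isDiscrete_res {π : G →* Γ} (hπ : IsOpenKer 𝒰 π) (X : Rep.{u} k Γ) :
    IsDiscrete 𝒰 (Rep.res π X) where
  exists_fix m := by
    obtain ⟨U, hU, hUk⟩ := hπ
    refine ⟨U, hU, fun s hs => ?_⟩
    show X.ρ (π s) m = m
    rw [MonoidHom.mem_ker.1 (hUk hs), map_one]
    rfl

theorem finite_res (π : G →* Γ) (X : Rep.{u} k Γ) [Module.Finite k X] :
    Module.Finite k (Rep.res π X) :=
  inferInstanceAs (Module.Finite k X)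

end Res

/-! ### (c) inflation commutes with coinduction -/

section Coind

variable {k G Γ : Type u} [CommRing k] [Group G] [Group Γ]
variable (π : G →* Γ) (C : Subgroup Γ) (Y : Rep.{u} k C)

/-- `F ↦ F ∘ π` on coinduced functions. -/
def resCoindTo :
    (Rep.res π (Rep.coind C.subtype Y)) →ₗ[k]
      (Rep.coind (C.comap π).subtype (Rep.res (π.subgroupComap C) Y)) where
  toFun F := ⟨fun g => F.1 (π g), fun h g => by
    show F.1 (π ((h : G) * g)) = Y.ρ (π.subgroupComap C h) (F.1 (π g))
    rw [map_mul]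
    exact F.2 (π.subgroupComap C h) (π g)⟩
  map_add' F F' := rfl
  map_smul' c F := rfl

theorem resCoindTo_apply (F : Rep.res π (Rep.coind C.subtype Y)) (g : G) :
    (resCoindTo π C Y F).1 g = F.1 (π g) := rfl

variable {π}

/-- a function in the coinduction from `π⁻¹C` of an inflated module is constant on the fibres of
`π`. -/
theorem coind_apply_eq_of_map_eq
    (F : Rep.coind (C.comap π).subtype (Rep.res (π.subgroupComap C) Y)) {g g' : G}
    (h : π g = π g') : F.1 g = F.1 g' := by
  have hk : π (g * g'⁻¹) = 1 := by rw [map_mul, map_inv, h, mul_inv_cancel]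
  have hmem : g * g'⁻¹ ∈ C.comap π := by
    rw [Subgroup.mem_comap, hk]
    exact C.one_mem
  have h1 : g = (C.comap π).subtype ⟨g * g'⁻¹, hmem⟩ * g' := by
    simp
  have h2 : π.subgroupComap C ⟨g * g'⁻¹, hmem⟩ = 1 := by
    apply Subtype.ext
    exact hk
  conv_lhs => rw [h1]
  rw [F.2 ⟨g * g'⁻¹, hmem⟩ g']
  show Y.ρ (π.subgroupComap C ⟨g * g'⁻¹, hmem⟩) (F.1 g') = F.1 g'
  rw [h2, map_one]
  rfl

variable (hπ : Function.Surjective π)

/-- the inverse of `F ↦ F ∘ π` (for `π` onto). -/
def resCoindInv :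
    (Rep.coind (C.comap π).subtype (Rep.res (π.subgroupComap C) Y)) →ₗ[k]
      (Rep.res π (Rep.coind C.subtype Y)) where
  toFun F := ⟨fun γ => F.1 (Function.surjInv hπ γ), fun c γ => by
    obtain ⟨h, hh⟩ := hπ (c : Γ)
    have hmem : h ∈ C.comap π := by
      rw [Subgroup.mem_comap, hh]
      exact c.2
    have hc : π.subgroupComap C ⟨h, hmem⟩ = c := Subtype.ext hh
    have e : π (Function.surjInv hπ (C.subtype c * γ)) =
        π ((C.comap π).subtype ⟨h, hmem⟩ * Function.surjInv hπ γ) := by
      rw [Function.surjInv_eq hπ, map_mul, Function.surjInv_eq hπ]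
      show (c : Γ) * γ = π h * γ
      rw [hh]
    show F.1 (Function.surjInv hπ (C.subtype c * γ)) = Y.ρ c (F.1 (Function.surjInv hπ γ))
    rw [coind_apply_eq_of_map_eq C Y F e, F.2 ⟨h, hmem⟩ (Function.surjInv hπ γ)]
    show Y.ρ (π.subgroupComap C ⟨h, hmem⟩) _ = _
    rw [hc]⟩
  map_add' F F' := rfl
  map_smul' c F := rfl

theorem resCoindInv_apply
    (F : Rep.coind (C.comap π).subtype (Rep.res (π.subgroupComap C) Y)) (g : G) :
    (resCoindInv C Y hπ F).1 (π g) = F.1 g :=
  coind_apply_eq_of_map_eq C Y F (Function.surjInv_eq hπ (π g))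

/-- `F ↦ F ∘ π` as a linear equivalence. -/
def resCoindEquiv :
    (Rep.res π (Rep.coind C.subtype Y)) ≃ₗ[k]
      (Rep.coind (C.comap π).subtype (Rep.res (π.subgroupComap C) Y)) where
  __ := resCoindTo π C Y
  invFun := resCoindInv C Y hπ
  left_inv F := by
    apply Subtype.ext
    funext γ
    show F.1 (π (Function.surjInv hπ γ)) = F.1 γ
    rw [Function.surjInv_eq hπ]
  right_inv F := by
    apply Subtype.ext
    funext g
    exact resCoindInv_apply C Y hπ F g

/-- **inflation commutes with coinduction**: `Inf_π (coind_C^Γ Y) ≅ coind_{π⁻¹C}^G (Inf Y)`. -/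
def resCoindIso :
    Rep.res π (Rep.coind C.subtype Y) ≅
      Rep.coind (C.comap π).subtype (Rep.res (π.subgroupComap C) Y) :=
  Rep.mkIso (Representation.Equiv.mk (resCoindEquiv C Y hπ) fun g => by
    ext F x
    show F.1 (π x * π g) = F.1 (π (x * g))
    rw [map_mul])

theorem resCoindIso_hom_apply (F : Rep.res π (Rep.coind C.subtype Y)) (g : G) :
    ((resCoindIso C Y hπ).hom.hom F).1 g = F.1 (π g) := rfl

end Coind

/-! ### the subgroup `π⁻¹ C` -/

section Comap

variable {G Γ : Type u} [Group G] [Group Γ] {𝒰 : LevelSystem G} {π : G →* Γ}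

theorem ker_le_comap (C : Subgroup Γ) : π.ker ≤ C.comap π := by
  intro g hg
  rw [Subgroup.mem_comap, MonoidHom.mem_ker.1 hg]
  exact C.one_mem

theorem isOpenSub_ker (hπ : IsOpenKer 𝒰 π) : IsOpenSub 𝒰 π.ker := hπ

theorem isOpenSub_comap (hπ : IsOpenKer 𝒰 π) (C : Subgroup Γ) : IsOpenSub 𝒰 (C.comap π) :=
  IsOpenSub.mono hπ (ker_le_comap C)

theorem subgroupComap_surjective (hπ : Function.Surjective π) (C : Subgroup Γ) :
    Function.Surjective (π.subgroupComap C) := by
  intro c
  obtain ⟨g, hg⟩ := hπ (c : Γ)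
  refine ⟨⟨g, ?_⟩, Subtype.ext hg⟩
  rw [Subgroup.mem_comap, hg]
  exact c.2

theorem ker_subgroupComap (C : Subgroup Γ) :
    (π.subgroupComap C).ker = π.ker.subgroupOf (C.comap π) := by
  ext h
  rw [MonoidHom.mem_ker, Subgroup.mem_subgroupOf, MonoidHom.mem_ker]
  constructor
  · intro hh
    exact congrArg Subtype.val hh
  · intro hh
    exact Subtype.ext hh

/-- `π⁻¹C / ker π ≃* C`. -/
def comapQuotientEquiv (hπ : Function.Surjective π) (C : Subgroup Γ) :
    (C.comap π) ⧸ (π.subgroupComap C).ker ≃* C :=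
  QuotientGroup.quotientKerEquivOfSurjective (π.subgroupComap C) (subgroupComap_surjective hπ C)

theorem isCyclic_comap_quotient (hπ : Function.Surjective π) (C : Subgroup Γ) [IsCyclic C] :
    IsCyclic ((C.comap π) ⧸ (π.subgroupComap C).ker) :=
  isCyclic_of_surjective (comapQuotientEquiv hπ C).symm (comapQuotientEquiv hπ C).symm.surjective

theorem card_comap_quotient (hπ : Function.Surjective π) (C : Subgroup Γ) :
    Nat.card ((C.comap π) ⧸ (π.subgroupComap C).ker) = Nat.card C :=
  Nat.card_congr (comapQuotientEquiv hπ C).toEquiv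

/-- the inflated module is trivial on `ker π`. -/
theorem res_subgroupComap_trivial {k : Type u} [CommRing k] (C : Subgroup Γ) (Y : Rep.{u} k C)
    (h : C.comap π) (hh : (h : G) ∈ π.ker) :
    (Rep.res (π.subgroupComap C) Y).ρ h = LinearMap.id := by
  have h1 : π.subgroupComap C h = 1 := Subtype.ext (MonoidHom.mem_ker.1 hh)
  show Y.ρ (π.subgroupComap C h) = LinearMap.id
  rw [h1, map_one]
  rfl

end Comap

end Fermat.Agent.GP.GW.Euler.InflCoind
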