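/-
GATE-P (S56) / [P-GW] leaf S56-GW-TATE-PLUG (helper7): **`(TATE)` from the cyclic base case ALONE.**

`Glue.tateLe_of_artin_base` (helper59) proves `TateLe S N` from four inputs.  Three of them are
theorems on main:

* `artin : ArtinInduction p (G_ℚ ⧸ U)`  ← `Artin.artin_induction_rep_zmod` (helper30 / helper69, E1);
* `hIC : InfCoind U`                    ← `InflCoind.resCoindIso` (helper78);
* `hfinS : HlcFinite S`                 ← `NineTermExport.hlc_finite_of_odd` (helper19, from `PTData`).

This file plugs them: **`tateLe_of_baseCase`** needs only `base : BaseCase S U` (E3) for ONE normal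
level `U` on which `N` is trivial.  Imports only.
-/
import Mathlib
import Fermat.Agent.GP.GW.Euler.Glue
import Fermat.Agent.GP.GW.Euler.InflCoind
import Fermat.Agent.GP.GW.Artin.E1
import Fermat.Agent.GP.GW.NineTermExport

set_option autoImplicit false

namespace Fermat.Agent.GP.GW.Euler.TatePlug

open Fermat.Agent.GC.Prof Fermat.Agent.GC.PT Fermat.Agent.GC.PT.Triples CategoryTheory
  ExtCitation Module Fermat.Agent.GC.C0 Fermat.Agent.GP.GW Fermat.Agent.GP.GW.Euler

noncomputable section

variable {p : ℕ} [Fact p.Prime]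

/-- **E1 plugged**: modular Artin induction for the finite quotient `G_ℚ ⧸ U`. -/
theorem artinInduction_of_finite (Γ : Type) [Group Γ] [Finite Γ] : ArtinInduction p Γ := by
  intro Φ hiso hadd hind A hA
  exact Artin.artin_induction_rep_zmod p Φ hiso
    (fun X hX hfd => hadd X hX hfd) (fun C hC hpC Y hY => hind C hC hpC Y hY) A hA

/-- **INFCOIND plugged**: inflation along `G_ℚ → G_ℚ ⧸ U` commutes with coinduction. -/
theorem infCoind (U : Subgroup GQ) [U.Normal] : InfCoind (p := p) U := by
  intro C Y
  exact ⟨InflCoind.resCoindIso C Y (QuotientGroup.mk'_surjective U)⟩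

/-- **finiteness plugged**: `Hlcⁱ` finite for `i ≤ 2` and `Hlc³ = 0` (from `PTData`, `p` odd). -/
theorem hlcFinite (hp2 : p ≠ 2) (S : Finset Nat.Primes) [IsDiscrete (levelS S) (TChi p)]
    (hpS : pPrime p ∈ S) : HlcFinite (p := p) S := by
  intro N _ _
  exact NineTermExport.hlc_finite_of_odd hp2 hpS N

/-- A member of the level system `levelS S` has finite index. -/
theorem finite_quotient_of_mem_levelS {S : Finset Nat.Primes} {U : Subgroup GQ} [U.Normal]
    (hU : U ∈ (levelS S).sets) : Finite (GQ ⧸ U) := by
  have : U.FiniteIndex := (levelS S).finiteIndex_of_mem hU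
  exact Subgroup.finite_quotient_of_finiteIndex

/-- **`(TATE)` from the cyclic base case alone.**  `N` finite-dimensional, `levelS S`-discrete,
trivial on a normal member `U` of the level system; `base : BaseCase S U` is the E3 statement. -/
theorem tateLe_of_baseCase (hp2 : p ≠ 2) (S : Finset Nat.Primes)
    [IsDiscrete (levelS S) (TChi p)] (hpS : pPrime p ∈ S)
    (U : Subgroup GQ) [U.Normal] (hU : U ∈ (levelS S).sets)
    (base : BaseCase (p := p) S U)
    (N : Rep.{0} (ZMod p) GQ) [FiniteDimensional (ZMod p) N] [IsDiscrete (levelS S) N]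
    (hN : ∀ u ∈ U, N.ρ u = 1) : TateLe S N := by
  have : Finite (GQ ⧸ U) := finite_quotient_of_mem_levelS hU
  exact tateLe_of_artin_base hp2 hU (hlcFinite hp2 S hpS) (artinInduction_of_finite (GQ ⧸ U))
    (infCoind U) base N hN

/-- The equality form: Tate's defect vanishes. -/
theorem tateDefect_eq_zero_of_baseCase (hp2 : p ≠ 2) (S : Finset Nat.Primes)
    [IsDiscrete (levelS S) (TChi p)] (hpS : pPrime p ∈ S)
    (U : Subgroup GQ) [U.Normal] (hU : U ∈ (levelS S).sets)
    (base : BaseCase (p := p) S U)
    (N : Rep.{0} (ZMod p) GQ) [FiniteDimensional (ZMod p) N] [IsDiscrete (levelS S) N]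
    (hN : ∀ u ∈ U, N.ρ u = 1) : tateDefect S N = 0 := by
  have : Finite (GQ ⧸ U) := finite_quotient_of_mem_levelS hU
  exact tateDefect_eq_zero_of_artin_base hp2 hU (hlcFinite hp2 S hpS)
    (artinInduction_of_finite (GQ ⧸ U)) (infCoind U) base N hN

end

end Fermat.Agent.GP.GW.Euler.TatePlug
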