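/-
GATE-P (S56) / [P-GW] leaf S56-GW-TATE-PLUG, part 2 (helper7): **the `htate` binder of CORE for
`N = ad⁰ρ̄`** — `(TATE)` for `N* = (adBar p ρbar b).dualTwist (cycloChar p)` at every level
`S' ⊇ Σ`, from the E3 statement `BaseCase S' U` for the ONE normal subgroup
`U = kerBoth (toMatRes ρbar b) = G_F`, `F = ℚ(ρ̄, ζ_p)` (helper71 `SKillTop`).

* `dualTwist_ρ_eq_one` : `A*` is trivial where `A` and `χ` are;
* `kerBoth_mem_levelS` : `G_F ∈ levelS S'` for `S' ⊇ S₀` (`ρ̄` unramified outside `S₀ ∋ p`);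
* `adBar_dualTwist_trivial_on_kerBoth`, `adBar_trivial_on_kerBoth`, `adBarTw_trivial_on_kerBoth`;
* **`tateLe_adBar_dualTwist`**, `tateLe_adBarTw`, `tateLe_adBar` : `(TATE)` from `BaseCase`;
* **`htate_adBar`** : the exact `htate` binder of `GP/Core/CoreAsm.selmerBounds_base_of_nodes`.
Imports only.
-/
import Mathlib
import Fermat.Agent.GP.GW.Euler.TatePlug
import Fermat.Agent.GP.GW.SKillTop
import Fermat.Agent.GP.Bridge.Ad0RepInst

set_option autoImplicit false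

namespace Fermat.Agent.GP.GW.Euler.TateAd0

open Fermat.Agent.GC.Prof Fermat.Agent.GC.PT Fermat.Agent.GC.PT.Triples CategoryTheory
  ExtCitation Module Fermat.Agent.GC.C0 Fermat.Agent.GP.GW Fermat.Agent.GP.GW.Euler
  Fermat.Agent.GP.GW.SKillTop Fermat.Agent.GP.Bridge.Ad0 Fermat.Agent.S53_helper35

noncomputable section

universe u

/-- `A* = A.dualTwist χ` is trivial at `u` as soon as `A` and `χ` are. -/
theorem dualTwist_ρ_eq_one {k G : Type u} [CommRing k] [Group G] (A : Rep k G) (χ : G →* kˣ)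
    (u : G) (hA : A.ρ u = 1) (hχ : χ u = 1) : (A.dualTwist χ).ρ u = 1 := by
  have hAi : A.ρ u⁻¹ = 1 := by
    have h := map_mul A.ρ u⁻¹ u
    rw [inv_mul_cancel, map_one, hA, mul_one] at h
    exact h.symm
  refine LinearMap.ext fun f => ?_
  rw [Rep.dualTwist_ρ_apply, hχ, Units.val_one, one_smul, hAi]
  rfl

variable {p : ℕ} [Fact p.Prime] {k : Type} [Field k] [Algebra (ZMod p) k]
variable (ρbar : ResidualGaloisRep k) (b : Module.Basis (Fin 2) k ρbar.V)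

omit [Algebra (ZMod p) k] in
/-- `G_F = kerBoth (toMatRes ρbar b)` is a member of `levelS S'` for every `S' ⊇ S₀`. -/
theorem kerBoth_mem_levelS (S₀ : Finset Nat.Primes) (hpS₀ : pPrime p ∈ S₀)
    (hur : ∀ q : Nat.Primes, q ∉ S₀ → ρbar.IsUnramifiedAt (q : ℕ))
    {S' : Finset Nat.Primes} (hS : S₀ ⊆ S') :
    kerBoth (p := p) (toMatRes ρbar b) ∈ (levelS S').sets := by
  obtain ⟨F, -, hF, hFeq⟩ := exists_field (p := p) (toMatRes ρbar b) (factors_toMatRes ρbar b)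
    S₀ hpS₀ (toMatRes_inertia ρbar b S₀ hur)
  exact (mem_levelS_iff S' _).2 ⟨F, hF.mono hS, hFeq.symm⟩

/-- `ad⁰ρ̄ ⊗ χ` is trivial on `kerBoth` for `χ = 1` or `χ = cycloChar p`. -/
theorem adRep_trivial_on_kerBoth (χ : Fermat.Agent.GC.C0.GQ →* (ZMod p)ˣ)
    (hχ : ∀ u ∈ kerBoth (p := p) (toMatRes ρbar b), χ u = 1)
    (u : Fermat.Agent.GC.C0.GQ) (hu : u ∈ kerBoth (p := p) (toMatRes ρbar b)) :
    (adRep p (toMatRes ρbar b) χ).ρ u = 1 :=
  adRho_eq_one_of p (toMatRes ρbar b) χ hu.1 (hχ u hu)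

theorem adBar_trivial_on_kerBoth (u : Fermat.Agent.GC.C0.GQ)
    (hu : u ∈ kerBoth (p := p) (toMatRes ρbar b)) : (adBar p ρbar b).ρ u = 1 :=
  adRep_trivial_on_kerBoth ρbar b 1 (fun _ _ => rfl) u hu

theorem adBarTw_trivial_on_kerBoth (u : Fermat.Agent.GC.C0.GQ)
    (hu : u ∈ kerBoth (p := p) (toMatRes ρbar b)) : (adBarTw p ρbar b).ρ u = 1 :=
  adRep_trivial_on_kerBoth ρbar b (cycloChar p) (fun _ h => h.2) u hu

theorem adBar_dualTwist_trivial_on_kerBoth (u : Fermat.Agent.GC.C0.GQ)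
    (hu : u ∈ kerBoth (p := p) (toMatRes ρbar b)) :
    ((adBar p ρbar b).dualTwist (cycloChar p)).ρ u = 1 :=
  dualTwist_ρ_eq_one (adBar p ρbar b) (cycloChar p) u (adBar_trivial_on_kerBoth ρbar b u hu) hu.2

variable [Finite k]

instance finiteDimensional_adBar_dualTwist :
    FiniteDimensional (ZMod p) ((adBar p ρbar b).dualTwist (cycloChar p)) :=
  inferInstanceAs (FiniteDimensional (ZMod p) (Module.Dual (ZMod p) (adBar p ρbar b)))

/-- **`(TATE)` for `N* = (ad⁰ρ̄)^*(1)`** from the cyclic base case for `U = G_F`. -/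
theorem tateLe_adBar_dualTwist (hp2 : p ≠ 2) (S₀ : Finset Nat.Primes) (hpS₀ : pPrime p ∈ S₀)
    (hur : ∀ q : Nat.Primes, q ∉ S₀ → ρbar.IsUnramifiedAt (q : ℕ))
    (S' : Finset Nat.Primes) (hS : S₀ ⊆ S')
    [IsDiscrete (levelS S') ((adBar p ρbar b).dualTwist (cycloChar p))]
    (base : BaseCase (p := p) S' (kerBoth (p := p) (toMatRes ρbar b))) :
    TateLe S' ((adBar p ρbar b).dualTwist (cycloChar p)) := by
  have : IsDiscrete (levelS S') (TChi p) := isDiscrete_TChi S' (hS hpS₀)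
  exact TatePlug.tateLe_of_baseCase hp2 S' (hS hpS₀) _
    (kerBoth_mem_levelS ρbar b S₀ hpS₀ hur hS) base _
    (adBar_dualTwist_trivial_on_kerBoth ρbar b)

/-- `(TATE)` for `ad⁰ρ̄(1)` (the `adRep … (cycloChar p)` model). -/
theorem tateLe_adBarTw (hp2 : p ≠ 2) (S₀ : Finset Nat.Primes) (hpS₀ : pPrime p ∈ S₀)
    (hur : ∀ q : Nat.Primes, q ∉ S₀ → ρbar.IsUnramifiedAt (q : ℕ))
    (S' : Finset Nat.Primes) (hS : S₀ ⊆ S') [IsDiscrete (levelS S') (adBarTw p ρbar b)]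
    (base : BaseCase (p := p) S' (kerBoth (p := p) (toMatRes ρbar b))) :
    TateLe S' (adBarTw p ρbar b) := by
  have : IsDiscrete (levelS S') (TChi p) := isDiscrete_TChi S' (hS hpS₀)
  exact TatePlug.tateLe_of_baseCase hp2 S' (hS hpS₀) _
    (kerBoth_mem_levelS ρbar b S₀ hpS₀ hur hS) base _ (adBarTw_trivial_on_kerBoth ρbar b)

/-- `(TATE)` for `ad⁰ρ̄`. -/
theorem tateLe_adBar (hp2 : p ≠ 2) (S₀ : Finset Nat.Primes) (hpS₀ : pPrime p ∈ S₀)
    (hur : ∀ q : Nat.Primes, q ∉ S₀ → ρbar.IsUnramifiedAt (q : ℕ))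
    (S' : Finset Nat.Primes) (hS : S₀ ⊆ S') [IsDiscrete (levelS S') (adBar p ρbar b)]
    (base : BaseCase (p := p) S' (kerBoth (p := p) (toMatRes ρbar b))) :
    TateLe S' (adBar p ρbar b) := by
  have : IsDiscrete (levelS S') (TChi p) := isDiscrete_TChi S' (hS hpS₀)
  exact TatePlug.tateLe_of_baseCase hp2 S' (hS hpS₀) _
    (kerBoth_mem_levelS ρbar b S₀ hpS₀ hur hS) base _ (adBar_trivial_on_kerBoth ρbar b)

/-- **The `htate` binder of `GP/Core/CoreAsm.selmerBounds_base_of_nodes`** for `N := adBar p ρbar b`: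
`(TATE)` for `N*` at every level `S' ⊇ Σ`, from `BaseCase S' G_F` at every such level. -/
theorem htate_adBar (hp2 : p ≠ 2) (S₀ : Finset Nat.Primes) (hpS₀ : pPrime p ∈ S₀)
    (hur : ∀ q : Nat.Primes, q ∉ S₀ → ρbar.IsUnramifiedAt (q : ℕ))
    (Sig : Finset Nat.Primes) (hSig : S₀ ⊆ Sig)
    (base : ∀ S' : Finset Nat.Primes, Sig ⊆ S' →
      BaseCase (p := p) S' (kerBoth (p := p) (toMatRes ρbar b))) :
    ∀ (S' : Finset Nat.Primes)
      [IsDiscrete (levelS S') ((adBar p ρbar b).dualTwist (cycloChar p))],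
      Sig ⊆ S' → TateLe S' ((adBar p ρbar b).dualTwist (cycloChar p)) :=
  fun S' _ hS' => tateLe_adBar_dualTwist ρbar b hp2 S₀ hpS₀ hur S' (hSig.trans hS') (base S' hS')

end

end Fermat.Agent.GP.GW.Euler.TateAd0
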