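/-
GATE-P / S56 [P-GW] E3d (helper12), part 2: the `⋆`-action of a normalising element on
`Φ_Sg(B) := Coind_Sg^G Res_Sg B` for a representation `B` of the BIG group `G`.

For `n : G` with `n⁻¹ Sg n ≤ Sg`:  `(n ⋆ f)(x) = n • f(n⁻¹ x)`.  It is a morphism of `G`-representations
`Φ_Sg(B) ⟶ Φ_Sg(B)`, NATURAL in `B`, multiplicative in `n`, trivial for `n ∈ Sg`, and it corresponds to
the action of `n` on `B^Sg` under evaluation at `1` (Shapiro in degree `0`).
-/
import Mathlib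

set_option autoImplicit false

open CategoryTheory

noncomputable section

namespace Fermat.Agent.GP.GW.Euler.StarRes

universe u

variable {k G : Type u} [CommRing k] [Group G] (Sg : Subgroup G)

/-- `Φ_Sg(B) = Coind_Sg^G Res_Sg B`. -/
abbrev Phi (B : Rep.{u} k G) : Rep.{u} k G := Rep.coind Sg.subtype (Rep.res Sg.subtype B)

/-- `n` conjugates `Sg` into itself: `n⁻¹ Sg n ≤ Sg`. -/
def Norm (n : G) : Prop := ∀ s ∈ Sg, n⁻¹ * s * n ∈ Sg

theorem Norm.one : Norm Sg (1 : G) := fun s hs => by simpa using hs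

variable {Sg}

theorem Norm.mul {n m : G} (hn : Norm Sg n) (hm : Norm Sg m) : Norm Sg (n * m) := fun s hs => by
  have := hm _ (hn s hs)
  simpa [mul_assoc] using this

theorem Norm.of_mem {n : G} (hn : n ∈ Sg) : Norm Sg n := fun _ hs =>
  Sg.mul_mem (Sg.mul_mem (Sg.inv_mem hn) hs) hn

variable (B : Rep.{u} k G)

theorem star_mem {n : G} (hn : Norm Sg n) (f : Phi Sg B) :
    (fun x : G => B.ρ n (f.1 (n⁻¹ * x))) ∈
      Representation.coindV Sg.subtype (Rep.res Sg.subtype B).ρ := by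
  intro s x
  have h1 : n⁻¹ * ((s : G) * x) = ((⟨n⁻¹ * s * n, hn s s.2⟩ : Sg) : G) * (n⁻¹ * x) := by
    simp [mul_assoc]
  have h2 : f.1 (n⁻¹ * ((s : G) * x)) = B.ρ (n⁻¹ * s * n) (f.1 (n⁻¹ * x)) := by
    rw [h1]
    exact f.2 ⟨n⁻¹ * s * n, hn s s.2⟩ (n⁻¹ * x)
  show B.ρ n (f.1 (n⁻¹ * ((s : G) * x))) = B.ρ (s : G) (B.ρ n (f.1 (n⁻¹ * x)))
  rw [h2, ← Module.End.mul_apply, ← map_mul, ← Module.End.mul_apply, ← map_mul]
  congr 2
  simp [mul_assoc]

/-- The `⋆`-action as a linear map. -/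
def starLin {n : G} (hn : Norm Sg n) : (Phi Sg B).V →ₗ[k] (Phi Sg B).V where
  toFun f := ⟨fun x : G => B.ρ n (f.1 (n⁻¹ * x)), star_mem B hn f⟩
  map_add' f g := by
    apply Subtype.ext
    funext x
    show B.ρ n ((f + g).1 (n⁻¹ * x)) = B.ρ n (f.1 (n⁻¹ * x)) + B.ρ n (g.1 (n⁻¹ * x))
    rw [← map_add]
    rfl
  map_smul' c f := by
    apply Subtype.ext
    funext x
    show B.ρ n ((c • f).1 (n⁻¹ * x)) = c • B.ρ n (f.1 (n⁻¹ * x))
    rw [← map_smul]
    rfl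

/-- **The `⋆`-action** of a normalising element on `Coind_Sg^G Res_Sg B`. -/
def star {n : G} (hn : Norm Sg n) : Phi Sg B ⟶ Phi Sg B :=
  Rep.ofHom
    { toLinearMap := starLin B hn
      isIntertwining' := fun g => by
        apply LinearMap.ext
        intro f
        apply Subtype.ext
        funext x
        show B.ρ n (f.1 (n⁻¹ * x * g)) = B.ρ n (f.1 (n⁻¹ * (x * g)))
        rw [mul_assoc] }

theorem star_apply {n : G} (hn : Norm Sg n) (f : Phi Sg B) (x : G) :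
    ((star B hn).hom f).1 x = B.ρ n (f.1 (n⁻¹ * x)) := rfl

/-- Naturality of `⋆` in the coefficient representation. -/
theorem star_naturality {B B' : Rep.{u} k G} (φ : B ⟶ B') {n : G} (hn : Norm Sg n) :
    star B hn ≫ Rep.coindMap Sg.subtype ((Rep.resFunctor Sg.subtype).map φ) =
      Rep.coindMap Sg.subtype ((Rep.resFunctor Sg.subtype).map φ) ≫ star B' hn := by
  ext f x
  show φ.hom (B.ρ n (f.1 (n⁻¹ * x))) = B'.ρ n (φ.hom (f.1 (n⁻¹ * x)))
  exact Rep.hom_comm_apply φ n _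

theorem star_one : star B (Norm.one Sg) = 𝟙 (Phi Sg B) := by
  ext f x
  show B.ρ 1 (f.1 (1⁻¹ * x)) = f.1 x
  simp

theorem star_mul {n m : G} (hn : Norm Sg n) (hm : Norm Sg m) :
    star B (hn.mul hm) = star B hm ≫ star B hn := by
  ext f x
  show B.ρ (n * m) (f.1 ((n * m)⁻¹ * x)) = B.ρ n (B.ρ m (f.1 (m⁻¹ * (n⁻¹ * x))))
  rw [map_mul, Module.End.mul_apply, mul_inv_rev, mul_assoc]

theorem star_of_mem {n : G} (hn : n ∈ Sg) : star B (Norm.of_mem hn) = 𝟙 (Phi Sg B) := by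
  ext f x
  show B.ρ n (f.1 (n⁻¹ * x)) = f.1 x
  have h := f.2 ⟨n⁻¹, Sg.inv_mem hn⟩ x
  have h' : f.1 (n⁻¹ * x) = B.ρ n⁻¹ (f.1 x) := h
  rw [h', ← Module.End.mul_apply, ← map_mul, mul_inv_cancel, map_one]
  rfl

/-- Evaluation at `1` intertwines `⋆` with the action of `n` on `B`. -/
theorem star_eval_one {n : G} (hn : Norm Sg n) (f : Phi Sg B)
    (hf : ∀ g : G, (Phi Sg B).ρ g f = f) :
    ((star B hn).hom f).1 1 = B.ρ n (f.1 1) := by
  rw [star_apply, mul_one]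
  have := congrArg (fun F : Phi Sg B => F.1 1) (hf n⁻¹)
  have h2 : ((Phi Sg B).ρ n⁻¹ f).1 1 = f.1 (1 * n⁻¹) := rfl
  rw [one_mul] at h2
  simp only at this
  rw [← this, h2]

end Fermat.Agent.GP.GW.Euler.StarRes
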