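/-
GATE-P / S56 [P-GW] leaf E3a/E3b (helper51; Mathlib only, orphan): **characteristic-polynomial
calculus** for the cyclic-`p′` base case of Tate's global Euler characteristic (helper59, board 4002,
(R1)(R4)).

* (A) `charpoly_restrict_mul_mapQ` : `charpoly e = charpoly (e|W) * charpoly (e on V/W)`;
* (B) `charpoly_of_exact_free` / `charpoly_of_exact` : multiplicativity on short exact sequences of
  finite free modules over a commutative ring / of vector spaces, with endomorphisms;
* (C) `multIn f e` : the multiplicity of an irreducible `f` in `charpoly e`, an ADDITIVE,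
  isomorphism-invariant function.
-/
import Mathlib

set_option autoImplicit false

open Polynomial Module

namespace Fermat.Agent.GP.GW.CharpolyCalc

/-! ### (A) restriction × quotient -/

section RestrictQuot

variable {R V : Type*} [CommRing R] [AddCommGroup V] [Module R V] [Module.Finite R V]
  [Module.Free R V]
  (W : Submodule R V) [Module.Free R W] [Module.Finite R W] [Module.Free R (V ⧸ W)]

open Module.Basis in
/-- **(A)** the characteristic polynomial is multiplicative along a stable submodule
(charpoly version of Mathlib's `LinearMap.det_eq_det_mul_det`). -/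
theorem charpoly_restrict_mul_mapQ (e : V →ₗ[R] V) (he : W ≤ W.comap e) :
    e.charpoly = (e.restrict he).charpoly * (W.mapQ W e he).charpoly := by
  classical
  let m := Module.Free.ChooseBasisIndex R W
  let bW : Basis m R W := Module.Free.chooseBasis R W
  let n := Module.Free.ChooseBasisIndex R (V ⧸ W)
  let bQ : Basis n R (V ⧸ W) := Module.Free.chooseBasis R (V ⧸ W)
  let b := sumQuot bW bQ
  let A : Matrix m m R := LinearMap.toMatrix bW bW (e.restrict he)
  let B : Matrix m n R := Matrix.of fun i l ↦
    ((sumQuot bW bQ).repr (e ((sumQuot bW bQ) (Sum.inr l)))) (Sum.inl i)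
  let D : Matrix n n R := LinearMap.toMatrix bQ bQ (W.mapQ W e he)
  have key : LinearMap.toMatrix b b e = Matrix.fromBlocks A B 0 D := by
    ext u v
    cases u with
    | inl i =>
      cases v with
      | inl k =>
        simp only [b, sumQuot_inl, Matrix.fromBlocks_apply₁₁, A, LinearMap.toMatrix_apply]
        apply sumQuot_repr_inl_of_mem
      | inr l => simp [b, LinearMap.toMatrix_apply, Matrix.fromBlocks_apply₁₂, B]
    | inr j =>
      cases v with
      | inl k =>
        suffices W.mkQ (e (bW k)) = 0 by simp [LinearMap.toMatrix_apply, b, this]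
        rw [← LinearMap.mem_ker, Submodule.ker_mkQ]
        exact he (Submodule.coe_mem (bW k))
      | inr l =>
        simp only [LinearMap.toMatrix_apply, sumQuot_repr_inr,
          Matrix.fromBlocks_apply₂₂, b, D]
        rw [← sumQuot_inr bW bQ l, W.mapQ_apply]
        simp
  rw [← LinearMap.charpoly_toMatrix e b, key, Matrix.charpoly_fromBlocks_zero₂₁,
    LinearMap.charpoly_toMatrix, LinearMap.charpoly_toMatrix]

end RestrictQuot

/-! ### (B) short exact sequences -/

section ExactFree

variable {R : Type*} [CommRing R]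
  {V₁ V₂ V₃ : Type*} [AddCommGroup V₁] [Module R V₁] [AddCommGroup V₂] [Module R V₂]
  [AddCommGroup V₃] [Module R V₃]
  [Module.Free R V₁] [Module.Finite R V₁] [Module.Free R V₂] [Module.Finite R V₂]
  [Module.Free R V₃] [Module.Finite R V₃]

/-- **(B), free version** multiplicativity of the characteristic polynomial on a short exact
sequence `0 → V₁ → V₂ → V₃ → 0` of finite free modules over a commutative ring (e.g. lattices over
`ℤ`) with compatible endomorphisms. -/
theorem charpoly_of_exact_free (i : V₁ →ₗ[R] V₂) (q : V₂ →ₗ[R] V₃)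
    (hi : Function.Injective i) (hq : Function.Surjective q)
    (hex : LinearMap.range i = LinearMap.ker q)
    (e₁ : V₁ →ₗ[R] V₁) (e₂ : V₂ →ₗ[R] V₂) (e₃ : V₃ →ₗ[R] V₃)
    (h₁ : ∀ x, i (e₁ x) = e₂ (i x)) (h₃ : ∀ x, q (e₂ x) = e₃ (q x)) :
    e₂.charpoly = e₁.charpoly * e₃.charpoly := by
  classical
  set W : Submodule R V₂ := LinearMap.range i with hW
  have he : W ≤ W.comap e₂ := by
    rintro _ ⟨x, rfl⟩
    exact ⟨e₁ x, h₁ x⟩
  let φ : V₁ ≃ₗ[R] W := LinearEquiv.ofInjective i hi
  have hker : LinearMap.ker q = W := hex.symm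
  let ψ : (V₂ ⧸ W) ≃ₗ[R] V₃ :=
    (Submodule.quotEquivOfEq W (LinearMap.ker q) hker.symm).trans
      (q.quotKerEquivOfSurjective hq)
  have : Module.Free R W := Module.Free.of_equiv φ
  have : Module.Finite R W := Module.Finite.equiv φ
  have : Module.Free R (V₂ ⧸ W) := Module.Free.of_equiv ψ.symm
  rw [charpoly_restrict_mul_mapQ W e₂ he]
  congr 1
  · -- the restriction is conjugate to `e₁`
    have hφ : φ.conj e₁ = e₂.restrict he := by
      apply LinearMap.ext
      intro w
      obtain ⟨x, rfl⟩ := φ.surjective w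
      apply Subtype.ext
      rw [LinearEquiv.conj_apply_apply, LinearEquiv.symm_apply_apply, LinearMap.coe_restrict_apply]
      show i (e₁ x) = e₂ (i x)
      exact h₁ x
    rw [← hφ, LinearEquiv.charpoly_conj]
  · -- the quotient map is conjugate to `e₃`
    have hψ : ψ.conj (W.mapQ W e₂ he) = e₃ := by
      apply LinearMap.ext
      intro z
      obtain ⟨y, rfl⟩ := hq z
      have h1 : ψ.symm (q y) = W.mkQ y := by
        rw [LinearEquiv.symm_apply_eq]
        rfl
      rw [LinearEquiv.conj_apply_apply, h1]
      show ψ (W.mapQ W e₂ he (Submodule.Quotient.mk y)) = e₃ (q y)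
      rw [Submodule.mapQ_apply]
      show q (e₂ y) = e₃ (q y)
      exact h₃ y
    rw [← hψ, LinearEquiv.charpoly_conj]

end ExactFree

section Exact

variable {k : Type*} [Field k]
  {V₁ V₂ V₃ : Type*} [AddCommGroup V₁] [Module k V₁] [AddCommGroup V₂] [Module k V₂]
  [AddCommGroup V₃] [Module k V₃]
  [FiniteDimensional k V₁] [FiniteDimensional k V₂] [FiniteDimensional k V₃]

/-- **(B)** multiplicativity of the characteristic polynomial on a short exact sequence
`0 → V₁ → V₂ → V₃ → 0` of finite-dimensional spaces with compatible endomorphisms. -/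
theorem charpoly_of_exact (i : V₁ →ₗ[k] V₂) (q : V₂ →ₗ[k] V₃)
    (hi : Function.Injective i) (hq : Function.Surjective q)
    (hex : LinearMap.range i = LinearMap.ker q)
    (e₁ : V₁ →ₗ[k] V₁) (e₂ : V₂ →ₗ[k] V₂) (e₃ : V₃ →ₗ[k] V₃)
    (h₁ : ∀ x, i (e₁ x) = e₂ (i x)) (h₃ : ∀ x, q (e₂ x) = e₃ (q x)) :
    e₂.charpoly = e₁.charpoly * e₃.charpoly :=
  charpoly_of_exact_free i q hi hq hex e₁ e₂ e₃ h₁ h₃

end Exact

/-! ### (C) multiplicities as additive functions -/

section Mult

variable {k : Type*} [Field k]

/-- the multiplicity of the polynomial `f` in the characteristic polynomial of `e`. -/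
noncomputable def multIn {V : Type*} [AddCommGroup V] [Module k V] [FiniteDimensional k V]
    (f : k[X]) (e : V →ₗ[k] V) : ℕ :=
  multiplicity f e.charpoly

theorem multIn_conj {V V' : Type*} [AddCommGroup V] [Module k V] [FiniteDimensional k V]
    [AddCommGroup V'] [Module k V'] [FiniteDimensional k V'] (f : k[X]) (φ : V ≃ₗ[k] V')
    (e : V →ₗ[k] V) : multIn f (φ.conj e) = multIn f e := by
  unfold multIn
  rw [LinearEquiv.charpoly_conj]

/-- **(C)** additivity of `multIn f` (for `f` irreducible) on short exact sequences. -/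
theorem multIn_of_exact
    {V₁ V₂ V₃ : Type*} [AddCommGroup V₁] [Module k V₁] [AddCommGroup V₂] [Module k V₂]
    [AddCommGroup V₃] [Module k V₃]
    [FiniteDimensional k V₁] [FiniteDimensional k V₂] [FiniteDimensional k V₃]
    {f : k[X]} (hf : Irreducible f)
    (i : V₁ →ₗ[k] V₂) (q : V₂ →ₗ[k] V₃)
    (hi : Function.Injective i) (hq : Function.Surjective q)
    (hex : LinearMap.range i = LinearMap.ker q)
    (e₁ : V₁ →ₗ[k] V₁) (e₂ : V₂ →ₗ[k] V₂) (e₃ : V₃ →ₗ[k] V₃)
    (h₁ : ∀ x, i (e₁ x) = e₂ (i x)) (h₃ : ∀ x, q (e₂ x) = e₃ (q x)) :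
    multIn f e₂ = multIn f e₁ + multIn f e₃ := by
  unfold multIn
  rw [charpoly_of_exact i q hi hq hex e₁ e₂ e₃ h₁ h₃]
  have hfin : FiniteMultiplicity f (e₁.charpoly * e₃.charpoly) := by
    apply FiniteMultiplicity.of_not_isUnit hf.not_isUnit
    exact mul_ne_zero e₁.charpoly_monic.ne_zero e₃.charpoly_monic.ne_zero
  exact multiplicity_mul hf.prime hfin

end Mult

end Fermat.Agent.GP.GW.CharpolyCalc
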