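/-
GATE-P / S56 [P-GW] E3d (helper12), part 3: the Kummer sequence with coefficients
`Φ_Σ(B) = Coind_Σ^G Res_Σ B` and its `⋆`-equivariance (generic in `(G, 𝒰, Σ)`).

For a Kummer sequence `K : 0 → T → A -c→ A → 0` of representations of the BIG group `G`:
* `phiSeq Sg K : KummerSeq (Φ T) (Φ A) c` (restriction, then coinduction);
* `phiSeq_star` : `⋆ n` is an endomorphism of `phiSeq Sg K`, hence (`phiδ_star`)
  `δ (⋆n x) = ⋆n (δ x)` on `Hlc`;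
* `HlcMap_Hlc0`, `ev0`, `ev0_star` : `Hlc⁰(G, Φ A) ≃ (Res_Σ A)^Σ` (evaluation at `1`), intertwining
  `⋆ n` with the action of `n` on `A`;
* `phiδ_shapiro` : under Shapiro `δ_Φ` is the Kummer connecting map of `Res_Σ K` over `Σ`;
* `phiκ`, `phiκ_surjective`, `phiκ_eq_zero_iff`, `phiκ_star` : the Kummer map
  `κ : (Res_Σ A)^Σ → Hlc¹(G, Φ T)`; it is onto if `Hlc¹(Σ, A) = 0`, its kernel is `c·(A^Σ)`, and
  `κ(n • a) = ⋆n κ(a)`.
-/
import Fermat.Agent.GP.GW.Euler.KumNat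
import Fermat.Agent.GP.GW.Euler.StarRes
import Fermat.Agent.GC.Prof.LowMap

set_option autoImplicit false

open CategoryTheory

noncomputable section

namespace Fermat.Agent.GP.GW.Euler.PhiKum

open Fermat.Agent.GC.Prof Fermat.Agent.GC.KumH Fermat.Agent.GC.Tate
open Fermat.Agent.GP.GW.Euler.KumNat Fermat.Agent.GP.GW.Euler.StarRes

universe u

variable {k G : Type u} [CommRing k] [Group G]

/-! ### `Hlc⁰` and coefficient maps -/

section H0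

variable (𝒰 : LevelSystem G) {M N : Rep.{u} k G} [IsDiscrete 𝒰 M] [IsDiscrete 𝒰 N]

theorem map_mem_invariants (φ : M ⟶ N) (m : M.ρ.invariants) : φ.hom m.1 ∈ N.ρ.invariants := by
  intro g
  rw [← Rep.hom_comm_apply, m.2 g]

/-- `HlcMap` in degree `0` on invariants. -/
theorem HlcMap_Hlc0 (φ : M ⟶ N) (m : M.ρ.invariants) :
    HlcMap 𝒰 φ 0 ((Hlc0Equiv 𝒰 M).symm m) =
      (Hlc0Equiv 𝒰 N).symm ⟨φ.hom m.1, map_mem_invariants φ m⟩ := by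
  have hm : lcD 𝒰 M 0 ((lcEquiv₀ 𝒰 M).symm m.1) = 0 :=
    (lcD_zero_eq_zero_iff 𝒰 M _).2 (by rw [LinearEquiv.apply_symm_apply]; exact m.2)
  have h1 : (Hlc0Equiv 𝒰 M).symm m = HlcMk 𝒰 M ((lcEquiv₀ 𝒰 M).symm m.1) hm := rfl
  have hn : lcD 𝒰 N 0 ((lcEquiv₀ 𝒰 N).symm (φ.hom m.1)) = 0 :=
    (lcD_zero_eq_zero_iff 𝒰 N _).2 (by
      rw [LinearEquiv.apply_symm_apply]; exact map_mem_invariants φ m)
  have h2 : (Hlc0Equiv 𝒰 N).symm ⟨φ.hom m.1, map_mem_invariants φ m⟩ =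
      HlcMk 𝒰 N ((lcEquiv₀ 𝒰 N).symm (φ.hom m.1)) hn := rfl
  rw [h1, h2, HlcMap_mk]
  apply HlcMk_congr
  apply (lcEquiv₀ 𝒰 N).injective
  rw [lcEquiv₀_lcMapLin, LinearEquiv.apply_symm_apply, LinearEquiv.apply_symm_apply]

theorem Hlc0Equiv_HlcMap (φ : M ⟶ N) (x : Hlc 𝒰 M 0) :
    ((Hlc0Equiv 𝒰 N (HlcMap 𝒰 φ 0 x) : N.ρ.invariants) : N) =
      φ.hom ((Hlc0Equiv 𝒰 M x : M.ρ.invariants) : M) := by
  obtain ⟨m, rfl⟩ := (Hlc0Equiv 𝒰 M).symm.surjective x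
  rw [HlcMap_Hlc0, LinearEquiv.apply_symm_apply, LinearEquiv.apply_symm_apply]

end H0

/-! ### The `Φ`-Kummer sequence -/

section Phi

variable (Sg : Subgroup G) {T A : Rep.{u} k G} {c : k} (K : KummerSeq T A c)

/-- The Kummer sequence with coefficients `Φ_Σ`. -/
def phiSeq : KummerSeq (Phi Sg T) (Phi Sg A) c := coindSeq Sg (resSeq Sg K)

@[simp] theorem phiSeq_ι :
    (phiSeq Sg K).ι = Rep.coindMap Sg.subtype ((Rep.resFunctor Sg.subtype).map K.ι) := rfl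

variable {Sg}

/-- `⋆ n` is an endomorphism of the `Φ`-Kummer sequence. -/
theorem phiSeq_star {n : G} (hn : Norm Sg n) :
    (phiSeq Sg K).ι ≫ star A hn = star T hn ≫ (phiSeq Sg K).ι :=
  (star_naturality K.ι hn).symm

variable (𝒰 : LevelSystem G) [IsDiscrete 𝒰 (Phi Sg T)] [IsDiscrete 𝒰 (Phi Sg A)]

/-- **`⋆`-equivariance of the Kummer connecting map with `Φ`-coefficients.** -/
theorem phiδ_star {n : G} (hn : Norm Sg n) (i : ℕ) (x : Hlc 𝒰 (Phi Sg A) i) :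
    (phiSeq Sg K).δ 𝒰 i (HlcMap 𝒰 (star A hn) i x) =
      HlcMap 𝒰 (star T hn) (i + 1) ((phiSeq Sg K).δ 𝒰 i x) :=
  (δ_naturality_apply 𝒰 (phiSeq Sg K) (phiSeq Sg K) (star T hn) (star A hn)
    (phiSeq_star K hn) i x).symm

end Phi

/-! ### Evaluation at `1` in degree `0` -/

section Ev

variable (Sg : Subgroup G) (A : Rep.{u} k G)

theorem eval_one_mem_invariants (f : (Phi Sg A).ρ.invariants) :
    f.1.1 1 ∈ (Rep.res Sg.subtype A).ρ.invariants := by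
  intro s
  have h1 : f.1.1 ((s : G) * 1) = (Rep.res Sg.subtype A).ρ s (f.1.1 1) := f.1.2 s 1
  have h2 : ((Phi Sg A).ρ (s : G) f.1).1 1 = f.1.1 (1 * (s : G)) := rfl
  rw [f.2 (s : G), one_mul] at h2
  rw [← h1, mul_one]
  exact h2.symm

theorem const_mem_coindV (a : (Rep.res Sg.subtype A).ρ.invariants) :
    (fun _ : G => (a.1 : A)) ∈
      Representation.coindV Sg.subtype (Rep.res Sg.subtype A).ρ := by
  intro s x
  exact (a.2 s).symm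

/-- The constant function with value an invariant, as an invariant of `Φ A`. -/
def constInv (a : (Rep.res Sg.subtype A).ρ.invariants) : (Phi Sg A).ρ.invariants :=
  ⟨⟨fun _ : G => (a.1 : A), const_mem_coindV Sg A a⟩, fun _ => rfl⟩

theorem eq_const_of_invariant (f : (Phi Sg A).ρ.invariants) (x : G) : f.1.1 x = f.1.1 1 := by
  have h2 : ((Phi Sg A).ρ x f.1).1 1 = f.1.1 (1 * x) := rfl
  rw [f.2 x, one_mul] at h2
  exact h2.symm

/-- Evaluation at `1`: `(Φ A)^G ≃ (Res A)^Σ`. -/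
def evEquiv : (Phi Sg A).ρ.invariants ≃ₗ[k] (Rep.res Sg.subtype A).ρ.invariants where
  toFun f := ⟨f.1.1 1, eval_one_mem_invariants Sg A f⟩
  map_add' _ _ := rfl
  map_smul' _ _ := rfl
  invFun a := constInv Sg A a
  left_inv f := by
    apply Subtype.ext
    apply Subtype.ext
    funext x
    exact (eq_const_of_invariant Sg A f x).symm
  right_inv _ := rfl

variable (𝒰 : LevelSystem G) [IsDiscrete 𝒰 (Phi Sg A)]

/-- `Hlc⁰(G, Φ A) ≃ (Res A)^Σ`. -/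
def ev0 : Hlc 𝒰 (Phi Sg A) 0 ≃ₗ[k] (Rep.res Sg.subtype A).ρ.invariants :=
  (Hlc0Equiv 𝒰 (Phi Sg A)).trans (evEquiv Sg A)

theorem ev0_apply (x : Hlc 𝒰 (Phi Sg A) 0) :
    ((ev0 Sg A 𝒰 x : (Rep.res Sg.subtype A).ρ.invariants) : A) =
      ((Hlc0Equiv 𝒰 (Phi Sg A) x : (Phi Sg A).ρ.invariants) : Phi Sg A).1 1 := rfl

variable {Sg}

theorem smul_mem_invariants {n : G} (hn : Norm Sg n)
    (a : (Rep.res Sg.subtype A).ρ.invariants) :
    A.ρ n (a.1 : A) ∈ (Rep.res Sg.subtype A).ρ.invariants := by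
  intro s
  show A.ρ (s : G) (A.ρ n (a.1 : A)) = A.ρ n (a.1 : A)
  have h1 : A.ρ (n⁻¹ * s * n) (a.1 : A) = (a.1 : A) := a.2 ⟨n⁻¹ * s * n, hn s s.2⟩
  have h2 : (s : G) * n = n * (n⁻¹ * s * n) := by group
  rw [← Module.End.mul_apply, ← map_mul, h2, map_mul, Module.End.mul_apply, h1]

/-- The action of a normalising element on `(Res A)^Σ`. -/
def actInv {n : G} (hn : Norm Sg n) (a : (Rep.res Sg.subtype A).ρ.invariants) :
    (Rep.res Sg.subtype A).ρ.invariants :=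
  ⟨A.ρ n (a.1 : A), smul_mem_invariants A hn a⟩

/-- `ev0` intertwines `⋆ n` with the action of `n`. -/
theorem ev0_star {n : G} (hn : Norm Sg n) (x : Hlc 𝒰 (Phi Sg A) 0) :
    ev0 Sg A 𝒰 (HlcMap 𝒰 (star A hn) 0 x) = actInv A hn (ev0 Sg A 𝒰 x) := by
  apply Subtype.ext
  show ((Hlc0Equiv 𝒰 (Phi Sg A) (HlcMap 𝒰 (star A hn) 0 x) : (Phi Sg A).ρ.invariants) :
    Phi Sg A).1 1 = A.ρ n (((Hlc0Equiv 𝒰 (Phi Sg A) x : (Phi Sg A).ρ.invariants) : Phi Sg A).1 1)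
  rw [Hlc0Equiv_HlcMap]
  exact star_eval_one A hn _ (Hlc0Equiv 𝒰 (Phi Sg A) x).2

theorem ev0_symm_actInv {n : G} (hn : Norm Sg n) (a : (Rep.res Sg.subtype A).ρ.invariants) :
    (ev0 Sg A 𝒰).symm (actInv A hn a) = HlcMap 𝒰 (star A hn) 0 ((ev0 Sg A 𝒰).symm a) := by
  rw [LinearEquiv.symm_apply_eq, ev0_star, LinearEquiv.apply_symm_apply]

end Ev

/-! ### The Kummer map on invariants -/

section Kappa

variable (Sg : Subgroup G) {T A : Rep.{u} k G} {c : k} (K : KummerSeq T A c)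
  (𝒰 : LevelSystem G) [IsDiscrete 𝒰 (Phi Sg T)] [IsDiscrete 𝒰 (Phi Sg A)]

/-- **The Kummer map** `κ : (Res_Σ A)^Σ → Hlc¹(G, Φ_Σ T)`. -/
def phiκ : (Rep.res Sg.subtype A).ρ.invariants →ₗ[k] Hlc 𝒰 (Phi Sg T) 1 :=
  ((phiSeq Sg K).δ 𝒰 0).hom.comp (ev0 Sg A 𝒰).symm.toLinearMap

theorem phiκ_apply (a : (Rep.res Sg.subtype A).ρ.invariants) :
    phiκ Sg K 𝒰 a = (phiSeq Sg K).δ 𝒰 0 ((ev0 Sg A 𝒰).symm a) := rfl

variable {Sg} in
/-- **`⋆`-equivariance of the Kummer map.** -/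
theorem phiκ_star {n : G} (hn : Norm Sg n) (a : (Rep.res Sg.subtype A).ρ.invariants) :
    phiκ Sg K 𝒰 (actInv A hn a) = HlcMap 𝒰 (star T hn) 1 (phiκ Sg K 𝒰 a) := by
  rw [phiκ_apply, phiκ_apply, ev0_symm_actInv, phiδ_star]

/-- The kernel of the Kummer map is `c · (A^Σ)`. -/
theorem phiκ_eq_zero_iff (a : (Rep.res Sg.subtype A).ρ.invariants) :
    phiκ Sg K 𝒰 a = 0 ↔ ∃ b : (Rep.res Sg.subtype A).ρ.invariants, c • b = a := by
  rw [phiκ_apply, (phiSeq Sg K).δ_eq_zero_iff]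
  constructor
  · rintro ⟨x', hx'⟩
    refine ⟨ev0 Sg A 𝒰 x', ?_⟩
    rw [← map_smul, hx', LinearEquiv.apply_symm_apply]
  · rintro ⟨b, rfl⟩
    exact ⟨(ev0 Sg A 𝒰).symm b, (map_smul _ _ _).symm⟩

/-- The Kummer map is onto as soon as `Hlc¹(G, Φ A) = 0`. -/
theorem phiκ_surjective (h0 : ∀ z : Hlc 𝒰 (Phi Sg A) 1, z = 0) :
    Function.Surjective (phiκ Sg K 𝒰) := by
  intro y
  obtain ⟨x, rfl⟩ := δ_surjective_of_zero 𝒰 (phiSeq Sg K) 0 h0 y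
  exact ⟨ev0 Sg A 𝒰 x, by rw [phiκ_apply, LinearEquiv.symm_apply_apply]⟩

variable {Sg} in
/-- `Hlc¹(G, Φ A) = 0` from `Hlc¹(Σ, A) = 0` (Shapiro). -/
theorem hlc_one_phi_eq_zero (hS : IsOpenSub 𝒰 Sg)
    [IsDiscrete (𝒰.comap Sg.subtype) (Rep.res Sg.subtype A)]
    (h0 : ∀ z : Hlc (𝒰.comap Sg.subtype) (Rep.res Sg.subtype A) 1, z = 0)
    (z : Hlc 𝒰 (Phi Sg A) 1) : z = 0 :=
  (HlcShapiro_bijective hS 1 (Rep.res Sg.subtype A)).1
    ((h0 _).trans (by rw [map_zero]))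

end Kappa

end Fermat.Agent.GP.GW.Euler.PhiKum
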