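/-
GATE-P / S56 [P-GW] E3 (helper12): the `(K0)` input of the E3 base case — `Hlc⁰` of
`T'' = Φ_U(k(χ)) = Coind_U Res_U k(χ)` when `χ|_U = 1`.

Generic in `(G, 𝒰, U, χ : G →* kˣ)`:  `ev0Chi : Hlc⁰(G, Φ_U k(χ)) ≃ₗ[k] k` (evaluation at `1`) and
`ev0Chi_star : ev0Chi (⋆n x) = χ(n) • ev0Chi x`.  So `H⁰(T'')` is the line `k` on which `γ = ⋆g`
acts through the scalar `χ(g)`.
-/
import Fermat.Agent.GP.GW.Euler.PhiKum
import Fermat.Agent.GC.Prof.CoindDualCup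

set_option autoImplicit false

open CategoryTheory

noncomputable section

namespace Fermat.Agent.GP.GW.Euler.H0Chi

open Fermat.Agent.GC.Prof Fermat.Agent.GP.GW.Euler.StarRes Fermat.Agent.GP.GW.Euler.PhiKum

universe u

variable {k G : Type u} [CommRing k] [Group G] (Sg : Subgroup G) (χ : G →* kˣ)

theorem chiRep_ρ_apply (g : G) (a : k) : (chiRep χ).ρ g a = (χ g : k) * a := rfl

variable {Sg χ}

/-- If `χ|_U = 1` every element of `k(χ)` is `U`-invariant. -/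
theorem mem_invariants_res_chiRep (hχ : ∀ s ∈ Sg, χ s = 1) (a : k) :
    a ∈ (Rep.res Sg.subtype (chiRep χ)).ρ.invariants := by
  intro s
  show (χ (s : G) : k) * a = a
  rw [hχ s s.2, Units.val_one, one_mul]

/-- `(Res_U k(χ))^U ≃ k` when `χ|_U = 1`. -/
def invEquiv (hχ : ∀ s ∈ Sg, χ s = 1) :
    (Rep.res Sg.subtype (chiRep χ)).ρ.invariants ≃ₗ[k] k where
  toFun a := a.1
  map_add' _ _ := rfl
  map_smul' _ _ := rfl
  invFun a := ⟨a, mem_invariants_res_chiRep hχ a⟩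
  left_inv _ := rfl
  right_inv _ := rfl

variable (𝒰 : LevelSystem G) [IsDiscrete 𝒰 (Phi Sg (chiRep χ))]

/-- **`Hlc⁰(G, Coind_U Res_U k(χ)) ≃ k`** (evaluation at `1`), for `χ|_U = 1`. -/
def ev0Chi (hχ : ∀ s ∈ Sg, χ s = 1) : Hlc 𝒰 (Phi Sg (chiRep χ)) 0 ≃ₗ[k] k :=
  (ev0 Sg (chiRep χ) 𝒰).trans (invEquiv hχ)

/-- **`⋆ n` acts on `Hlc⁰(G, Coind_U Res_U k(χ)) = k` through the scalar `χ(n)`.** -/
theorem ev0Chi_star (hχ : ∀ s ∈ Sg, χ s = 1) {n : G} (hn : Norm Sg n)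
    (x : Hlc 𝒰 (Phi Sg (chiRep χ)) 0) :
    ev0Chi 𝒰 hχ (HlcMap 𝒰 (star (chiRep χ) hn) 0 x) = (χ n : k) * ev0Chi 𝒰 hχ x := by
  show ((ev0 Sg (chiRep χ) 𝒰 (HlcMap 𝒰 (star (chiRep χ) hn) 0 x) :
    (Rep.res Sg.subtype (chiRep χ)).ρ.invariants) : k) = _
  rw [ev0_star]
  rfl

/-- The same, as an identity of linear maps: `HlcMap (⋆n) 0` is the scalar `χ(n)`. -/
theorem HlcMap_star_zero (hχ : ∀ s ∈ Sg, χ s = 1) {n : G} (hn : Norm Sg n)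
    (x : Hlc 𝒰 (Phi Sg (chiRep χ)) 0) :
    HlcMap 𝒰 (star (chiRep χ) hn) 0 x = (χ n : k) • x := by
  apply (ev0Chi 𝒰 hχ).injective
  rw [ev0Chi_star, map_smul, smul_eq_mul]

end Fermat.Agent.GP.GW.Euler.H0Chi
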