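/-
GATE-P / S56 [P-GW] E3d (helper12), part 5: the CONCRETE Kummer map over `(G_ℚ, levelS S)`.

`S ∋ p`, `F ⊂ ℚ̄` finite and unramified outside `S`, `U = G_F = F.fixingSubgroup`,
`Φ_U(B) = Coind_U^{G_ℚ} Res_U B`.  With `A = O_S^× = sUnitsS S` (`Rep ℤ G_ℚ`, `p`-divisible since
`p ∈ S`), `T = A[p] ≃ 𝔽_p(χ_cyc) = chiQ p` (`MuChi.muChiEquiv`):

* `kumQ : KummerSeq (torsRep (sUnitsS S) p) (sUnitsS S) p` over `G_ℚ`;
* `kappaF : (sUnitsK S F).ρ.invariants →+ Hlc (levelS S) (Φ_U (chiQ p)) 1`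
  (`ZMod p`-coefficients on the right; the source is `O_{F,S}^×` by `KumH.sUnitsH0`);
* `kappaF_eq_zero_iff` : the kernel is the group of `p`-th powers;
* `kappaF_surjective` : onto if `Hlc¹(G_{F,S}, O_S^×) = 0` (the `hX` binder of GRAPH v0.2);
* `kappaF_star` : `kappaF (n • u) = ⋆n (kappaF u)` for `n ∈ G_ℚ` normalising `U`.
So `Hlc¹(G_{ℚ,S}, Coind_U Res_U 𝔽_p(1)) ≅ O_{F,S}^× / p` as modules over `N(U)/U`.
-/
import Fermat.Agent.GP.GW.Euler.PhiKum
import Fermat.Agent.GP.GW.Euler.PhiCoeff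
import Fermat.Agent.GC.Kummer.MuChi
import Fermat.Agent.GC.Kummer.HlcSUnitsInv
import Fermat.Agent.GC.Places.MackeyH
import Fermat.Agent.GC.Places.ChiMuLoc

set_option autoImplicit false
set_option linter.style.haveILetI false

open CategoryTheory

noncomputable section

namespace Fermat.Agent.GP.GW.Euler.KumQ

open Fermat.Agent.GC.Prof Fermat.Agent.GC.KumH Fermat.Agent.GC.KumH.MuChi
  Fermat.Agent.GC.Local.Abs Fermat.Agent.GC.C0 Fermat.Agent.GC.Places
open Fermat.Agent.GP.GW.Euler.KumNat Fermat.Agent.GP.GW.Euler.StarRes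
  Fermat.Agent.GP.GW.Euler.PhiKum Fermat.Agent.GP.GW.Euler.PhiCoeff

local notation "Qb" => AlgebraicClosure ℚ
local notation "GQ" => (AlgebraicClosure ℚ ≃ₐ[ℚ] AlgebraicClosure ℚ)

variable (S : Finset Nat.Primes) {p : ℕ} [Fact p.Prime]

/-- `O_S^×` is `p`-divisible when `p ∈ S`. -/
theorem sUnitsS_divisible (hpS : (⟨p, Fact.out⟩ : Nat.Primes) ∈ S) (a : sUnitsS S) :
    ∃ b : sUnitsS S, (p : ℤ) • b = a := by
  obtain ⟨v, hv, hvp⟩ := exists_pow_eq_of_mem_sUnitsQS (Fact.out : p.Prime) hpS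
    (sUnitsS.unit S a) (sUnitsS.unit_mem S a)
  refine ⟨sUnitsS.mk S v hv, ?_⟩
  apply sUnitsS.unit_injective
  show sUnitsS.unit S ((p : ℤ) • sUnitsS.mk S v hv) = _
  rw [sUnitsS.unit_zsmul_natCast, sUnitsS.unit_mk, hvp]

/-- The Kummer sequence `0 → O_S^×[p] → O_S^× -p→ O_S^× → 0` of `G_ℚ`-modules. -/
def kumQ (hpS : (⟨p, Fact.out⟩ : Nat.Primes) ∈ S) :
    KummerSeq (torsRep (sUnitsS S) (p : ℤ)) (sUnitsS S) (p : ℤ) :=
  Fermat.Agent.GC.Local.Abs.kummerSeq (sUnitsS S) (p : ℤ) (sUnitsS_divisible S hpS)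

variable (F : IntermediateField ℚ Qb)

/-- Discreteness of `Φ_U B` for `B` a discrete `G_{ℚ,S}`-module. -/
theorem isDiscrete_phi {k : Type} [CommRing k] (hF : F.IsUnramifiedOutside S) (B : Rep k GQ)
    [IsDiscrete (levelS S) B] : IsDiscrete (levelS S) (Phi F.fixingSubgroup B) :=
  haveI : IsDiscrete (levelK S F) (Rep.res F.fixingSubgroup.subtype B) :=
    isDiscrete_res_levelK S F B
  isDiscrete_coind_levelS S F (Rep.res F.fixingSubgroup.subtype B) hF

/-- The fixed primitive `p`-th root of unity is an `S`-unit (`p ∈ S`). -/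
theorem zetaQb_mem (hpS : (⟨p, Fact.out⟩ : Nat.Primes) ∈ S) : zetaQb p ∈ sUnitsQS S :=
  mem_sUnitsQS_of_pow_eq_one (Fact.out : p.Prime) hpS _ (isPrimitiveRoot_zetaQb p).pow_eq_one

/-- `𝔽_p(χ_cyc) ≃ O_S^×[p]`, with the fixed root of unity. -/
def muEquiv (hpS : (⟨p, Fact.out⟩ : Nat.Primes) ∈ S) :
    MuChi.chiQ p ≃+ torsRep (sUnitsS S) (p : ℤ) :=
  muChiEquiv (isPrimitiveRoot_zetaQb p) (zetaQb_mem S hpS)

theorem muEquiv_symm_equivariant (hpS : (⟨p, Fact.out⟩ : Nat.Primes) ∈ S) (g : GQ)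
    (a : torsRep (sUnitsS S) (p : ℤ)) :
    (muEquiv S hpS).symm ((torsRep (sUnitsS S) (p : ℤ)).ρ g a) =
      (MuChi.chiQ p).ρ g ((muEquiv S hpS).symm a) := by
  rw [AddEquiv.symm_apply_eq]
  show _ = muChiEquiv (isPrimitiveRoot_zetaQb p) (zetaQb_mem S hpS) _
  rw [muChiEquiv_equivariant]
  exact congrArg _ ((muEquiv S hpS).apply_symm_apply a).symm

theorem isDiscrete_chiQ' (hpS : (⟨p, Fact.out⟩ : Nat.Primes) ∈ S) :
    IsDiscrete (levelS S) (MuChi.chiQ p) :=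
  isDiscrete_chiQ (isPrimitiveRoot_zetaQb p) (zetaQb_mem S hpS)

section Kappa

variable (hpS : (⟨p, Fact.out⟩ : Nat.Primes) ∈ S) (hF : F.IsUnramifiedOutside S)

/-- The Kummer map with `ℤ`-coefficients:
`(O_S^×)^{G_F} → Hlc¹(G_{ℚ,S}, Φ_U(O_S^×[p]))`. -/
def kappaZ :
    haveI := isDiscrete_phi S F hF (torsRep (sUnitsS S) (p : ℤ))
    (sUnitsK S F).ρ.invariants →ₗ[ℤ]
      Hlc (levelS S) (Phi F.fixingSubgroup (torsRep (sUnitsS S) (p : ℤ))) 1 :=
  haveI := isDiscrete_phi S F hF (torsRep (sUnitsS S) (p : ℤ))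
  haveI := isDiscrete_phi S F hF (sUnitsS S)
  phiκ F.fixingSubgroup (kumQ S hpS) (levelS S)

/-- **The Kummer map** `O_{F,S}^× = (O_S^×)^{G_F} → Hlc¹(G_{ℚ,S}, Coind_U Res_U 𝔽_p(χ_cyc))`,
`ZMod p`-coefficients on the right. -/
def kappaF :
    haveI := isDiscrete_chiQ' S hpS
    haveI := isDiscrete_phi S F hF (MuChi.chiQ p)
    (sUnitsK S F).ρ.invariants →+ Hlc (levelS S) (Phi F.fixingSubgroup (MuChi.chiQ p)) 1 :=
  haveI := isDiscrete_chiQ' S hpS
  haveI := isDiscrete_phi S F hF (MuChi.chiQ p)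
  haveI := isDiscrete_phi S F hF (torsRep (sUnitsS S) (p : ℤ))
  (phiHlcEquiv (levelS S) (Sg := F.fixingSubgroup) (muEquiv S hpS).symm
    (muEquiv_symm_equivariant S hpS) 1).toAddMonoidHom.comp
    (kappaZ S F hpS hF).toAddMonoidHom

theorem kappaF_apply (a : (sUnitsK S F).ρ.invariants) :
    haveI := isDiscrete_chiQ' S hpS
    haveI := isDiscrete_phi S F hF (MuChi.chiQ p)
    haveI := isDiscrete_phi S F hF (torsRep (sUnitsS S) (p : ℤ))
    kappaF S F hpS hF a =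
      phiHlcEquiv (levelS S) (Sg := F.fixingSubgroup) (muEquiv S hpS).symm
        (muEquiv_symm_equivariant S hpS) 1 (kappaZ S F hpS hF a) := rfl

/-- **The kernel of the Kummer map is the group of `p`-th powers.** -/
theorem kappaF_eq_zero_iff (a : (sUnitsK S F).ρ.invariants) :
    kappaF S F hpS hF a = 0 ↔ ∃ b : (sUnitsK S F).ρ.invariants, (p : ℤ) • b = a := by
  haveI := isDiscrete_chiQ' S hpS
  haveI := isDiscrete_phi S F hF (MuChi.chiQ p)
  haveI := isDiscrete_phi S F hF (torsRep (sUnitsS S) (p : ℤ))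
  haveI := isDiscrete_phi S F hF (sUnitsS S)
  rw [kappaF_apply, AddEquivClass.map_eq_zero_iff]
  exact phiκ_eq_zero_iff F.fixingSubgroup (kumQ S hpS) (levelS S) a

/-- **The Kummer map is onto when `Hlc¹(G_{F,S}, O_S^×) = 0`.** -/
theorem kappaF_surjective (hX : ∀ x : Hlc (levelK S F) (sUnitsK S F) 1, x = 0) :
    Function.Surjective (kappaF S F hpS hF) := by
  haveI := isDiscrete_chiQ' S hpS
  haveI := isDiscrete_phi S F hF (MuChi.chiQ p)
  haveI := isDiscrete_phi S F hF (torsRep (sUnitsS S) (p : ℤ))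
  haveI := isDiscrete_phi S F hF (sUnitsS S)
  haveI : IsDiscrete ((levelS S).comap F.fixingSubgroup.subtype)
      (Rep.res F.fixingSubgroup.subtype (sUnitsS S)) := isDiscrete_sUnitsK (S := S) (K := F)
  have h1 : ∀ z : Hlc (levelS S) (Phi F.fixingSubgroup (sUnitsS S)) 1, z = 0 :=
    hlc_one_phi_eq_zero (Sg := F.fixingSubgroup) (A := sUnitsS S) (levelS S)
      (isOpenSub_fixingSubgroup S F hF) hX
  have h2 : Function.Surjective (kappaZ S F hpS hF) :=
    phiκ_surjective F.fixingSubgroup (kumQ S hpS) (levelS S) h1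
  intro y
  obtain ⟨a, ha⟩ := h2 ((phiHlcEquiv (levelS S) (Sg := F.fixingSubgroup) (muEquiv S hpS).symm
    (muEquiv_symm_equivariant S hpS) 1).symm y)
  refine ⟨a, ?_⟩
  rw [kappaF_apply, ha, AddEquiv.apply_symm_apply]

/-- An element of `G_ℚ` mapping `F` into itself normalises `G_F`. -/
theorem norm_of_map_mem {n : GQ} (hn : ∀ x ∈ F, n x ∈ F) : Norm F.fixingSubgroup n := by
  intro s hs
  rw [IntermediateField.mem_fixingSubgroup_iff] at hs ⊢
  intro x hx
  show n⁻¹ (s (n x)) = x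
  rw [hs _ (hn x hx)]
  exact n.symm_apply_apply x

/-- **`⋆`-equivariance of the Kummer map.** -/
theorem kappaF_star {n : GQ} (hn : Norm F.fixingSubgroup n) (a : (sUnitsK S F).ρ.invariants) :
    haveI := isDiscrete_chiQ' S hpS
    haveI := isDiscrete_phi S F hF (MuChi.chiQ p)
    kappaF S F hpS hF (actInv (sUnitsS S) hn a) =
      HlcMap (levelS S) (star (MuChi.chiQ p) hn) 1 (kappaF S F hpS hF a) := by
  haveI := isDiscrete_chiQ' S hpS
  haveI := isDiscrete_phi S F hF (MuChi.chiQ p)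
  haveI := isDiscrete_phi S F hF (torsRep (sUnitsS S) (p : ℤ))
  haveI := isDiscrete_phi S F hF (sUnitsS S)
  rw [kappaF_apply, kappaF_apply]
  have h1 : kappaZ S F hpS hF (actInv (sUnitsS S) hn a) =
      HlcMap (levelS S) (star (torsRep (sUnitsS S) (p : ℤ)) hn) 1 (kappaZ S F hpS hF a) :=
    phiκ_star (kumQ S hpS) (levelS S) hn a
  rw [h1]
  exact phiHlcEquiv_star (levelS S) (muEquiv S hpS).symm (muEquiv_symm_equivariant S hpS) hn 1 _

end Kappa

/-! ### The Kummer map on the `S`-units of the number field `F` -/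

section Units

variable (hpS : (⟨p, Fact.out⟩ : Nat.Primes) ∈ S) (hF : F.IsUnramifiedOutside S) [NumberField F]

/-- The Kummer map on `O_{F,S}^×` (Mathlib's `Set.unit`, places of `F` above `S`). -/
def kappaU :
    haveI := isDiscrete_chiQ' S hpS
    haveI := isDiscrete_phi S F hF (MuChi.chiQ p)
    Additive ((sPlaces S F).unit F) →+ Hlc (levelS S) (Phi F.fixingSubgroup (MuChi.chiQ p)) 1 :=
  haveI := isDiscrete_chiQ' S hpS
  haveI := isDiscrete_phi S F hF (MuChi.chiQ p)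
  (kappaF S F hpS hF).comp (sUnitsInv hF)

theorem kappaU_apply (u : Additive ((sPlaces S F).unit F)) :
    kappaU S F hpS hF u = kappaF S F hpS hF (sUnitsInv hF u) := rfl

theorem kappaU_surjective (hX : ∀ x : Hlc (levelK S F) (sUnitsK S F) 1, x = 0) :
    Function.Surjective (kappaU S F hpS hF) := by
  intro y
  obtain ⟨a, rfl⟩ := kappaF_surjective S F hpS hF hX y
  obtain ⟨u, rfl⟩ := sUnitsInv_surjective hF a
  exact ⟨u, rfl⟩

/-- The kernel of the Kummer map on `O_{F,S}^×` is the group of `p`-th powers. -/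
theorem kappaU_eq_zero_iff (u : Additive ((sPlaces S F).unit F)) :
    kappaU S F hpS hF u = 0 ↔ ∃ v : Additive ((sPlaces S F).unit F), p • v = u := by
  rw [kappaU_apply, kappaF_eq_zero_iff]
  constructor
  · rintro ⟨b, hb⟩
    obtain ⟨v, rfl⟩ := sUnitsInv_surjective hF b
    refine ⟨v, sUnitsInv_injective hF ?_⟩
    rw [map_nsmul, ← hb, natCast_zsmul]
  · rintro ⟨v, rfl⟩
    refine ⟨sUnitsInv hF v, ?_⟩
    rw [map_nsmul, natCast_zsmul]

end Units

end Fermat.Agent.GP.GW.Euler.KumQ
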