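/-
GATE-P / S56 [P-GW] E3d (helper12), part 6: the Kummer isomorphism in QUOTIENT form and the
UNIT part (D1) of the equivariant dictionary.

Notation of `KumQ.lean`: `U = G_F`, `T'' = Φ_U(chiQ p) = Coind_U Res_U 𝔽_p(χ_cyc)`,
`I = (O_S^×)^U = (sUnitsK S F).ρ.invariants`.
* `actInvHom` : the action of a normalising `n ∈ G_ℚ` on `I`, as an additive endomorphism;
* `pPow` : the subgroup `p · I`; `actQuot` : the induced endomorphism of `I ⧸ p·I`;
* `kappaQuot : I ⧸ p·I ≃+ Hlc¹(G_{ℚ,S}, T'')` (under `hX`), `kappaQuot_act` : it intertwines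
  `actQuot n` with `HlcMap (⋆ n)`.
* (D1) `sUnitsEquiv hF : Additive (O_{F,S}^×) ≃+ I` and, for `F/ℚ` normal and `σ = n|_F`,
  `coe_sUnitsEquiv_symm_actInv` : the action of `n` on `I` corresponds to `u ↦ σ(u)` on
  Mathlib's `S`-units of the number field `F` (statement on underlying elements of `F`, so it
  composes with `SUnitHQ.coe_sAct`).
-/
import Fermat.Agent.GP.GW.Euler.KumQ

set_option autoImplicit false
set_option linter.style.haveILetI false
set_option linter.unusedSectionVars false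

open CategoryTheory

noncomputable section

namespace Fermat.Agent.GP.GW.Euler.KumQuot

open Fermat.Agent.GC.Prof Fermat.Agent.GC.KumH Fermat.Agent.GC.KumH.MuChi
  Fermat.Agent.GC.Local.Abs Fermat.Agent.GC.C0 Fermat.Agent.GC.Places
open Fermat.Agent.GP.GW.Euler.KumNat Fermat.Agent.GP.GW.Euler.StarRes
  Fermat.Agent.GP.GW.Euler.PhiKum Fermat.Agent.GP.GW.Euler.PhiCoeff Fermat.Agent.GP.GW.Euler.KumQ

local notation "Qb" => AlgebraicClosure ℚ
local notation "GQ" => (AlgebraicClosure ℚ ≃ₐ[ℚ] AlgebraicClosure ℚ)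

/-! ### Generic: the action on invariants as an additive map -/

section Generic

universe u

variable {k G : Type u} [CommRing k] [Group G] {Sg : Subgroup G} (A : Rep.{u} k G)

/-- The action of a normalising element on `(Res A)^Σ` as a linear map. -/
def actInvHom {n : G} (hn : Norm Sg n) :
    (Rep.res Sg.subtype A).ρ.invariants →ₗ[k] (Rep.res Sg.subtype A).ρ.invariants where
  toFun := actInv A hn
  map_add' _ _ := Subtype.ext (map_add (A.ρ n) _ _)
  map_smul' c _ := Subtype.ext (map_smul (A.ρ n) c _)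

@[simp] theorem actInvHom_apply {n : G} (hn : Norm Sg n)
    (a : (Rep.res Sg.subtype A).ρ.invariants) : actInvHom A hn a = actInv A hn a := rfl

end Generic

variable (S : Finset Nat.Primes) {p : ℕ} [Fact p.Prime] (F : IntermediateField ℚ Qb)

/-! ### The quotient form -/

section Quot

variable (hpS : (⟨p, Fact.out⟩ : Nat.Primes) ∈ S) (hF : F.IsUnramifiedOutside S)

/-- The subgroup `p · (O_S^×)^U` of `p`-th powers. -/
def pPow (p : ℕ) : AddSubgroup (sUnitsK S F).ρ.invariants :=
  (zsmulAddGroupHom (p : ℤ) : (sUnitsK S F).ρ.invariants →+ (sUnitsK S F).ρ.invariants).range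

theorem mem_pPow (a : (sUnitsK S F).ρ.invariants) :
    a ∈ pPow S F p ↔ ∃ b : (sUnitsK S F).ρ.invariants, (p : ℤ) • b = a := Iff.rfl

theorem kappaF_ker : (kappaF S F hpS hF).ker = pPow S F p := by
  ext a
  rw [AddMonoidHom.mem_ker, kappaF_eq_zero_iff, mem_pPow]

/-- **The Kummer isomorphism** `(O_S^×)^U / p ≃ Hlc¹(G_{ℚ,S}, Coind_U Res_U 𝔽_p(χ_cyc))`. -/
def kappaQuot (hX : ∀ x : Hlc (levelK S F) (sUnitsK S F) 1, x = 0) :
    haveI := isDiscrete_chiQ' S hpS
    haveI := isDiscrete_phi S F hF (MuChi.chiQ p)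
    ((sUnitsK S F).ρ.invariants ⧸ pPow S F p) ≃+
      Hlc (levelS S) (Phi F.fixingSubgroup (MuChi.chiQ p)) 1 :=
  haveI := isDiscrete_chiQ' S hpS
  haveI := isDiscrete_phi S F hF (MuChi.chiQ p)
  (QuotientAddGroup.quotientAddEquivOfEq (kappaF_ker S F hpS hF).symm).trans
    (QuotientAddGroup.quotientKerEquivOfSurjective (kappaF S F hpS hF)
      (kappaF_surjective S F hpS hF hX))

theorem kappaQuot_mk (hX : ∀ x : Hlc (levelK S F) (sUnitsK S F) 1, x = 0)
    (a : (sUnitsK S F).ρ.invariants) :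
    kappaQuot S F hpS hF hX (QuotientAddGroup.mk a) = kappaF S F hpS hF a := rfl

variable {F}

theorem actInv_mem_pPow {n : GQ} (hn : Norm F.fixingSubgroup n)
    {a : (sUnitsK S F).ρ.invariants} (ha : a ∈ pPow S F p) :
    actInvHom (sUnitsS S) hn a ∈ pPow S F p := by
  obtain ⟨b, rfl⟩ := ha
  exact ⟨actInvHom (sUnitsS S) hn b, (map_zsmul (actInvHom (sUnitsS S) hn) (p : ℤ) b).symm⟩

/-- The action of a normalising element on `(O_S^×)^U / p`. -/
def actQuot {n : GQ} (hn : Norm F.fixingSubgroup n) :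
    ((sUnitsK S F).ρ.invariants ⧸ pPow S F p) →+ ((sUnitsK S F).ρ.invariants ⧸ pPow S F p) :=
  QuotientAddGroup.map (pPow S F p) (pPow S F p) (actInvHom (sUnitsS S) hn).toAddMonoidHom
    (fun _ ha => actInv_mem_pPow S hn ha)

theorem actQuot_mk {n : GQ} (hn : Norm F.fixingSubgroup n) (a : (sUnitsK S F).ρ.invariants) :
    actQuot S (p := p) hn (QuotientAddGroup.mk a) =
      QuotientAddGroup.mk (actInv (sUnitsS S) hn a) := rfl

/-- **Equivariance of the Kummer isomorphism.** -/
theorem kappaQuot_act (hX : ∀ x : Hlc (levelK S F) (sUnitsK S F) 1, x = 0) {n : GQ}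
    (hn : Norm F.fixingSubgroup n) (x : (sUnitsK S F).ρ.invariants ⧸ pPow S F p) :
    haveI := isDiscrete_chiQ' S hpS
    haveI := isDiscrete_phi S F hF (MuChi.chiQ p)
    kappaQuot S F hpS hF hX (actQuot S hn x) =
      HlcMap (levelS S) (star (MuChi.chiQ p) hn) 1 (kappaQuot S F hpS hF hX x) := by
  obtain ⟨a, rfl⟩ := QuotientAddGroup.mk_surjective x
  rw [actQuot_mk, kappaQuot_mk, kappaQuot_mk]
  exact kappaF_star S F hpS hF hn a

end Quot

/-! ### (D1): the unit part of the equivariant dictionary -/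

section Dict

variable {S F} (hF : F.IsUnramifiedOutside S) [NumberField F]

/-- `O_{F,S}^× ≃ (O_S^×)^{G_F}` (helper78's `sUnitsInv`, packaged). -/
def sUnitsEquiv : Additive ((sPlaces S F).unit F) ≃+ (sUnitsK S F).ρ.invariants :=
  AddEquiv.ofBijective (sUnitsInv hF) ⟨sUnitsInv_injective hF, sUnitsInv_surjective hF⟩

theorem sUnitsEquiv_apply (u : Additive ((sPlaces S F).unit F)) :
    sUnitsEquiv hF u = sUnitsInv hF u := rfl

/-- The element of `ℚ̄` underlying `sUnitsEquiv u` is the image of `u`. -/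
theorem coe_sUnitsEquiv (u : Additive ((sPlaces S F).unit F)) :
    ((sUnitsS.unit S (sUnitsEquiv hF u).1 : Qbˣ) : Qb) =
      algebraMap F Qb ((((Additive.toMul u : (sPlaces S F).unit F) : Fˣ) : F)) := rfl

/-- The element of `ℚ̄` underlying `n • a`. -/
theorem coe_actInv {n : GQ} (hn : Norm F.fixingSubgroup n) (a : (sUnitsK S F).ρ.invariants) :
    ((sUnitsS.unit S (actInv (sUnitsS S) hn a).1 : Qbˣ) : Qb) =
      n ((sUnitsS.unit S a.1 : Qbˣ) : Qb) := rfl

/-- **(D1)** For `F/ℚ` normal, `n ∈ G_ℚ` and `σ = n|_F`: the action of `n` on `(O_S^×)^{G_F}`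
is `u ↦ σ(u)` on the `S`-units of the number field `F`. -/
theorem coe_sUnitsEquiv_symm_actInv [Normal ℚ F] {n : GQ} (hn : Norm F.fixingSubgroup n)
    (u : Additive ((sPlaces S F).unit F)) :
    ((((Additive.toMul ((sUnitsEquiv hF).symm (actInv (sUnitsS S) hn (sUnitsEquiv hF u))) :
        (sPlaces S F).unit F) : Fˣ) : F)) =
      (AlgEquiv.restrictNormal n F)
        ((((Additive.toMul u : (sPlaces S F).unit F) : Fˣ) : F)) := by
  apply (algebraMap F Qb).injective
  rw [AlgEquiv.restrictNormal_commutes, ← coe_sUnitsEquiv hF, AddEquiv.apply_symm_apply,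
    coe_actInv, coe_sUnitsEquiv]

/-- (D1), transported form: if `u'` is the `S`-unit `σ(u)`, then `sUnitsEquiv u' = n • sUnitsEquiv u`. -/
theorem sUnitsEquiv_of_coe_eq [Normal ℚ F] {n : GQ} (hn : Norm F.fixingSubgroup n)
    (u u' : Additive ((sPlaces S F).unit F))
    (h : ((((Additive.toMul u' : (sPlaces S F).unit F) : Fˣ) : F)) =
      (AlgEquiv.restrictNormal n F) ((((Additive.toMul u : (sPlaces S F).unit F) : Fˣ) : F))) :
    sUnitsEquiv hF u' = actInv (sUnitsS S) hn (sUnitsEquiv hF u) := by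
  rw [← (sUnitsEquiv hF).eq_symm_apply]
  apply Additive.toMul.injective
  apply Subtype.ext
  apply Units.ext
  rw [coe_sUnitsEquiv_symm_actInv hF hn u, h]

end Dict

end Fermat.Agent.GP.GW.Euler.KumQuot
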