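/-
GATE-P / S56 [P-GW] E3 (helper12): BRIDGE between the two `⋆`-formalisms, and the inputs
`(K0)`, `(K1)` of the E3 base case restated on helper86's `k[C]`-modules `hlcStarRep 𝒰 Y i`.

* `StarRes` (helper12): `Phi Sg B = Coind_Sg^G Res_Sg B` for `B : Rep k G`, `star B (hn : Norm Sg n)`.
* `E3.NormPair` (helper86): `P.big Y = Coind_{H₀}^G Res_{H₀} Y` for `Y : Rep k P.H`, `star Y (n : P.H)`,
  `starC Y (c : P.C)`, `hlcStarRep 𝒰 Y i : Rep k P.C`.

For `Y := Res_H B` the two big modules coincide (`P.big (Res_H B) = Phi P.H₀ B`, definitionally) and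
the two `⋆` agree (`star_eq`, `rfl`).  Consequences:
* `hlcStarRep_ρ_mk` : the `C`-action on `hlcStarRep 𝒰 (Res_H B) i` is `HlcMap (StarRes.star B _) i`;
* `(K0)` `hlcStarRep_zero_ρ`, `hlcStarZeroIso` : for `χ|_{H₀} = 1`,
  `hlcStarRep 𝒰 (Res_H k(χ)) 0 ≅ k(χ̄)` as `k[C]`-modules, `χ̄ = chiC P χ hχ : C →* kˣ`;
* `(K1)` `fieldPair`, `kappaStar`, `kappaStar_act`, `exists_kappa_equiv` : over `G_ℚ`, with
  `H₀ = G_F`, `(O_S^×)^{G_F} / p ≃+ hlcStarRep (levelS S) (Res_H 𝔽_p(χ_cyc)) 1` intertwining the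
  action of `n ∈ H` on units with `ρ (mk n)`.
-/
import Fermat.Agent.GP.GW.Euler.KumQuot
import Fermat.Agent.GP.GW.Euler.H0Chi
import Fermat.Agent.GP.GW.E3.HlcStar

set_option autoImplicit false
set_option linter.style.haveILetI false
set_option linter.unusedSectionVars false

open CategoryTheory

noncomputable section

namespace Fermat.Agent.GP.GW.Euler.StarBridge

open Fermat.Agent.GC.Prof Fermat.Agent.GP.GW.Euler.StarRes Fermat.Agent.GP.GW.E3
  Fermat.Agent.GP.GW.E3.NormPair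

universe u

section Generic

variable {k G : Type u} [CommRing k] [Group G] (P : NormPair G) (B : Rep.{u} k G)

/-- `Res_H B` -/
abbrev resH : Rep.{u} k P.H := Rep.res P.H.subtype B

/-- elements of `H` normalise `H₀` in the sense of `StarRes.Norm` -/
theorem norm_coe (n : P.H) : Norm P.H₀ (n : G) := fun _ hs => P.conj_mem' n.2 hs

/-- the two big modules coincide -/
theorem big_resH : P.big (resH P B) = Phi P.H₀ B := rfl

/-- **the two `⋆` agree** -/
theorem star_eq (n : P.H) : NormPair.star (resH P B) n = StarRes.star B (norm_coe P n) := rfl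

theorem starC_mk_eq (n : P.H) :
    (starC (resH P B) (QuotientGroup.mk n : P.C) : P.big (resH P B) ⟶ P.big (resH P B)) =
      StarRes.star B (norm_coe P n) := rfl

variable (𝒰 : LevelSystem G) [hd : IsDiscrete 𝒰 (Phi P.H₀ B)]

/-- the discreteness instance in helper86's spelling -/
instance isDiscrete_big_resH : IsDiscrete 𝒰 (P.big (resH P B)) := hd

theorem hlcStar_mk_eq (i : ℕ) (n : P.H) :
    hlcStar 𝒰 (resH P B) i (QuotientGroup.mk n : P.C) =
      HlcMap 𝒰 (StarRes.star B (norm_coe P n)) i := rfl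

/-- **the `C`-action on `Hlcⁱ(G, W)` in the two languages** -/
theorem hlcStarRep_ρ_mk (i : ℕ) (n : P.H) (x : Hlc 𝒰 (Phi P.H₀ B) i) :
    (hlcStarRep 𝒰 (resH P B) i).ρ (QuotientGroup.mk n : P.C) x =
      HlcMap 𝒰 (StarRes.star B (norm_coe P n)) i x := rfl

end Generic


/-! ### `(K0)` : `Hlc⁰(G, W_{k(χ)}) ≅ k(χ̄)` as `k[C]`-modules -/

section K0

variable {k G : Type u} [CommRing k] [Group G] (P : NormPair G) (χ : G →* kˣ)
  (hχ : ∀ s ∈ P.H₀, χ s = 1)

/-- the character `χ̄ : C = H ⧸ H₀ →* kˣ` induced by `χ` (trivial on `H₀`) -/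
def chiC : P.C →* kˣ :=
  QuotientGroup.lift P.sub₀ (χ.comp P.H.subtype) (fun n hn => hχ (n : G) (mem_sub₀.1 hn))

@[simp] theorem chiC_mk (n : P.H) : chiC P χ hχ (QuotientGroup.mk n : P.C) = χ (n : G) := rfl

variable (𝒰 : LevelSystem G) [hd : IsDiscrete 𝒰 (Phi P.H₀ (chiRep χ))]

/-- the discreteness instance in helper86's spelling, for `B = k(χ)` -/
instance isDiscrete_big_resH_chiRep : IsDiscrete 𝒰 (P.big (resH P (chiRep χ))) := hd

/-- **`C` acts on `Hlc⁰(G, W_{k(χ)})` through the character `χ̄`.** -/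
theorem hlcStarRep_zero_ρ (c : P.C) (x : Hlc 𝒰 (Phi P.H₀ (chiRep χ)) 0) :
    (hlcStarRep 𝒰 (resH P (chiRep χ)) 0).ρ c x = ((chiC P χ hχ c : kˣ) : k) • x := by
  induction c using QuotientGroup.induction_on with
  | H n =>
    rw [hlcStarRep_ρ_mk, chiC_mk]
    exact H0Chi.HlcMap_star_zero 𝒰 hχ (norm_coe P n) x

/-- **`(K0)` : `Hlc⁰(G, W_{k(χ)}) ≅ k(χ̄)` as `k[C]`-modules.** -/
def hlcStarZeroIso : hlcStarRep 𝒰 (resH P (chiRep χ)) 0 ≅ chiRep (chiC P χ hχ) :=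
  Rep.mkIso (Representation.Equiv.mk (H0Chi.ev0Chi 𝒰 hχ) (fun c => by
    refine LinearMap.ext fun x => ?_
    show H0Chi.ev0Chi 𝒰 hχ ((hlcStarRep 𝒰 (resH P (chiRep χ)) 0).ρ c x) =
      ((chiC P χ hχ c : kˣ) : k) * H0Chi.ev0Chi 𝒰 hχ x
    exact (congrArg (H0Chi.ev0Chi 𝒰 hχ) (hlcStarRep_zero_ρ P χ hχ 𝒰 c x)).trans
      ((H0Chi.ev0Chi 𝒰 hχ).map_smul _ x)))

theorem hlcStarZeroIso_hom_apply (x : Hlc 𝒰 (Phi P.H₀ (chiRep χ)) 0) :
    (hlcStarZeroIso P χ hχ 𝒰).hom.hom x = H0Chi.ev0Chi 𝒰 hχ x := rfl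

end K0

/-! ### `(K1)` : `(O_S^×)^{G_F} / p ≃+ Hlc¹(G_{ℚ,S}, W_{𝔽_p(χ_cyc)})`, `C`-equivariantly -/

section K1

open Fermat.Agent.GC.KumH Fermat.Agent.GC.KumH.MuChi Fermat.Agent.GC.C0 Fermat.Agent.GC.Places
  Fermat.Agent.GC.Local.Abs
open Fermat.Agent.GP.GW.Euler.KumQ Fermat.Agent.GP.GW.Euler.KumQuot Fermat.Agent.GP.GW.Euler.PhiKum

local notation "Qb" => AlgebraicClosure ℚ
local notation "GQ" => (AlgebraicClosure ℚ ≃ₐ[ℚ] AlgebraicClosure ℚ)

variable (S : Finset Nat.Primes) {p : ℕ} [Fact p.Prime] (F : IntermediateField ℚ Qb)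

/-- The `NormPair` `(G_F ≤ H)` of `G_ℚ` attached to a field `F` and a subgroup `H ⊇ G_F`
normalising `G_F`. -/
def fieldPair (H : Subgroup GQ) (hle : F.fixingSubgroup ≤ H)
    (hcm : ∀ n ∈ H, ∀ s ∈ F.fixingSubgroup, n * s * n⁻¹ ∈ F.fixingSubgroup) : NormPair GQ :=
  ⟨H, F.fixingSubgroup, hle, hcm⟩

@[simp] theorem fieldPair_H (H : Subgroup GQ) (hle : F.fixingSubgroup ≤ H)
    (hcm : ∀ n ∈ H, ∀ s ∈ F.fixingSubgroup, n * s * n⁻¹ ∈ F.fixingSubgroup) :
    (fieldPair F H hle hcm).H = H := rfl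

@[simp] theorem fieldPair_H₀ (H : Subgroup GQ) (hle : F.fixingSubgroup ≤ H)
    (hcm : ∀ n ∈ H, ∀ s ∈ F.fixingSubgroup, n * s * n⁻¹ ∈ F.fixingSubgroup) :
    (fieldPair F H hle hcm).H₀ = F.fixingSubgroup := rfl

/-- for `F/ℚ` normal, `G_F` is normal in `G_ℚ` -/
theorem conj_mem_fixingSubgroup [Normal ℚ F] (n s : GQ) (hs : s ∈ F.fixingSubgroup) :
    n * s * n⁻¹ ∈ F.fixingSubgroup := by
  rw [IntermediateField.mem_fixingSubgroup_iff] at hs ⊢
  intro x hx
  have h1 : n⁻¹ x ∈ F := by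
    have h := (IntermediateField.normal_iff_forall_map_le'.1 (inferInstance : Normal ℚ F)) n⁻¹
    exact h ⟨x, hx, rfl⟩
  show n (s (n⁻¹ x)) = x
  rw [hs _ h1]
  exact n.apply_symm_apply x

/-- The `NormPair` `(G_F ≤ H)` for `F/ℚ` normal and any `H ⊇ G_F`. -/
def normalPair [Normal ℚ F] (H : Subgroup GQ) (hle : F.fixingSubgroup ≤ H) : NormPair GQ :=
  fieldPair F H hle (fun n _ s hs => conj_mem_fixingSubgroup F n s hs)

variable (P : NormPair GQ) (hP : P.H₀ = F.fixingSubgroup)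

include hP in
/-- elements of `P.H` normalise `G_F` -/
theorem norm_of_pair (n : P.H) : Norm F.fixingSubgroup (n : GQ) := hP ▸ norm_coe P n

variable (hpS : (⟨p, Fact.out⟩ : Nat.Primes) ∈ S) (hF : F.IsUnramifiedOutside S)

include hP hpS hF in
/-- **`(K1)`, existential form for an arbitrary `NormPair` with `H₀ = G_F`**: an additive
isomorphism `(O_S^×)^{G_F} / p ≃+ Hlc¹(G_{ℚ,S}, W)` (`W = P.big (Res_H 𝔽_p(χ_cyc))`) intertwining the
action of `n ∈ H` on units with the action of `[n] ∈ C` on helper86's `hlcStarRep`. -/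
theorem exists_kappa_equiv (hX : ∀ x : Hlc (levelK S F) (sUnitsK S F) 1, x = 0)
    [IsDiscrete (levelS S) (P.big (resH P (MuChi.chiQ p)))] :
    ∃ e : ((sUnitsK S F).ρ.invariants ⧸ pPow S F p) ≃+
        Hlc (levelS S) (P.big (resH P (MuChi.chiQ p))) 1,
      ∀ (n : P.H) (hn : Norm F.fixingSubgroup (n : GQ))
        (x : (sUnitsK S F).ρ.invariants ⧸ pPow S F p),
        e (actQuot S hn x) =
          (hlcStarRep (levelS S) (resH P (MuChi.chiQ p)) 1).ρ (QuotientGroup.mk n : P.C) (e x) := by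
  obtain ⟨H, H₀, hle, hcm⟩ := P
  change H₀ = F.fixingSubgroup at hP
  subst hP
  haveI := isDiscrete_chiQ' S hpS
  haveI hd := isDiscrete_phi S F hF (MuChi.chiQ p)
  refine ⟨kappaQuot S F hpS hF hX, fun n hn x => ?_⟩
  exact kappaQuot_act S hpS hF hX hn x

/-! #### definitional form for `fieldPair` -/

variable (H : Subgroup GQ) (hle : F.fixingSubgroup ≤ H)
  (hcm : ∀ n ∈ H, ∀ s ∈ F.fixingSubgroup, n * s * n⁻¹ ∈ F.fixingSubgroup)

include hpS hF in
/-- the discreteness instance for `W = (fieldPair F H _ _).big (Res_H 𝔽_p(χ_cyc))` -/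
theorem isDiscrete_big_fieldPair :
    IsDiscrete (levelS S) ((fieldPair F H hle hcm).big (resH (fieldPair F H hle hcm) (MuChi.chiQ p))) :=
  haveI := isDiscrete_chiQ' S hpS
  isDiscrete_phi S F hF (MuChi.chiQ p)

/-- **`(K1)` for `fieldPair`** : the Kummer isomorphism with target helper86's `Hlc¹(G_{ℚ,S}, W)`. -/
def kappaStar (hX : ∀ x : Hlc (levelK S F) (sUnitsK S F) 1, x = 0) :
    haveI := isDiscrete_big_fieldPair S F hpS hF H hle hcm
    ((sUnitsK S F).ρ.invariants ⧸ pPow S F p) ≃+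
      Hlc (levelS S) ((fieldPair F H hle hcm).big (resH (fieldPair F H hle hcm) (MuChi.chiQ p))) 1 :=
  kappaQuot S F hpS hF hX

/-- **`(K1)` equivariance**: `kappaStar` intertwines the action of `n ∈ H` on `(O_S^×)^{G_F} / p`
with the action of `[n] ∈ C = H ⧸ G_F` on `hlcStarRep … 1`. -/
theorem kappaStar_act (hX : ∀ x : Hlc (levelK S F) (sUnitsK S F) 1, x = 0)
    (n : (fieldPair F H hle hcm).H) (hn : Norm F.fixingSubgroup (n : GQ))
    (x : (sUnitsK S F).ρ.invariants ⧸ pPow S F p) :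
    haveI := isDiscrete_big_fieldPair S F hpS hF H hle hcm
    kappaStar S F hpS hF H hle hcm hX (actQuot S hn x) =
      (hlcStarRep (levelS S) (resH (fieldPair F H hle hcm) (MuChi.chiQ p)) 1).ρ
        (QuotientGroup.mk n : (fieldPair F H hle hcm).C) (kappaStar S F hpS hF H hle hcm hX x) :=
  kappaQuot_act S hpS hF hX hn x

/-- `(K0)` at the same point: `C` acts on `Hlc⁰(G_{ℚ,S}, W)` through `χ̄`
(needs `χ|_{G_F} = 1`; for `χ = χ_cyc` this is `ζ_p ∈ F`). -/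
theorem hlcStarRep_zero_fieldPair (χ : GQ →* (ZMod p)ˣ)
    (hχ : ∀ s ∈ F.fixingSubgroup, χ s = 1)
    [hd : IsDiscrete (levelS S) (Phi F.fixingSubgroup (chiRep χ))]
    (c : (fieldPair F H hle hcm).C) (x : Hlc (levelS S) (Phi F.fixingSubgroup (chiRep χ)) 0) :
    haveI : IsDiscrete (levelS S) (Phi (fieldPair F H hle hcm).H₀ (chiRep χ)) := hd
    (hlcStarRep (levelS S) (resH (fieldPair F H hle hcm) (chiRep χ)) 0).ρ c x =
      ((chiC (fieldPair F H hle hcm) χ hχ c : (ZMod p)ˣ) : ZMod p) • x :=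
  haveI : IsDiscrete (levelS S) (Phi (fieldPair F H hle hcm).H₀ (chiRep χ)) := hd
  hlcStarRep_zero_ρ (fieldPair F H hle hcm) χ hχ (levelS S) c x

end K1

end Fermat.Agent.GP.GW.Euler.StarBridge
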