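/-
GATE-P / S56 [P-GW] leaf S56-GW-CHARPOLY-ADDFUN (helper51): the **bridge** between the two
"currencies" of the cyclic-`p′` base case of Tate's global Euler characteristic:

* the additive-function libraries `LatticeRed.IsAddFun` (helper74), `TorsionQuot` (helper40),
  `HerbrandAdd.AddFun` (helper9), which work with an abstract `φ` on `R`-modules, and
* characteristic polynomials of one operator (`CharpolyCalc`, helper10's `E3B`).

For ANY ring `R` (think `ℤ[x]`, `ℤ[C]`, `ℤ[G]`), ANY element `r : R`, a prime `p` and a polynomial
`f ∈ 𝔽_p[X]` put
  `multVal r f M := multiplicity of f in charpoly (r • · | M)`   (`M` finite and killed by `p`,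
                                                                   `0` otherwise)
where `M` is an `𝔽_p`-vector space through `AddCommGroup.zmodModule`.  Main results:

* `multVal_eq`      : with ANY `[Module (ZMod p) M]`, `multVal r f M = multIn f (smulEnd p r M)`;
* `multAddFun`      : for `f` irreducible it is a `HerbrandAdd.AddFun R p ℤ`;
* `multVal_isAddFun`: and a `LatticeRed.IsAddFun`;
* `eq_of_multiplicity_eq` / `charpoly_eq_of_multIn_eq` : two monic polynomials (two characteristic
  polynomials) with the same multiplicity at every monic irreducible `f` are equal;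
* `charpoly_smulEnd_eq_of_multVal_eq` : the same in `multVal` form.
-/
import Mathlib
import Fermat.Agent.GP.GW.HerbrandAdd
import Fermat.Agent.GP.GW.LatticeRed
import Fermat.Agent.GP.GW.Euler.CharpolyCalc

set_option autoImplicit false

open Polynomial Module

namespace Fermat.Agent.GP.GW.CharpolyAddFun

open Fermat.Agent.GP.GW.CharpolyCalc

universe u uR

/-! ### the endomorphism `r • ·` of a `p`-killed module, as an `𝔽_p`-linear map -/

section SmulEnd

variable {R : Type uR} [Ring R] (p : ℕ)

/-- multiplication by `r : R` as a `ZMod p`-linear endomorphism (for ANY `ZMod p`-structure on the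
underlying additive group: every additive map is `ZMod p`-linear). -/
def smulEnd (r : R) (M : Type*) [AddCommGroup M] [Module R M] [Module (ZMod p) M] :
    M →ₗ[ZMod p] M :=
  (DistribSMul.toAddMonoidHom M r).toZModLinearMap p

@[simp] theorem smulEnd_apply (r : R) {M : Type*} [AddCommGroup M] [Module R M]
    [Module (ZMod p) M] (m : M) : smulEnd p r M m = r • m := rfl

/-- an `R`-linear map, as a `ZMod p`-linear map -/
def zmodLin {M N : Type*} [AddCommGroup M] [Module R M] [Module (ZMod p) M]
    [AddCommGroup N] [Module R N] [Module (ZMod p) N] (h : M →ₗ[R] N) : M →ₗ[ZMod p] N :=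
  (h : M →+ N).toZModLinearMap p

@[simp] theorem zmodLin_apply {M N : Type*} [AddCommGroup M] [Module R M] [Module (ZMod p) M]
    [AddCommGroup N] [Module R N] [Module (ZMod p) N] (h : M →ₗ[R] N) (m : M) :
    zmodLin p h m = h m := rfl

/-- an `R`-linear equivalence, as a `ZMod p`-linear equivalence -/
def zmodEquiv {M N : Type*} [AddCommGroup M] [Module R M] [Module (ZMod p) M]
    [AddCommGroup N] [Module R N] [Module (ZMod p) N] (h : M ≃ₗ[R] N) : M ≃ₗ[ZMod p] N :=
  { zmodLin p (h : M →ₗ[R] N) with
    invFun := h.symm
    left_inv := h.symm_apply_apply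
    right_inv := h.apply_symm_apply }

@[simp] theorem zmodEquiv_apply {M N : Type*} [AddCommGroup M] [Module R M] [Module (ZMod p) M]
    [AddCommGroup N] [Module R N] [Module (ZMod p) N] (h : M ≃ₗ[R] N) (m : M) :
    zmodEquiv p h m = h m := rfl

@[simp] theorem zmodEquiv_symm_apply {M N : Type*} [AddCommGroup M] [Module R M]
    [Module (ZMod p) M] [AddCommGroup N] [Module R N] [Module (ZMod p) N] (h : M ≃ₗ[R] N) (n : N) :
    (zmodEquiv p h).symm n = h.symm n := rfl

end SmulEnd

/-! ### the value -/

section Val

variable {R : Type uR} [Ring R] (r : R) {p : ℕ} [Fact p.Prime] (f : (ZMod p)[X])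

/-- explicit-instance form of the multiplicity -/
noncomputable def multAux (M : Type*) [AddCommGroup M] [Module R M] (inst : Module (ZMod p) M)
    (_hfin : Finite M) : ℕ :=
  multIn f (smulEnd p r M)

theorem multAux_congr (M : Type*) [AddCommGroup M] [Module R M] (inst inst' : Module (ZMod p) M)
    (hfin hfin' : Finite M) : multAux r f M inst hfin = multAux r f M inst' hfin' := by
  obtain rfl : inst = inst' := Subsingleton.elim _ _
  rfl

open Classical in
/-- **the additive function**: the multiplicity of `f` in the characteristic polynomial of `r • ·`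
on a finite `R`-module killed by `p` (and `0` on all other modules). -/
noncomputable def multVal (M : Type*) [AddCommGroup M] [Module R M] : ℤ :=
  if h : Finite M ∧ ∀ m : M, p • m = 0 then
    (multAux r f M (AddCommGroup.zmodModule h.2) h.1 : ℤ)
  else 0

/-- computation of `multVal` with respect to ANY `ZMod p`-module structure. -/
theorem multVal_eq (M : Type*) [AddCommGroup M] [Module R M] [inst : Module (ZMod p) M]
    [hfin : Finite M] : multVal r f M = (multIn f (smulEnd p r M) : ℤ) := by
  have h : Finite M ∧ ∀ m : M, p • m = 0 := ⟨hfin, ZModModule.char_nsmul_eq_zero p⟩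
  unfold multVal
  rw [dif_pos h, multAux_congr r f M _ inst h.1 hfin]
  rfl

theorem multVal_of_not (M : Type*) [AddCommGroup M] [Module R M]
    (h : ¬ (Finite M ∧ ∀ m : M, p • m = 0)) : multVal r f M = 0 := by
  unfold multVal
  rw [dif_neg h]

theorem multVal_nonneg (M : Type*) [AddCommGroup M] [Module R M] : 0 ≤ multVal r f M := by
  unfold multVal
  split_ifs
  · exact Int.natCast_nonneg _
  · exact le_rfl

/-- invariance under `R`-linear isomorphisms (no hypothesis on the modules). -/
theorem multVal_iso {M N : Type*} [AddCommGroup M] [Module R M] [AddCommGroup N] [Module R N]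
    (e : M ≃ₗ[R] N) : multVal r f M = multVal r f N := by
  classical
  by_cases h : Finite M ∧ ∀ m : M, p • m = 0
  · obtain ⟨hfin, hk⟩ := h
    have hfinN : Finite N := Finite.of_equiv M e.toEquiv
    have hkN : ∀ n : N, p • n = 0 := fun n => by
      obtain ⟨m, rfl⟩ := e.surjective n
      rw [← map_nsmul, hk, map_zero]
    have iM : Module (ZMod p) M := AddCommGroup.zmodModule hk
    have iN : Module (ZMod p) N := AddCommGroup.zmodModule hkN
    rw [multVal_eq r f M, multVal_eq r f N]
    have hc : (zmodEquiv p e).conj (smulEnd p r M) = smulEnd p r N := by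
      apply LinearMap.ext
      intro n
      rw [LinearEquiv.conj_apply_apply]
      simp only [zmodEquiv_symm_apply, smulEnd_apply, zmodEquiv_apply, map_smul,
        LinearEquiv.apply_symm_apply]
    have hmc := multIn_conj (V := M) (V' := N) f (zmodEquiv p e) (smulEnd p r M)
    rw [← hc, hmc]
  · have h' : ¬ (Finite N ∧ ∀ n : N, p • n = 0) := by
      rintro ⟨hfin, hk⟩
      apply h
      refine ⟨Finite.of_equiv N e.symm.toEquiv, fun m => ?_⟩
      apply e.injective
      rw [map_nsmul, hk, map_zero]
    rw [multVal_of_not r f M h, multVal_of_not r f N h']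

/-- additivity along a short exact sequence with finite `p`-killed middle term. -/
theorem multVal_exact (hf : Irreducible f) {A B C : Type*} [AddCommGroup A] [Module R A]
    [AddCommGroup B] [Module R B] [AddCommGroup C] [Module R C]
    (i : A →ₗ[R] B) (q : B →ₗ[R] C) (hi : Function.Injective i) (hq : Function.Surjective q)
    (hex : Function.Exact i q) [hfin : Finite B] (hk : ∀ b : B, p • b = 0) :
    multVal r f B = multVal r f A + multVal r f C := by
  classical
  have hfinA : Finite A := Finite.of_injective i hi
  have hfinC : Finite C := Finite.of_surjective q hq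
  have hkA : ∀ a : A, p • a = 0 := fun a => by
    apply hi
    rw [map_nsmul, hk, map_zero]
  have hkC : ∀ c : C, p • c = 0 := fun c => by
    obtain ⟨b, rfl⟩ := hq c
    rw [← map_nsmul, hk, map_zero]
  have iA : Module (ZMod p) A := AddCommGroup.zmodModule hkA
  have iB : Module (ZMod p) B := AddCommGroup.zmodModule hk
  have iC : Module (ZMod p) C := AddCommGroup.zmodModule hkC
  rw [multVal_eq r f A, multVal_eq r f B, multVal_eq r f C]
  have key := multIn_of_exact (V₁ := A) (V₂ := B) (V₃ := C) hf
    (zmodLin p i : A →ₗ[ZMod p] B) (zmodLin p q : B →ₗ[ZMod p] C) hi hq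
    (by
      ext b
      rw [LinearMap.mem_range, LinearMap.mem_ker]
      simp only [zmodLin_apply]
      rw [hex b]
      exact Iff.rfl)
    (smulEnd p r A) (smulEnd p r B) (smulEnd p r C)
    (fun x => by simp only [zmodLin_apply, smulEnd_apply, map_smul])
    (fun x => by simp only [zmodLin_apply, smulEnd_apply, map_smul])
  rw [key]
  push_cast
  rfl

/-- additivity along a submodule. -/
theorem multVal_add (hf : Irreducible f) {M : Type*} [AddCommGroup M] [Module R M] [Finite M]
    (hk : ∀ m : M, p • m = 0) (W : Submodule R M) :
    multVal r f M = multVal r f W + multVal r f (M ⧸ W) :=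
  multVal_exact r f hf W.subtype W.mkQ W.injective_subtype W.mkQ_surjective
    (fun m => by
      rw [Submodule.mkQ_apply, Submodule.Quotient.mk_eq_zero]
      constructor
      · intro h
        exact ⟨⟨m, h⟩, rfl⟩
      · rintro ⟨w, rfl⟩
        exact w.2) hk

end Val

/-! ### the two packagings -/

section Package

variable (R : Type uR) [Ring R] (r : R) (p : ℕ) [Fact p.Prime] (f : (ZMod p)[X])

/-- `multVal r f` as an additive function in the sense of `HerbrandAdd` (helper9). -/
noncomputable def multAddFun (hf : Irreducible f) : HerbrandAdd.AddFun.{u} R p ℤ where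
  φ M _ _ := multVal r f M
  iso _ e := multVal_iso r f e
  add hk W := multVal_add r f hf hk W

@[simp] theorem multAddFun_phi (hf : Irreducible f) (M : Type u) [AddCommGroup M] [Module R M] :
    (multAddFun.{u} R r p f hf).φ M = multVal r f M := rfl

/-- `multVal r f` is an additive function in the sense of `LatticeRed` (helper74), hence also for
`TorsionQuot` (helper40). -/
theorem multVal_isAddFun (hf : Irreducible f) :
    LatticeRed.IsAddFun.{u} (R := R) p
      (fun (A : Type u) [AddCommGroup A] [Module R A] => multVal r f A) where
  iso _ _ _ _ _ _ e := multVal_iso r f e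
  add _ _ _ _ _ _ _ _ _ i q hi hq hex hfin hk :=
    haveI := hfin
    multVal_exact r f hf i q hi hq hex hk

end Package

/-! ### back from multiplicities to polynomials -/

section Back

variable {k : Type*} [Field k]

/-- two monic polynomials over a field with the same multiplicity at every monic irreducible
polynomial are equal. -/
theorem eq_of_multiplicity_eq {P Q : k[X]} (hP : P.Monic) (hQ : Q.Monic)
    (h : ∀ f : k[X], f.Monic → Irreducible f → multiplicity f P = multiplicity f Q) : P = Q := by
  classical
  apply Polynomial.eq_of_monic_of_associated hP hQ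
  rw [UniqueFactorizationMonoid.associated_iff_normalizedFactors_eq_normalizedFactors
    hP.ne_zero hQ.ne_zero]
  ext g
  by_cases hg : g ∈ UniqueFactorizationMonoid.normalizedFactors P ∨
      g ∈ UniqueFactorizationMonoid.normalizedFactors Q
  · have hgi : Irreducible g := by
      rcases hg with hg | hg
      · exact UniqueFactorizationMonoid.irreducible_of_normalized_factor g hg
      · exact UniqueFactorizationMonoid.irreducible_of_normalized_factor g hg
    have hgn : normalize g = g := by
      rcases hg with hg | hg
      · exact UniqueFactorizationMonoid.normalize_normalized_factor g hg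
      · exact UniqueFactorizationMonoid.normalize_normalized_factor g hg
    have hgm : g.Monic := by
      rw [← hgn]
      exact Polynomial.monic_normalize hgi.ne_zero
    have h1 := UniqueFactorizationMonoid.multiplicity_eq_count_normalizedFactors hgi hP.ne_zero
    have h2 := UniqueFactorizationMonoid.multiplicity_eq_count_normalizedFactors hgi hQ.ne_zero
    rw [hgn] at h1 h2
    rw [← h1, ← h2]
    exact h g hgm hgi
  · rw [not_or] at hg
    rw [Multiset.count_eq_zero_of_notMem hg.1, Multiset.count_eq_zero_of_notMem hg.2]

/-- two endomorphisms with the same `multIn f` for every monic irreducible `f` have the same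
characteristic polynomial. -/
theorem charpoly_eq_of_multIn_eq {V V' : Type*} [AddCommGroup V] [Module k V]
    [FiniteDimensional k V] [AddCommGroup V'] [Module k V'] [FiniteDimensional k V']
    (e : V →ₗ[k] V) (e' : V' →ₗ[k] V')
    (h : ∀ f : k[X], f.Monic → Irreducible f → multIn f e = multIn f e') :
    e.charpoly = e'.charpoly :=
  eq_of_multiplicity_eq e.charpoly_monic e'.charpoly_monic h

end Back

section BackVal

variable {R : Type uR} [Ring R] (r : R) {p : ℕ} [Fact p.Prime]

/-- `multVal` form: two finite `p`-killed `R`-modules on which `r` has the same multiplicities have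
the same characteristic polynomial of `r • ·`. -/
theorem charpoly_smulEnd_eq_of_multVal_eq {M N : Type*} [AddCommGroup M] [Module R M]
    [Module (ZMod p) M] [Finite M] [AddCommGroup N] [Module R N] [Module (ZMod p) N] [Finite N]
    (h : ∀ f : (ZMod p)[X], f.Monic → Irreducible f → multVal r f M = multVal r f N) :
    (smulEnd p r M).charpoly = (smulEnd p r N).charpoly := by
  apply charpoly_eq_of_multIn_eq
  intro f hfm hfi
  have := h f hfm hfi
  rw [multVal_eq r f M, multVal_eq r f N] at this
  exact_mod_cast this

end BackVal

/-! ### sample consequences in characteristic-polynomial form -/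

section Consequences

open HerbrandAdd

variable {R : Type uR} [Ring R] (r : R) {p : ℕ} [Fact p.Prime]

/-- `A/pA` is finite when `A` is (Mathlib has no such instance for module quotients) -/
theorem finite_quo (p : ℕ) (A : Type*) [AddCommGroup A] [Module R A] [Finite A] :
    Finite (quo (R := R) p A) :=
  Finite.of_surjective _ (Submodule.mkQ_surjective _)

/-- **`[𝒞/p] = [𝒞[p]]` for charpolys**: for a FINITE `R`-module `A` (not necessarily a `p`-group)
the operator `r` has the same characteristic polynomial on `A/pA` and on `A[p]`
(`HerbrandAdd.AddFun.phi_quo_eq_phi_tors` fed with `multAddFun`). -/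
theorem charpoly_quo_eq_charpoly_tors (A : Type u) [AddCommGroup A] [Module R A] [Finite A]
    [Finite (quo (R := R) p A)]
    [Module (ZMod p) (quo (R := R) p A)] [Module (ZMod p) (tors (R := R) p A)] :
    (smulEnd p r (quo (R := R) p A)).charpoly = (smulEnd p r (tors (R := R) p A)).charpoly := by
  apply charpoly_smulEnd_eq_of_multVal_eq
  intro f _ hfi
  exact (multAddFun.{u} R r p f hfi).phi_quo_eq_phi_tors (A := A)

/-- **commensurable lattices have the same characteristic polynomial mod `p`**: `B` without
`p`-torsion, `W ≤ B` of finite index, `B/p` finite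
(`HerbrandAdd.AddFun.phi_quo_of_finite_quotient` fed with `multAddFun`). -/
theorem charpoly_quo_eq_of_finite_quotient (B : Type u) [AddCommGroup B] [Module R B]
    (W : Submodule R B) [Finite (B ⧸ W)] (hB : HQFin R p B) (h : ∀ b : B, p • b = 0 → b = 0)
    [Module (ZMod p) (quo (R := R) p B)] [Module (ZMod p) (quo (R := R) p W)]
    [Finite (quo (R := R) p B)] [Finite (quo (R := R) p W)] :
    (smulEnd p r (quo (R := R) p B)).charpoly = (smulEnd p r (quo (R := R) p W)).charpoly := by
  apply charpoly_smulEnd_eq_of_multVal_eq
  intro f _ hfi
  exact (multAddFun.{u} R r p f hfi).phi_quo_of_finite_quotient W hB h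

end Consequences

end Fermat.Agent.GP.GW.CharpolyAddFun
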