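/-
GATE-P / S56 [P-GW] leaf S56-GW-ADDFUN-OF-CHARPOLY (helper51): **every additive function factors
through the characteristic polynomial of a generator** (Jordan–Hölder / Brauer–Nesbitt for ONE
operator).

`R` any ring generated (as a ring) by one element `r` (e.g. `ℤ[C]`, `𝔽_p[C]` with `C = ⟨g⟩`),
`p` prime, `Φ : HerbrandAdd.AddFun R p Z` an additive function on finite `R`-modules killed by `p`.
Then there is `F : 𝔽_p[X] → Z` with `F (P * Q) = F P + F Q` and
  `Φ.φ M = F (charpoly (r • · | M))`    for every finite `p`-killed `R`-module `M`.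
Hence every identity between characteristic polynomials of `r` becomes an identity between the
values of EVERY additive function (`phi_eq_of_charpoly_eq`, `phi_add_eq_of_charpoly_mul_eq`).

The proof is elementary: for a simple pair `(V, e)` the annihilator of any `w ≠ 0` in `k[X]` is
generated by `charpoly e`; so `charpoly e` is irreducible and determines `(V, e)` up to isomorphism;
then induction on the cardinality along a simple submodule.
-/
import Mathlib
import Fermat.Agent.GP.GW.HerbrandAdd
import Fermat.Agent.GP.GW.LatticeRed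
import Fermat.Agent.GP.GW.Euler.CharpolyCalc
import Fermat.Agent.GP.GW.Euler.CharpolyAddFun

set_option autoImplicit false

open Polynomial Module

namespace Fermat.Agent.GP.GW.AddFunOfCharpoly

open Fermat.Agent.GP.GW.CharpolyCalc Fermat.Agent.GP.GW.CharpolyAddFun

universe u uR uZ

/-! ### simple pairs `(V, e)` over a field -/

section SimplePair

variable {k : Type*} [Field k] {V : Type*} [AddCommGroup V] [Module k V]

/-- the orbit map `a ↦ a(e) w` -/
noncomputable def orbitMap (e : V →ₗ[k] V) (w : V) : k[X] →ₗ[k] V :=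
  (LinearMap.applyₗ w : (V →ₗ[k] V) →ₗ[k] V) ∘ₗ (aeval e : k[X] →ₐ[k] (V →ₗ[k] V)).toLinearMap

@[simp] theorem orbitMap_apply (e : V →ₗ[k] V) (w : V) (a : k[X]) :
    orbitMap e w a = aeval e a w := rfl

theorem orbitMap_mul (e : V →ₗ[k] V) (w : V) (a b : k[X]) :
    orbitMap e w (a * b) = aeval e a (orbitMap e w b) := by
  simp only [orbitMap_apply, map_mul, Module.End.mul_apply]

theorem orbitMap_X_mul (e : V →ₗ[k] V) (w : V) (a : k[X]) :
    orbitMap e w (X * a) = e (orbitMap e w a) := by
  rw [orbitMap_mul, aeval_X]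

/-- `(V, e)` is simple: no proper nonzero `e`-stable subspace. -/
def IsSimplePair (e : V →ₗ[k] V) : Prop :=
  Nontrivial V ∧ ∀ U : Submodule k V, U ≤ U.comap e → U = ⊥ ∨ U = ⊤

theorem orbitMap_surjective {e : V →ₗ[k] V} (hs : IsSimplePair e) {w : V} (hw : w ≠ 0) :
    Function.Surjective (orbitMap e w) := by
  rw [← LinearMap.range_eq_top]
  rcases hs.2 (LinearMap.range (orbitMap e w)) (by
    rintro _ ⟨a, rfl⟩
    exact ⟨X * a, orbitMap_X_mul e w a⟩) with h | h
  · exfalso
    apply hw
    have : w ∈ LinearMap.range (orbitMap e w) := ⟨1, by simp⟩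
    rw [h] at this
    exact (Submodule.mem_bot k).1 this
  · exact h

variable [FiniteDimensional k V]

omit [FiniteDimensional k V] in
/-- if a nonzero `c` kills `w ≠ 0` in a simple pair then `dim V ≤ deg c`. -/
theorem finrank_le_natDegree_of_simple {e : V →ₗ[k] V} (hs : IsSimplePair e) {w : V} (hw : w ≠ 0)
    {c : k[X]} (hc : c ≠ 0) (hcw : aeval e c w = 0) : finrank k V ≤ c.natDegree := by
  classical
  set n := c.natDegree with hn
  let g : degreeLT k n →ₗ[k] V := orbitMap e w ∘ₗ (degreeLT k n).subtype
  have hg : Function.Surjective g := by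
    intro v
    obtain ⟨a, rfl⟩ := orbitMap_surjective hs hw v
    have hmod : (a % c) ∈ degreeLT k n := by
      rw [mem_degreeLT]
      calc (a % c).degree < c.degree := degree_mod_lt a hc
        _ = (n : WithBot ℕ) := by rw [hn, degree_eq_natDegree hc]
    refine ⟨⟨a % c, hmod⟩, ?_⟩
    show orbitMap e w (a % c) = orbitMap e w a
    have h1 : a = c * (a / c) + a % c := (EuclideanDomain.div_add_mod a c).symm
    conv_rhs => rw [h1]
    rw [map_add, mul_comm, orbitMap_mul, orbitMap_apply e w c, hcw, map_zero, zero_add]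
  have h1 := LinearMap.finrank_le_finrank_of_surjective hg
  have h2 : finrank k (degreeLT k n) = n := by
    rw [LinearEquiv.finrank_eq (degreeLTEquiv k n), Module.finrank_fin_fun]
  omega

/-- **key**: in a simple pair the annihilator of any `w ≠ 0` is generated by `charpoly e`. -/
theorem charpoly_dvd_of_simple {e : V →ₗ[k] V} (hs : IsSimplePair e) {w : V} (hw : w ≠ 0)
    {a : k[X]} (haw : aeval e a w = 0) : e.charpoly ∣ a := by
  have := hs.1
  have hmon := e.charpoly_monic
  have hdeg : e.charpoly.natDegree = finrank k V := e.charpoly_natDegree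
  have hpos : 0 < finrank k V := Module.finrank_pos
  have hne1 : e.charpoly ≠ 1 := by
    intro h
    rw [h, natDegree_one] at hdeg
    omega
  rw [← modByMonic_eq_zero_iff_dvd hmon]
  by_contra hρ
  have hρw : aeval e (a %ₘ e.charpoly) w = 0 := by
    have h1 := modByMonic_add_div a e.charpoly
    have h2 : a %ₘ e.charpoly = a - e.charpoly * (a /ₘ e.charpoly) := by
      rw [eq_sub_iff_add_eq]
      exact h1
    rw [h2, map_sub, map_mul, LinearMap.aeval_self_charpoly, zero_mul, sub_zero, haw]
  have h3 := finrank_le_natDegree_of_simple hs hw hρ hρw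
  have h4 := natDegree_modByMonic_lt a hmon hne1
  omega

theorem aeval_charpoly_mul_apply (e : V →ₗ[k] V) (q : k[X]) (w : V) :
    aeval e (e.charpoly * q) w = 0 := by
  rw [map_mul, LinearMap.aeval_self_charpoly, zero_mul, LinearMap.zero_apply]

/-- the characteristic polynomial of a simple pair is irreducible. -/
theorem irreducible_charpoly_of_simple {e : V →ₗ[k] V} (hs : IsSimplePair e) :
    Irreducible e.charpoly := by
  have := hs.1
  have hmon := e.charpoly_monic
  have hdeg : e.charpoly.natDegree = finrank k V := e.charpoly_natDegree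
  have hpos : 0 < finrank k V := Module.finrank_pos
  obtain ⟨w, hw⟩ := exists_ne (0 : V)
  refine ⟨fun hu => ?_, fun a b hab => ?_⟩
  · have := natDegree_eq_zero_of_isUnit hu
    omega
  · have ha0 : a ≠ 0 := by
      rintro rfl
      rw [zero_mul] at hab
      exact hmon.ne_zero hab
    have hb0 : b ≠ 0 := by
      rintro rfl
      rw [mul_zero] at hab
      exact hmon.ne_zero hab
    have hsum : a.natDegree + b.natDegree = finrank k V := by
      rw [← hdeg, hab, natDegree_mul ha0 hb0]
    by_cases haw : aeval e a w = 0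
    · -- `charpoly ∣ a`, so `b` is a unit
      right
      have hd := natDegree_le_of_dvd (charpoly_dvd_of_simple hs hw haw) ha0
      have hb : b.natDegree = 0 := by omega
      rw [eq_C_of_natDegree_eq_zero hb] at hb0 ⊢
      exact isUnit_C.2 (isUnit_iff_ne_zero.2 (fun h => hb0 (by rw [h, C_0])))
    · -- `charpoly ∣ b`, so `a` is a unit
      left
      have hbw : aeval e b (aeval e a w) = 0 := by
        have := aeval_charpoly_mul_apply e 1 w
        rw [mul_one, hab, mul_comm, map_mul, Module.End.mul_apply] at this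
        exact this
      have hd := natDegree_le_of_dvd (charpoly_dvd_of_simple hs haw hbw) hb0
      have ha : a.natDegree = 0 := by omega
      rw [eq_C_of_natDegree_eq_zero ha] at ha0 ⊢
      exact isUnit_C.2 (isUnit_iff_ne_zero.2 (fun h => ha0 (by rw [h, C_0])))

/-- two simple pairs with the same characteristic polynomial are isomorphic. -/
theorem exists_equiv_of_simple {V' : Type*} [AddCommGroup V'] [Module k V']
    [FiniteDimensional k V'] {e : V →ₗ[k] V} {e' : V' →ₗ[k] V'} (hs : IsSimplePair e)
    (hs' : IsSimplePair e') (h : e.charpoly = e'.charpoly) :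
    ∃ ψ : V ≃ₗ[k] V', ∀ v, ψ (e v) = e' (ψ v) := by
  have := hs.1
  have := hs'.1
  obtain ⟨w, hw⟩ := exists_ne (0 : V)
  obtain ⟨w', hw'⟩ := exists_ne (0 : V')
  have hker : LinearMap.ker (orbitMap e w) = LinearMap.ker (orbitMap e' w') := by
    ext a
    rw [LinearMap.mem_ker, LinearMap.mem_ker, orbitMap_apply, orbitMap_apply]
    constructor
    · intro ha
      obtain ⟨q, rfl⟩ := charpoly_dvd_of_simple hs hw ha
      rw [h]
      exact aeval_charpoly_mul_apply e' q w'
    · intro ha
      obtain ⟨q, rfl⟩ := charpoly_dvd_of_simple hs' hw' ha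
      rw [← h]
      exact aeval_charpoly_mul_apply e q w
  let ψ : V ≃ₗ[k] V' :=
    ((orbitMap e w).quotKerEquivOfSurjective (orbitMap_surjective hs hw)).symm.trans
      ((Submodule.quotEquivOfEq _ _ hker).trans
        ((orbitMap e' w').quotKerEquivOfSurjective (orbitMap_surjective hs' hw')))
  have hψ : ∀ a : k[X], ψ (orbitMap e w a) = orbitMap e' w' a := by
    intro a
    have h1 : ((orbitMap e w).quotKerEquivOfSurjective (orbitMap_surjective hs hw)).symm
        (orbitMap e w a) = Submodule.Quotient.mk a := by
      rw [LinearEquiv.symm_apply_eq]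
      rfl
    show ((orbitMap e' w').quotKerEquivOfSurjective (orbitMap_surjective hs' hw'))
      ((Submodule.quotEquivOfEq _ _ hker)
        (((orbitMap e w).quotKerEquivOfSurjective (orbitMap_surjective hs hw)).symm
          (orbitMap e w a))) = _
    rw [h1]
    rfl
  refine ⟨ψ, fun v => ?_⟩
  obtain ⟨a, rfl⟩ := orbitMap_surjective hs hw v
  rw [← orbitMap_X_mul, hψ, hψ, orbitMap_X_mul]

end SimplePair

/-! ### rings generated by one element -/

section Gen

variable {R : Type uR} [Ring R] {r : R} (hgen : ∀ x : R, x ∈ Subring.closure {r})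

include hgen

/-- an additive subgroup stable under `r` is stable under `R`. -/
theorem smul_mem_of_gen {M : Type*} [AddCommGroup M] [Module R M] (S : AddSubgroup M)
    (hS : ∀ m ∈ S, r • m ∈ S) (x : R) : ∀ m ∈ S, x • m ∈ S := by
  refine Subring.closure_induction (p := fun x _ => ∀ m ∈ S, x • m ∈ S) ?_ ?_ ?_ ?_ ?_ ?_ (hgen x)
  · intro y hy m hm
    rw [Set.mem_singleton_iff.1 hy]
    exact hS m hm
  · intro m _
    rw [zero_smul]
    exact S.zero_mem
  · intro m hm
    rw [one_smul]
    exact hm
  · intro y z _ _ hy hz m hm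
    rw [add_smul]
    exact S.add_mem (hy m hm) (hz m hm)
  · intro y _ hy m hm
    rw [neg_smul]
    exact S.neg_mem (hy m hm)
  · intro y z _ _ hy hz m hm
    rw [mul_smul]
    exact hy _ (hz m hm)

/-- an additive map commuting with `r` is `R`-linear. -/
theorem map_smul_of_gen {M N : Type*} [AddCommGroup M] [Module R M] [AddCommGroup N] [Module R N]
    (φ : M →+ N) (hφ : ∀ m, φ (r • m) = r • φ m) (x : R) : ∀ m, φ (x • m) = x • φ m := by
  refine Subring.closure_induction (p := fun x _ => ∀ m, φ (x • m) = x • φ m) ?_ ?_ ?_ ?_ ?_ ?_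
    (hgen x)
  · intro y hy m
    rw [Set.mem_singleton_iff.1 hy]
    exact hφ m
  · intro m
    rw [zero_smul, zero_smul, map_zero]
  · intro m
    rw [one_smul, one_smul]
  · intro y z _ _ hy hz m
    rw [add_smul, add_smul, map_add, hy, hz]
  · intro y _ hy m
    rw [neg_smul, neg_smul, map_neg, hy]
  · intro y z _ _ hy hz m
    rw [mul_smul, mul_smul, hy, hz]

variable {p : ℕ}

/-- an `r`-stable `ZMod p`-subspace, as an `R`-submodule -/
def rSub {M : Type*} [AddCommGroup M] [Module R M] [Module (ZMod p) M]
    (U : Submodule (ZMod p) M) (hU : U ≤ U.comap (smulEnd p r M)) : Submodule R M where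
  carrier := U
  add_mem' := U.add_mem
  zero_mem' := U.zero_mem
  smul_mem' := fun x m hm =>
    smul_mem_of_gen hgen U.toAddSubgroup (fun _ hm' => hU hm') x m hm

@[simp] theorem mem_rSub {M : Type*} [AddCommGroup M] [Module R M] [Module (ZMod p) M]
    (U : Submodule (ZMod p) M) (hU : U ≤ U.comap (smulEnd p r M)) (m : M) :
    m ∈ rSub hgen U hU ↔ m ∈ U := Iff.rfl

/-- a `ZMod p`-linear equivalence commuting with `r`, as an `R`-linear equivalence -/
def rEquiv {M N : Type*} [AddCommGroup M] [Module R M] [Module (ZMod p) M]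
    [AddCommGroup N] [Module R N] [Module (ZMod p) N] (ψ : M ≃ₗ[ZMod p] N)
    (hψ : ∀ m, ψ (smulEnd p r M m) = smulEnd p r N (ψ m)) : M ≃ₗ[R] N :=
  { ψ.toAddEquiv with
    map_smul' := fun x m =>
      map_smul_of_gen hgen (ψ.toAddEquiv : M →+ N) (fun m => hψ m) x m }

/-- a simple `R`-module gives a simple pair. -/
theorem isSimplePair_of_isSimpleModule [Fact p.Prime] {W : Type*} [AddCommGroup W] [Module R W]
    [Module (ZMod p) W] [IsSimpleModule R W] : IsSimplePair (smulEnd p r W) := by
  refine ⟨IsSimpleModule.nontrivial R W, fun U hU => ?_⟩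
  rcases eq_bot_or_eq_top (rSub hgen U hU) with h | h
  · left
    rw [eq_bot_iff]
    intro m hm
    have : m ∈ rSub hgen U hU := hm
    rw [h] at this
    exact this
  · right
    rw [eq_top_iff]
    intro m _
    have : m ∈ rSub hgen U hU := by
      rw [h]
      exact Submodule.mem_top
    exact this

end Gen

/-! ### the main theorem -/

section Main

open HerbrandAdd

variable (R : Type uR) [Ring R] (r : R) (p : ℕ) [Fact p.Prime]

/-- a simple finite `p`-killed `R`-module on which `r` has characteristic polynomial `f` -/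
structure SimpleWith (f : (ZMod p)[X]) : Type (max (u + 1) uR) where
  /-- the module -/
  W : Type u
  [acg : AddCommGroup W]
  [modR : Module R W]
  [modZ : Module (ZMod p) W]
  [fin : Finite W]
  simple : IsSimpleModule R W
  charpoly_eq : (smulEnd p r W).charpoly = f

attribute [instance] SimpleWith.acg SimpleWith.modR SimpleWith.modZ SimpleWith.fin

variable {R r p} {Z : Type uZ} [AddCommGroup Z] (Φ : AddFun.{u} R p Z)

open Classical in
/-- the value of `Φ` on "the" simple module with characteristic polynomial `f` (or `0`) -/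
noncomputable def simpleVal (r : R) (f : (ZMod p)[X]) : Z :=
  if h : Nonempty (SimpleWith.{u} R r p f) then Φ.φ h.some.W else 0

/-- the multiplicative-to-additive function `F` -/
noncomputable def polyVal (r : R) (P : (ZMod p)[X]) : Z :=
  ((UniqueFactorizationMonoid.normalizedFactors P).map (simpleVal Φ r)).sum

theorem polyVal_one (r : R) : polyVal Φ r (1 : (ZMod p)[X]) = 0 := by
  unfold polyVal
  rw [UniqueFactorizationMonoid.normalizedFactors_one, Multiset.map_zero, Multiset.sum_zero]

theorem polyVal_mul (r : R) {P Q : (ZMod p)[X]} (hP : P ≠ 0) (hQ : Q ≠ 0) :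
    polyVal Φ r (P * Q) = polyVal Φ r P + polyVal Φ r Q := by
  unfold polyVal
  rw [UniqueFactorizationMonoid.normalizedFactors_mul hP hQ, Multiset.map_add, Multiset.sum_add]

theorem polyVal_irreducible (r : R) {f : (ZMod p)[X]} (hf : Irreducible f) (hm : f.Monic) :
    polyVal Φ r f = simpleVal Φ r f := by
  unfold polyVal
  rw [UniqueFactorizationMonoid.normalizedFactors_irreducible hf, hm.normalize_eq_self,
    Multiset.map_singleton, Multiset.sum_singleton]

variable (hgen : ∀ x : R, x ∈ Subring.closure {r})

include hgen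

theorem simpleVal_eq {f : (ZMod p)[X]} (S : SimpleWith.{u} R r p f) :
    Φ.φ S.W = simpleVal Φ r f := by
  classical
  have hne : Nonempty (SimpleWith.{u} R r p f) := ⟨S⟩
  unfold simpleVal
  rw [dif_pos hne]
  set S' := hne.some
  have := S.simple
  have := S'.simple
  obtain ⟨ψ, hψ⟩ := exists_equiv_of_simple
    (isSimplePair_of_isSimpleModule (p := p) (W := S.W) hgen)
    (isSimplePair_of_isSimpleModule (p := p) (W := S'.W) hgen)
    (S.charpoly_eq.trans S'.charpoly_eq.symm)
  exact Φ.iso (fun m => ZModModule.char_nsmul_eq_zero p m) (rEquiv hgen ψ hψ)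

/-- **main theorem**, inductive form. -/
theorem phi_eq_polyVal_aux : ∀ (n : ℕ) (M : Type u) [AddCommGroup M] [Module R M]
    [Module (ZMod p) M] [Finite M], Nat.card M = n →
    Φ.φ M = polyVal Φ r (smulEnd p r M).charpoly := by
  intro n
  induction n using Nat.strong_induction_on with
  | _ n ih =>
    intro M _ _ _ _ hn
    have hk : ∀ m : M, p • m = 0 := fun m => ZModModule.char_nsmul_eq_zero p m
    rcases subsingleton_or_nontrivial M with hsub | hnt
    · rw [Φ.phi_subsingleton M]
      have h1 : (smulEnd p r M).charpoly = 1 := by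
        apply eq_one_of_monic_natDegree_zero (LinearMap.charpoly_monic _)
        rw [LinearMap.charpoly_natDegree]
        exact Module.finrank_zero_of_subsingleton
      rw [h1, polyVal_one]
    · -- a simple submodule
      have : IsArtinian R M := isArtinian_of_finite
      have : IsAtomic (Submodule R M) := isAtomic_of_orderBot_wellFounded_lt wellFounded_lt
      obtain ⟨W, hW, -⟩ := (eq_bot_or_exists_atom_le (⊤ : Submodule R M)).resolve_left top_ne_bot
      have hWs : IsSimpleModule R W := isSimpleModule_iff_isAtom.2 hW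
      have hkW : ∀ w : W, p • w = 0 := fun w => Subtype.ext (by
        rw [Submodule.coe_smul_of_tower]
        exact hk w)
      have hkQ : ∀ y : M ⧸ W, p • y = 0 := fun y => by
        obtain ⟨m, rfl⟩ := Submodule.mkQ_surjective W y
        rw [← map_nsmul, hk, map_zero]
      have iW : Module (ZMod p) W := AddCommGroup.zmodModule hkW
      have iQ : Module (ZMod p) (M ⧸ W) := AddCommGroup.zmodModule hkQ
      have hfinQ : Finite (M ⧸ W) := Finite.of_surjective _ (Submodule.mkQ_surjective W)
      -- additivity of `Φ` and multiplicativity of the characteristic polynomial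
      have hadd := Φ.add hk W
      have hmul : (smulEnd p r M).charpoly =
          (smulEnd p r W).charpoly * (smulEnd p r (M ⧸ W)).charpoly :=
        charpoly_of_exact (V₁ := W) (V₂ := M) (V₃ := M ⧸ W)
          (zmodLin p W.subtype : W →ₗ[ZMod p] M) (zmodLin p W.mkQ : M →ₗ[ZMod p] M ⧸ W)
          W.injective_subtype W.mkQ_surjective
          (by
            ext m
            rw [LinearMap.mem_range, LinearMap.mem_ker]
            simp only [zmodLin_apply, Submodule.subtype_apply, Submodule.mkQ_apply,
              Submodule.Quotient.mk_eq_zero]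
            constructor
            · rintro ⟨w, rfl⟩
              exact w.2
            · intro h
              exact ⟨⟨m, h⟩, rfl⟩)
          (smulEnd p r W) (smulEnd p r M) (smulEnd p r (M ⧸ W))
          (fun x => by simp only [zmodLin_apply, smulEnd_apply, map_smul])
          (fun x => by simp only [zmodLin_apply, smulEnd_apply, map_smul])
      -- the quotient is smaller
      have hcard : Nat.card (M ⧸ W) < n := by
        have h1 := Submodule.card_eq_card_quotient_mul_card W
        have h2 : 1 < Nat.card W := by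
          have : Nontrivial W := IsSimpleModule.nontrivial R W
          exact Finite.one_lt_card
        have h3 : 0 < Nat.card (M ⧸ W) := Nat.card_pos
        rw [← hn, h1]
        nlinarith
      have hQ := ih _ hcard (M ⧸ W) rfl
      -- the simple piece
      have hsimple : Irreducible (smulEnd p r W).charpoly :=
        irreducible_charpoly_of_simple (isSimplePair_of_isSimpleModule (p := p) (W := W) hgen)
      have hWval : Φ.φ W = polyVal Φ r (smulEnd p r W).charpoly := by
        rw [polyVal_irreducible Φ r hsimple (LinearMap.charpoly_monic _)]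
        exact simpleVal_eq Φ hgen
          { W := W, simple := hWs, charpoly_eq := rfl }
      rw [hadd, hmul, polyVal_mul Φ r (LinearMap.charpoly_monic _).ne_zero
        (LinearMap.charpoly_monic _).ne_zero, hWval, hQ]

/-- **every additive function factors through the characteristic polynomial of the generator**. -/
theorem phi_eq_polyVal (M : Type u) [AddCommGroup M] [Module R M] [Module (ZMod p) M]
    [Finite M] : Φ.φ M = polyVal Φ r (smulEnd p r M).charpoly :=
  phi_eq_polyVal_aux Φ hgen _ M rfl

/-- existential packaging -/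
theorem exists_additive_of_charpoly :
    ∃ F : (ZMod p)[X] → Z, F 1 = 0 ∧ (∀ P Q, P ≠ 0 → Q ≠ 0 → F (P * Q) = F P + F Q) ∧
      ∀ (M : Type u) [AddCommGroup M] [Module R M] [Module (ZMod p) M] [Finite M],
        Φ.φ M = F (smulEnd p r M).charpoly :=
  ⟨polyVal Φ r, polyVal_one Φ r, fun _ _ hP hQ => polyVal_mul Φ r hP hQ,
    fun M _ _ _ _ => phi_eq_polyVal Φ hgen M⟩

/-- equal characteristic polynomials of `r` ⟹ equal values of every additive function. -/
theorem phi_eq_of_charpoly_eq {M N : Type u} [AddCommGroup M] [Module R M] [Module (ZMod p) M]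
    [Finite M] [AddCommGroup N] [Module R N] [Module (ZMod p) N] [Finite N]
    (h : (smulEnd p r M).charpoly = (smulEnd p r N).charpoly) : Φ.φ M = Φ.φ N := by
  rw [phi_eq_polyVal Φ hgen M, phi_eq_polyVal Φ hgen N, h]

/-- `P_A · P_B = P_A' · P_B'` ⟹ `Φ A + Φ B = Φ A' + Φ B'`. -/
theorem phi_add_eq_of_charpoly_mul_eq {A B A' B' : Type u}
    [AddCommGroup A] [Module R A] [Module (ZMod p) A] [Finite A]
    [AddCommGroup B] [Module R B] [Module (ZMod p) B] [Finite B]
    [AddCommGroup A'] [Module R A'] [Module (ZMod p) A'] [Finite A']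
    [AddCommGroup B'] [Module R B'] [Module (ZMod p) B'] [Finite B']
    (h : (smulEnd p r A).charpoly * (smulEnd p r B).charpoly =
      (smulEnd p r A').charpoly * (smulEnd p r B').charpoly) :
    Φ.φ A + Φ.φ B = Φ.φ A' + Φ.φ B' := by
  rw [phi_eq_polyVal Φ hgen A, phi_eq_polyVal Φ hgen B, phi_eq_polyVal Φ hgen A',
    phi_eq_polyVal Φ hgen B',
    ← polyVal_mul Φ r (LinearMap.charpoly_monic _).ne_zero (LinearMap.charpoly_monic _).ne_zero,
    ← polyVal_mul Φ r (LinearMap.charpoly_monic _).ne_zero (LinearMap.charpoly_monic _).ne_zero, h]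

/-- mixed form: `P_A · c = P_A' · c'` for arbitrary nonzero polynomials `c c'`
(e.g. `X - 1`, `X - ω(g)`, a `permPoly`). -/
theorem phi_add_eq_of_charpoly_mul_poly_eq {A A' : Type u}
    [AddCommGroup A] [Module R A] [Module (ZMod p) A] [Finite A]
    [AddCommGroup A'] [Module R A'] [Module (ZMod p) A'] [Finite A']
    {c c' : (ZMod p)[X]} (hc : c ≠ 0) (hc' : c' ≠ 0)
    (h : (smulEnd p r A).charpoly * c = (smulEnd p r A').charpoly * c') :
    Φ.φ A + polyVal Φ r c = Φ.φ A' + polyVal Φ r c' := by
  rw [phi_eq_polyVal Φ hgen A, phi_eq_polyVal Φ hgen A',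
    ← polyVal_mul Φ r (LinearMap.charpoly_monic _).ne_zero hc,
    ← polyVal_mul Φ r (LinearMap.charpoly_monic _).ne_zero hc', h]

end Main

/-! ### group algebras of cyclic groups are generated by one element -/

section MonoidAlg

/-- `A[C]` is generated as a ring by `of g` when `C` consists of the powers of `g` and every element
of `A` is an integer (`A = ℤ` or `ZMod n`). -/
theorem monoidAlgebra_mem_closure {A C : Type*} [CommRing A] [Monoid C] (g : C)
    (hg : ∀ c : C, c ∈ Submonoid.powers g) (hA : ∀ a : A, ∃ n : ℤ, (n : A) = a)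
    (x : MonoidAlgebra A C) : x ∈ Subring.closure {MonoidAlgebra.of A C g} := by
  induction x using MonoidAlgebra.induction_on with
  | of c =>
    obtain ⟨j, rfl⟩ := hg c
    rw [map_pow]
    exact pow_mem (Subring.subset_closure (Set.mem_singleton _)) j
  | add x y hx hy => exact add_mem hx hy
  | smul a x hx =>
    obtain ⟨n, rfl⟩ := hA a
    rw [Int.cast_smul_eq_zsmul]
    exact zsmul_mem hx n

theorem monoidAlgebra_int_mem_closure {C : Type*} [Monoid C] (g : C)
    (hg : ∀ c : C, c ∈ Submonoid.powers g) (x : MonoidAlgebra ℤ C) :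
    x ∈ Subring.closure {MonoidAlgebra.of ℤ C g} :=
  monoidAlgebra_mem_closure g hg (fun a => ⟨a, Int.cast_id⟩) x

theorem monoidAlgebra_zmod_mem_closure (n : ℕ) {C : Type*} [Monoid C] (g : C)
    (hg : ∀ c : C, c ∈ Submonoid.powers g) (x : MonoidAlgebra (ZMod n) C) :
    x ∈ Subring.closure {MonoidAlgebra.of (ZMod n) C g} :=
  monoidAlgebra_mem_closure g hg (fun a => ⟨a.cast, ZMod.intCast_zmod_cast a⟩) x

/-- in a finite group, `zpowers g = ⊤` implies that every element is a (natural) power of `g`. -/
theorem mem_powers_of_zpowers_eq_top {C : Type*} [Group C] [Finite C] (g : C)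
    (hg : Subgroup.zpowers g = ⊤) (c : C) : c ∈ Submonoid.powers g := by
  have hc : c ∈ Subgroup.zpowers g := by
    rw [hg]
    exact Subgroup.mem_top c
  exact (mem_powers_iff_mem_zpowers).2 hc

end MonoidAlg

/-! ### adapter: `LatticeRed.IsAddFun` gives a `HerbrandAdd.AddFun` -/

section Adapter

open HerbrandAdd

/-- helper74's additive functions are helper9's additive functions. -/
def addFunOfIsAddFun {R : Type uR} [Ring R] {p : ℕ} {Z : Type uZ} [AddCommGroup Z]
    {φ : ∀ (A : Type u) [AddCommGroup A] [Module R A], Z}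
    (hφ : LatticeRed.IsAddFun.{u} (R := R) p φ) : AddFun.{u} R p Z where
  φ := φ
  iso _ e := hφ.iso _ _ e
  add {_} _ _ hfin hk W :=
    hφ.add _ _ _ W.subtype W.mkQ W.injective_subtype W.mkQ_surjective
      (LinearMap.exact_subtype_mkQ W) hfin hk

end Adapter

end Fermat.Agent.GP.GW.AddFunOfCharpoly
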