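/-
GATE-P / S56 [P-GW] leaf S56-GW-TWINV-ADDFUN (helper51) = NAMED LEAF G1 of helper78 (board 4329):
**the pairing `X ↦ twInv X b = dim (X ⊗ b)^Γ` factors through the characteristic polynomial of a
generator** (`Γ = ⟨g⟩` finite cyclic, `|Γ|` invertible in `k = ZMod p`).

  `exists_twInv_additive : ∃ F : (ZMod p)[X] → ℤ, F 1 = 0 ∧ (∀ P Q ≠ 0, F (P * Q) = F P + F Q) ∧
      ∀ (X : Rep (ZMod p) Γ) [FiniteDimensional _ X], (twInv X b : ℤ) = F (X.ρ g).charpoly`

Proof: over `R := (ZMod p)[Γ]` the function `M ↦ log_p #(twisted invariants of J → M)` is an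
additive function in the sense of `HerbrandAdd.AddFun` (iso-invariant; additive by averaging), so
`AddFunOfCharpoly.phi_eq_polyVal` applies at `r := of g`; for `M = X.ρ.asModule` it is `twInv X b`.
-/
import Mathlib
import Fermat.Agent.GP.GW.E3.Base
import Fermat.Agent.GP.GW.Euler.AddFunOfCharpoly

set_option autoImplicit false

noncomputable section

open Polynomial Module

namespace Fermat.Agent.GP.GW.TwInvAddFun

open Fermat.Agent.GP.GW.CharpolyAddFun Fermat.Agent.GP.GW.AddFunOfCharpoly
open Fermat.Agent.GP.GW.HerbrandAdd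

variable {p : ℕ} [Fact p.Prime] {Γ : Type} [Group Γ] {J : Type} [Fintype J] [DecidableEq J]

/-! ### the twisted action on `J → M` for a `(ZMod p)[Γ]`-module `M` -/

section Tw

variable (b : Γ →* Matrix J J (ZMod p))

/-- `(tw γ v) i = ∑ j, b γ i j • γ • v j`, written with scalars in the group algebra. -/
def tw {M : Type*} [AddCommGroup M] [Module (MonoidAlgebra (ZMod p) Γ) M] (γ : Γ) :
    (J → M) →+ (J → M) where
  toFun v i := ∑ j, (MonoidAlgebra.single γ (b γ i j) : MonoidAlgebra (ZMod p) Γ) • v j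
  map_zero' := by
    funext i
    simp
  map_add' v w := by
    funext i
    simp [smul_add, Finset.sum_add_distrib]

variable {M N : Type*} [AddCommGroup M] [Module (MonoidAlgebra (ZMod p) Γ) M]
  [AddCommGroup N] [Module (MonoidAlgebra (ZMod p) Γ) N]

theorem tw_apply (γ : Γ) (v : J → M) (i : J) :
    tw b γ v i = ∑ j, (MonoidAlgebra.single γ (b γ i j) : MonoidAlgebra (ZMod p) Γ) • v j := rfl

theorem tw_one (v : J → M) : tw b (1 : Γ) v = v := by
  funext i
  rw [tw_apply, Finset.sum_eq_single i]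
  · rw [map_one, Matrix.one_apply_eq, ← MonoidAlgebra.one_def, one_smul]
  · intro j _ hj
    rw [map_one, Matrix.one_apply_ne (Ne.symm hj), MonoidAlgebra.single_zero, zero_smul]
  · intro h
    exact absurd (Finset.mem_univ i) h

theorem tw_mul (γ γ' : Γ) (v : J → M) : tw b (γ * γ') v = tw b γ (tw b γ' v) := by
  funext i
  simp only [tw_apply, Finset.smul_sum, ← mul_smul, MonoidAlgebra.single_mul_single]
  rw [Finset.sum_comm]
  apply Finset.sum_congr rfl
  intro l _
  rw [← Finset.sum_smul]
  congr 1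
  rw [map_mul, Matrix.mul_apply]
  exact map_sum (MonoidAlgebra.singleAddHom (γ * γ') : ZMod p →+ MonoidAlgebra (ZMod p) Γ) _ _

/-- naturality -/
theorem tw_comp (f : M →ₗ[MonoidAlgebra (ZMod p) Γ] N) (γ : Γ) (v : J → M) :
    tw b γ (fun j => f (v j)) = fun i => f (tw b γ v i) := by
  funext i
  simp only [tw_apply, map_sum, map_smul]

/-- scalars from `ZMod p` commute with the twisted action -/
theorem tw_algebraMap_smul (c : ZMod p) (γ : Γ) (v : J → M) :
    tw b γ (fun j => (algebraMap (ZMod p) (MonoidAlgebra (ZMod p) Γ) c) • v j) =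
      fun i => (algebraMap (ZMod p) (MonoidAlgebra (ZMod p) Γ) c) • tw b γ v i := by
  funext i
  simp only [tw_apply, Finset.smul_sum, ← mul_smul]
  apply Finset.sum_congr rfl
  intro j _
  rw [Algebra.commutes]

/-- the twisted invariants -/
def inv (M : Type*) [AddCommGroup M] [Module (MonoidAlgebra (ZMod p) Γ) M] :
    AddSubgroup (J → M) where
  carrier := {v | ∀ γ : Γ, tw b γ v = v}
  zero_mem' := fun γ => map_zero _
  add_mem' := fun {v w} hv hw γ => by rw [map_add, hv γ, hw γ]
  neg_mem' := fun {v} hv γ => by rw [map_neg, hv γ]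

theorem mem_inv {v : J → M} : v ∈ inv b M ↔ ∀ γ : Γ, tw b γ v = v := Iff.rfl

/-- functoriality of the invariants -/
def invMap (f : M →ₗ[MonoidAlgebra (ZMod p) Γ] N) : inv b M →+ inv b N where
  toFun v := ⟨fun j => f (v.1 j), fun γ => by
    rw [tw_comp, v.2 γ]⟩
  map_zero' := by
    apply Subtype.ext
    funext j
    simp
  map_add' v w := by
    apply Subtype.ext
    funext j
    simp

@[simp] theorem invMap_apply (f : M →ₗ[MonoidAlgebra (ZMod p) Γ] N) (v : inv b M) (j : J) :
    (invMap b f v).1 j = f (v.1 j) := rfl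

variable [Fintype Γ]

/-- the averaging operator -/
def avg (d' : ZMod p) (v : J → M) : J → M := fun i =>
  (algebraMap (ZMod p) (MonoidAlgebra (ZMod p) Γ) d') • ∑ γ : Γ, tw b γ v i

theorem avg_mem (d' : ZMod p) (v : J → M) : avg b d' v ∈ inv b M := by
  intro γ'
  have h1 : (fun i => ∑ γ : Γ, tw b γ v i) = ∑ γ : Γ, tw b γ v := by
    funext i
    rw [Finset.sum_apply]
  have h2 : tw b γ' (∑ γ : Γ, tw b γ v) = ∑ γ : Γ, tw b γ v := by
    rw [map_sum]
    simp only [← tw_mul]
    exact Fintype.sum_equiv (Equiv.mulLeft γ') _ _ (fun γ => rfl)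
  show tw b γ' (fun i => (algebraMap (ZMod p) (MonoidAlgebra (ZMod p) Γ) d') •
    (fun i => ∑ γ : Γ, tw b γ v i) i) = _
  rw [tw_algebraMap_smul, h1, h2]
  funext i
  simp only [avg, Finset.sum_apply]

theorem avg_of_mem {d' : ZMod p} (hd : d' * (Fintype.card Γ : ZMod p) = 1) {v : J → M}
    (hv : v ∈ inv b M) : avg b d' v = v := by
  funext i
  simp only [avg]
  have : ∀ γ : Γ, tw b γ v i = v i := fun γ => by rw [hv γ]
  simp only [this, Finset.sum_const, Finset.card_univ]
  rw [← Nat.cast_smul_eq_nsmul (MonoidAlgebra (ZMod p) Γ), ← mul_smul]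
  have : (algebraMap (ZMod p) (MonoidAlgebra (ZMod p) Γ) d') *
      ((Fintype.card Γ : ℕ) : MonoidAlgebra (ZMod p) Γ) = 1 := by
    rw [← map_natCast (algebraMap (ZMod p) (MonoidAlgebra (ZMod p) Γ)), ← map_mul, hd, map_one]
  rw [this, one_smul]

theorem avg_comp (f : M →ₗ[MonoidAlgebra (ZMod p) Γ] N) (d' : ZMod p) (v : J → M) :
    avg b d' (fun j => f (v j)) = fun i => f (avg b d' v i) := by
  funext i
  simp only [avg, map_smul, map_sum]
  congr 1
  apply Finset.sum_congr rfl
  intro γ _
  exact congrFun (tw_comp b f γ v) i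

end Tw

/-! ### the short exact sequence of invariants and the additive function -/

section Exact

variable (b : Γ →* Matrix J J (ZMod p)) [Fintype Γ]
  {M : Type*} [AddCommGroup M] [Module (MonoidAlgebra (ZMod p) Γ) M]

omit [Fintype Γ] in
theorem invMap_subtype_injective (W : Submodule (MonoidAlgebra (ZMod p) Γ) M) :
    Function.Injective (invMap b W.subtype) := by
  intro v w h
  apply Subtype.ext
  funext j
  apply Subtype.ext
  have := congrFun (congrArg Subtype.val h) j
  exact this

theorem invMap_mkQ_surjective {d' : ZMod p} (hd : d' * (Fintype.card Γ : ZMod p) = 1)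
    (W : Submodule (MonoidAlgebra (ZMod p) Γ) M) :
    Function.Surjective (invMap b W.mkQ) := by
  intro u
  choose v hv using fun j => Submodule.mkQ_surjective W (u.1 j)
  refine ⟨⟨avg b d' v, avg_mem b d' v⟩, ?_⟩
  apply Subtype.ext
  have h1 : (fun j => W.mkQ (v j)) = u.1 := funext hv
  have h2 := avg_comp b W.mkQ d' v
  rw [h1, avg_of_mem b hd u.2] at h2
  exact h2.symm

omit [Fintype Γ] in
theorem ker_invMap_mkQ (W : Submodule (MonoidAlgebra (ZMod p) Γ) M) (v : inv b M) :
    invMap b W.mkQ v = 0 ↔ ∃ w : inv b W, invMap b W.subtype w = v := by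
  constructor
  · intro h
    have hmem : ∀ j, v.1 j ∈ W := fun j => by
      have := congrFun (congrArg Subtype.val h) j
      rw [← Submodule.Quotient.mk_eq_zero]
      exact this
    refine ⟨⟨fun j => ⟨v.1 j, hmem j⟩, fun γ => ?_⟩, ?_⟩
    · funext i
      apply Subtype.ext
      have h1 := congrFun (v.2 γ) i
      rw [tw_apply] at h1 ⊢
      rw [AddSubmonoidClass.coe_finsetSum]
      simpa using h1
    · apply Subtype.ext
      funext j
      rfl
  · rintro ⟨w, rfl⟩
    apply Subtype.ext
    funext j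
    show W.mkQ (W.subtype (w.1 j)) = 0
    rw [Submodule.mkQ_apply, Submodule.Quotient.mk_eq_zero]
    exact (w.1 j).2

/-- **multiplicativity of the number of twisted invariants** -/
theorem card_inv_eq_mul [Finite M] {d' : ZMod p} (hd : d' * (Fintype.card Γ : ZMod p) = 1)
    (W : Submodule (MonoidAlgebra (ZMod p) Γ) M) :
    Nat.card (inv b M) = Nat.card (inv b W) * Nat.card (inv b (M ⧸ W)) := by
  set g := invMap b W.mkQ with hg
  have h1 := AddSubgroup.card_mul_index g.ker
  rw [AddSubgroup.index_ker] at h1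
  have h2 : Nat.card g.range = Nat.card (inv b (M ⧸ W)) := by
    rw [AddMonoidHom.range_eq_top.2 (invMap_mkQ_surjective b hd W)]
    exact AddSubgroup.card_top
  have h3 : Nat.card g.ker = Nat.card (inv b W) := by
    symm
    refine Nat.card_congr (Equiv.ofBijective
      (fun w => (⟨invMap b W.subtype w, (ker_invMap_mkQ b W _).2 ⟨w, rfl⟩⟩ : g.ker)) ⟨?_, ?_⟩)
    · intro w w' h
      exact invMap_subtype_injective b W (congrArg Subtype.val h)
    · rintro ⟨v, hv⟩
      obtain ⟨w, hw⟩ := (ker_invMap_mkQ b W v).1 hv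
      exact ⟨w, Subtype.ext hw⟩
  rw [← h1, h2, h3]

/-- an `R`-linear equivalence gives a bijection of invariants -/
def invCongr {N : Type*} [AddCommGroup N] [Module (MonoidAlgebra (ZMod p) Γ) N]
    (e : M ≃ₗ[MonoidAlgebra (ZMod p) Γ] N) : inv b M ≃ inv b N where
  toFun := invMap b (e : M →ₗ[MonoidAlgebra (ZMod p) Γ] N)
  invFun := invMap b (e.symm : N →ₗ[MonoidAlgebra (ZMod p) Γ] M)
  left_inv v := by
    apply Subtype.ext
    funext j
    simp
  right_inv v := by
    apply Subtype.ext
    funext j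
    simp

end Exact

section AddFunDef

variable (b : Γ →* Matrix J J (ZMod p)) [Fintype Γ]

/-- **the pairing as an additive function** over `R = (ZMod p)[Γ]`:
`M ↦ log_p #(J → M)^{Γ, b-twisted}`. -/
def twAddFun {d' : ZMod p} (hd : d' * (Fintype.card Γ : ZMod p) = 1) :
    AddFun.{0} (MonoidAlgebra (ZMod p) Γ) p ℤ where
  φ M _ _ := ((Nat.card (inv b M)).factorization p : ℤ)
  iso _ e := by rw [Nat.card_congr (invCongr b e)]
  add {M} _ _ _ _ W := by
    have : Finite (M ⧸ W) := Finite.of_surjective _ (Submodule.mkQ_surjective W)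
    rw [card_inv_eq_mul b hd W, Nat.factorization_mul Nat.card_pos.ne' Nat.card_pos.ne']
    simp

end AddFunDef

/-! ### the link with `twInv` and the main theorem -/

section Link

open Fermat.Agent.GP.GW.E3

variable (b : Γ →* Matrix J J (ZMod p))

/-- on `X.ρ.asModule` the twisted action is helper86's `twistRepresentation`. -/
theorem tw_asModule (X : Rep.{0} (ZMod p) Γ) (γ : Γ) (v : J → X.ρ.asModule) :
    tw b γ v = twistRepresentation X b γ v := by
  funext i
  rw [tw_apply]
  show _ = ∑ j, b γ i j • X.ρ γ (v j)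
  apply Finset.sum_congr rfl
  intro j _
  rw [Representation.single_smul]
  rfl

/-- the twisted invariants of `X.ρ.asModule` are the invariants of the twist. -/
def invEquiv (X : Rep.{0} (ZMod p) Γ) :
    inv b X.ρ.asModule ≃ (twistRepresentation X b).invariants where
  toFun v := ⟨v.1, fun γ => by rw [← tw_asModule b X γ v.1]; exact v.2 γ⟩
  invFun v := ⟨v.1, fun γ => by rw [tw_asModule b X γ v.1]; exact v.2 γ⟩
  left_inv _ := rfl
  right_inv _ := rfl

theorem factorization_card_inv (X : Rep.{0} (ZMod p) Γ) [FiniteDimensional (ZMod p) X] :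
    (Nat.card (inv b X.ρ.asModule)).factorization p = twInv X b := by
  rw [Nat.card_congr (invEquiv b X),
    Module.natCard_eq_pow_finrank (K := ZMod p) (V := (twistRepresentation X b).invariants),
    Nat.card_zmod, Nat.Prime.factorization_pow (Fact.out : p.Prime), Finsupp.single_eq_same]
  rfl

/-- the generator acts on `X.ρ.asModule` with the characteristic polynomial of `X.ρ g`. -/
theorem charpoly_smulEnd_asModule (X : Rep.{0} (ZMod p) Γ) [FiniteDimensional (ZMod p) X]
    (g : Γ) :
    (smulEnd p (MonoidAlgebra.of (ZMod p) Γ g) X.ρ.asModule).charpoly = (X.ρ g).charpoly := by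
  have hc : X.ρ.asModuleEquiv.conj (smulEnd p (MonoidAlgebra.of (ZMod p) Γ g) X.ρ.asModule) =
      X.ρ g := by
    apply LinearMap.ext
    intro v
    rw [LinearEquiv.conj_apply_apply, smulEnd_apply, Representation.asModuleEquiv_map_smul,
      LinearEquiv.apply_symm_apply, Representation.asAlgebraHom_of]
  rw [← hc, LinearEquiv.charpoly_conj]

/-- **NAMED LEAF G1** (helper78, board 4329): for `Γ = ⟨g⟩` finite cyclic with `|Γ|` invertible in
`ZMod p`, the pairing `X ↦ twInv X b = dim (X ⊗ b)^Γ` is an additive function of the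
characteristic polynomial of `g`. -/
theorem exists_twInv_additive [Finite Γ] (g : Γ) (hg : ∀ c : Γ, c ∈ Subgroup.zpowers g)
    (hn : (Nat.card Γ : ZMod p) ≠ 0) (b : Γ →* Matrix J J (ZMod p)) :
    ∃ F : (ZMod p)[X] → ℤ, F 1 = 0 ∧ (∀ P Q, P ≠ 0 → Q ≠ 0 → F (P * Q) = F P + F Q) ∧
      ∀ (X : Rep.{0} (ZMod p) Γ) [FiniteDimensional (ZMod p) X],
        (twInv X b : ℤ) = F (X.ρ g).charpoly := by
  classical
  have iΓ : Fintype Γ := Fintype.ofFinite Γ
  have hcard : (Fintype.card Γ : ZMod p) = (Nat.card Γ : ZMod p) := by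
    rw [Nat.card_eq_fintype_card]
  have hd : ((Nat.card Γ : ZMod p))⁻¹ * (Fintype.card Γ : ZMod p) = 1 := by
    rw [hcard]
    exact inv_mul_cancel₀ hn
  have hgen : ∀ x : MonoidAlgebra (ZMod p) Γ,
      x ∈ Subring.closure {MonoidAlgebra.of (ZMod p) Γ g} :=
    monoidAlgebra_zmod_mem_closure p g (fun c => (mem_powers_iff_mem_zpowers).2 (hg c))
  refine ⟨polyVal (twAddFun b hd) (MonoidAlgebra.of (ZMod p) Γ g), polyVal_one _ _,
    fun P Q hP hQ => polyVal_mul _ _ hP hQ, fun X hX => ?_⟩
  have hfinX : Finite X := Module.finite_of_finite (ZMod p)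
  have hfin : Finite X.ρ.asModule := Finite.of_equiv X X.ρ.asModuleEquiv.symm.toEquiv
  have h1 := phi_eq_polyVal (twAddFun b hd) hgen X.ρ.asModule
  rw [charpoly_smulEnd_asModule X g] at h1
  rw [← h1]
  show (twInv X b : ℤ) = ((Nat.card (inv b X.ρ.asModule)).factorization p : ℤ)
  rw [factorization_card_inv b X]

end Link

end Fermat.Agent.GP.GW.TwInvAddFun
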