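/-
GATE-P / S56 [P-GW] E3d (helper12), part 7: (D1) of the EQUIVARIANT DICTIONARY, units, in the
language of `GC/SUnitHQ/Action.lean` (`above`, `sAct`) used by helper54's `GP/GW/EqSUnits`.

`K = ℚ` (the type), `L = ↥F` for `F : IntermediateField ℚ ℚ̄` normal over `ℚ`, unramified outside `S`:
* `ratPlaces S : Set (HeightOneSpectrum (𝓞 ℚ))`, `above_ratPlaces : above (ratPlaces S) = sPlaces S F`;
* `unitCongr : (above (ratPlaces S)).unit F ≃* (sPlaces S F).unit F` (identity on underlying units);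
* `dictEquiv hF : Additive ((above (ratPlaces S)).unit F) ≃+ (O_S^×)^{G_F}`;
* **`dictEquiv_sAct`** : `dictEquiv (sAct σ u) = n • dictEquiv u` for `σ = n|_F`;
  `dictEquiv_sActAdd` the same with helper54's `sActAdd`.
-/
import Fermat.Agent.GP.GW.Euler.KumQuot
import Fermat.Agent.GC.SUnitHQ.Action

set_option autoImplicit false
set_option linter.style.haveILetI false
set_option linter.unusedSectionVars false

open CategoryTheory NumberField IsDedekindDomain

noncomputable section

namespace Fermat.Agent.GP.GW.Euler.UnitDict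

open Fermat.Agent.GC.Prof Fermat.Agent.GC.KumH Fermat.Agent.GC.C0 Fermat.Agent.GC.Places
  Fermat.Agent.GC.SUnitHQ
open Fermat.Agent.GP.GW.Euler.StarRes Fermat.Agent.GP.GW.Euler.PhiKum
  Fermat.Agent.GP.GW.Euler.KumQ Fermat.Agent.GP.GW.Euler.KumQuot

local notation "Qb" => AlgebraicClosure ℚ
local notation "GQ" => (AlgebraicClosure ℚ ≃ₐ[ℚ] AlgebraicClosure ℚ)

variable (S : Finset Nat.Primes) (F : IntermediateField ℚ Qb) [NumberField F]

/-- The primes of `𝓞 ℚ` over the rational primes in `S`. -/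
def ratPlaces : Set (HeightOneSpectrum (𝓞 ℚ)) :=
  {v | ∃ q ∈ S, (((q : ℕ) : ℕ) : 𝓞 ℚ) ∈ v.asIdeal}

/-- The primes of `F` above `ratPlaces S` are GC's `sPlaces S F`. -/
theorem above_ratPlaces : above (L := F) (ratPlaces S) = sPlaces S F := by
  ext w
  rw [mem_above]
  show (∃ q ∈ S, (((q : ℕ) : ℕ) : 𝓞 ℚ) ∈ (w.under (𝓞 ℚ)).asIdeal) ↔
    ∃ q ∈ S, (((q : ℕ) : ℕ) : 𝓞 F) ∈ w.asIdeal
  refine exists_congr fun q => and_congr_right fun _ => ?_
  show (((q : ℕ) : ℕ) : 𝓞 ℚ) ∈ w.asIdeal.under (𝓞 ℚ) ↔ _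
  rw [Ideal.mem_comap, map_natCast]

/-- The two presentations of `O_{F,S}^×` (identity on underlying units). -/
def unitCongr : (above (L := F) (ratPlaces S)).unit F ≃* (sPlaces S F).unit F :=
  MulEquiv.subgroupCongr (congrArg (fun T : Set (HeightOneSpectrum (𝓞 F)) => T.unit F)
    (above_ratPlaces S F))

theorem coe_unitCongr (u : (above (L := F) (ratPlaces S)).unit F) :
    ((unitCongr S F u : (sPlaces S F).unit F) : Fˣ) = (u : Fˣ) := rfl

variable {S F} (hF : F.IsUnramifiedOutside S)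

/-- `O_{F,S}^×` (in the `above` presentation) `≃ (O_S^×)^{G_F}`. -/
def dictEquiv :
    Additive ((above (L := F) (ratPlaces S)).unit F) ≃+ (sUnitsK S F).ρ.invariants :=
  (MulEquiv.toAdditive (unitCongr S F)).trans (sUnitsEquiv hF)

theorem dictEquiv_apply (u : Additive ((above (L := F) (ratPlaces S)).unit F)) :
    dictEquiv hF u = sUnitsEquiv hF (Additive.ofMul (unitCongr S F (Additive.toMul u))) := rfl

/-- The element of `ℚ̄` underlying `dictEquiv u`. -/
theorem coe_dictEquiv (u : Additive ((above (L := F) (ratPlaces S)).unit F)) :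
    ((sUnitsS.unit S (dictEquiv hF u).1 : Qbˣ) : Qb) =
      algebraMap F Qb ((((Additive.toMul u : (above (L := F) (ratPlaces S)).unit F) : Fˣ) : F)) :=
  rfl

/-- **(D1)** `dictEquiv` intertwines `sAct σ`, `σ = n|_F`, with the action of `n` on
`(O_S^×)^{G_F}`. -/
theorem dictEquiv_sAct [Normal ℚ F] {n : GQ} (hn : Norm F.fixingSubgroup n)
    (u : (above (L := F) (ratPlaces S)).unit F) :
    dictEquiv hF (Additive.ofMul (sAct (ratPlaces S) (AlgEquiv.restrictNormal n F) u)) =
      actInv (sUnitsS S) hn (dictEquiv hF (Additive.ofMul u)) :=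
  sUnitsEquiv_of_coe_eq hF hn _ _ rfl

end Fermat.Agent.GP.GW.Euler.UnitDict
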