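/-
GATE-P (S56) / [P-GW] R1 top wrapper (helper71): **the `Σ`-enlargement wired into `BaseCase` and
into the `htate` binder of CORE.**

`SKillTop.exists_field_sigma_sha` produces ONE field `F = ℚ(R, ζ_p)` (`G_F = kerBoth R`) and ONE
finite set `Σ ⊇ S₀ ∪ S` such that for EVERY finite `T ⊇ Σ`: `F` is unramified outside `T`,
`X(T,F) = Hlc¹(G_{F,T}, O_T^×) = 0` and `Ш²(G_{ℚ,T}, Coind_{G_F} ℤ/p) = 0`.  The E3 assembly proves
`BaseCase T G_F` from exactly these facts.  This file packages the quantifier order needed by CORE: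

* `exists_sigma_forall_baseCase` : `∃ Σ ⊇ S₀ ∪ S, ∀ S' ⊇ Σ, BaseCase S' (kerBoth R)` from ONE
  hypothesis `hbase` (the E3 statement per pair `(F, T)`);
* `exists_sigma_htate_adBar` : `∃ Σ ⊇ S₀ ∪ S, ∀ S' ⊇ Σ, TateLe S' ((ad⁰ρ̄)^*(1))`
  (= `∃ Σ` + the `htate` binder of `CoreAsm.selmerBounds_base_of_nodes`, via helper7's `TateAd0`).
-/
import Mathlib
import Fermat.Agent.GP.GW.SKillTopSha
import Fermat.Agent.GP.GW.Euler.TateAd0

set_option autoImplicit false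

noncomputable section

namespace Fermat.Agent.GP.GW.Euler.R1Wrap

open Fermat.Agent.GC.Prof Fermat.Agent.GC.C0 Fermat.Agent.GC.Places Fermat.Agent.GC.KumH
  Fermat.Agent.GC.KBInst ExtCitation Fermat.Agent.GP.GW Fermat.Agent.GP.GW.Euler
  Fermat.Agent.GP.GW.SKillTop Fermat.Agent.GP.Bridge.Ad0 Fermat.Agent.S53_helper35

local notation "Qb" => AlgebraicClosure ℚ
local notation "GQ" => (AlgebraicClosure ℚ ≃ₐ[ℚ] AlgebraicClosure ℚ)

variable {p : ℕ} [Fact p.Prime]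

/-- The E3 statement for one pair `(F, T)`, in the binders delivered by
`SKillTop.exists_field_sigma_sha`: `F` finite over `ℚ`, `G_F` normal, `χ_cyc|_{G_F} = 1`,
`p ∈ T`, `F` unramified outside `T`, `X(T,F) = 0`, `Ш²(G_{ℚ,T}, Coind_{G_F} ℤ/p) = 0`
⟹ `BaseCase T G_F`. -/
def BaseHyp (p : ℕ) [Fact p.Prime] : Prop :=
  ∀ (F : IntermediateField ℚ Qb) [FiniteDimensional ℚ F] [F.fixingSubgroup.Normal]
    (T : Finset Nat.Primes),
    pPrime p ∈ T → (∀ g ∈ F.fixingSubgroup, cycloChar p g = 1) →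
    ∀ hFT : F.IsUnramifiedOutside T,
      (∀ x : Hlc (levelK T F) (sUnitsK T F) 1, x = 0) →
      Function.Injective (locResW T F hFT (TpK p F) 2) →
      BaseCase (p := p) T F.fixingSubgroup

/-- `BaseCase` only depends on the subgroup. -/
theorem baseCase_congr {S : Finset Nat.Primes} {U U' : Subgroup GQ} [U.Normal] [U'.Normal]
    (h : U = U') (hb : BaseCase (p := p) S U) : BaseCase (p := p) S U' := by
  subst h
  exact hb

/-- **`∃ Σ, ∀ S' ⊇ Σ, BaseCase S' (kerBoth R)`** from the per-`(F,T)` statement. -/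
theorem exists_sigma_forall_baseCase {M : Type} [Monoid M] (hp2 : p ≠ 2) (R : GQ →* M)
    (hR : GaloisFactorsThroughFiniteLevel R)
    (S₀ : Finset Nat.Primes) (hpS₀ : pPrime p ∈ S₀)
    (hRur : ∀ q : Nat.Primes, q ∉ S₀ → ∀ A : ValuationSubring Qb,
      A.LiesOverPrime (q : ℕ) → ∀ g ∈ A.inertiaSubgroupIn ℚ, R g = 1)
    (S : Finset Nat.Primes) (hbase : BaseHyp p) :
    ∃ Sig : Finset Nat.Primes, S₀ ∪ S ⊆ Sig ∧
      ∀ S' : Finset Nat.Primes, Sig ⊆ S' → BaseCase (p := p) S' (kerBoth (p := p) R) := by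
  obtain ⟨F, hfd, Sg, -, hN, hker, hker', hSg, hT⟩ :=
    exists_field_sigma_sha (p := p) hp2 R hR S₀ hpS₀ hRur S
  have hFeq : F.fixingSubgroup = kerBoth (p := p) R := by
    ext g
    exact ⟨fun hg => hker g hg, fun hg => hker' g hg.1 hg.2⟩
  refine ⟨Sg, hSg, fun S' hS' => ?_⟩
  obtain ⟨hFT, hX, hsha⟩ := hT S' hS'
  have hpS' : pPrime p ∈ S' := hS' (hSg (Finset.mem_union_left _ hpS₀))
  have := hN
  exact baseCase_congr hFeq (hbase F S' hpS' (fun g hg => (hker g hg).2) hFT hX hsha)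

variable {k : Type} [Field k] [Algebra (ZMod p) k] [Finite k]
variable (ρbar : ResidualGaloisRep k) (b : Module.Basis (Fin 2) k ρbar.V)

/-- **R1 in final form**: `∃ Σ ⊇ S₀ ∪ S` such that `(TATE)` holds for `(ad⁰ρ̄)^*(1)` at every
level `S' ⊇ Σ` — `Σ` first, then the `htate` binder of CORE verbatim. -/
theorem exists_sigma_htate_adBar (hp2 : p ≠ 2) (S₀ : Finset Nat.Primes) (hpS₀ : pPrime p ∈ S₀)
    (hur : ∀ q : Nat.Primes, q ∉ S₀ → ρbar.IsUnramifiedAt (q : ℕ))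
    (S : Finset Nat.Primes) (hbase : BaseHyp p) :
    ∃ Sig : Finset Nat.Primes, S₀ ∪ S ⊆ Sig ∧
      ∀ (S' : Finset Nat.Primes)
        [IsDiscrete (levelS S') ((adBar p ρbar b).dualTwist (cycloChar p))],
        Sig ⊆ S' → TateLe S' ((adBar p ρbar b).dualTwist (cycloChar p)) := by
  obtain ⟨Sig, hSig, hb⟩ := exists_sigma_forall_baseCase (p := p) hp2 (toMatRes ρbar b)
    (factors_toMatRes ρbar b) S₀ hpS₀ (toMatRes_inertia ρbar b S₀ hur) S hbase
  exact ⟨Sig, hSig, TateAd0.htate_adBar ρbar b hp2 S₀ hpS₀ hur Sig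
    (Finset.union_subset_left hSig) hb⟩

end Fermat.Agent.GP.GW.Euler.R1Wrap
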