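/-
GATE-P (S56) / [P-GW] R1 line, top glue (helper66): **`R1Wrap.BaseHyp p` from the two remaining
leaves.**

helper71's `R1Wrap.BaseHyp p` is the ONE closed `Prop` left on the GW-E side of S56
(`R1Wrap.exists_sigma_htate_adBar` consumes it).  With `KeyCPQ.baseCase_of_leaves`
(`(K0)`, `(K1)`, `(ARCH)`, G1, G2, E1, INFCOIND, `HlcFinite` all plugged) it is reduced here to

  `KeyLeavesHyp p` := for every pair `(F, T)` in the binders of `BaseHyp`
     (`[F:ℚ] < ∞`, `G_F` normal, `p ∈ T`, `χ_cyc|_{G_F} = 1`, `F` unramified outside `T`,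
      `X(T,F) = 0`, `Ш² = 0`):  `KeyLeavesQ T G_F` = (H2q) ∧ (UNITq) with a common `PS`.

* `baseHyp_of_keyLeaves (hp2 : p ≠ 2) : KeyLeavesHyp p → BaseHyp p`;
* `exists_sigma_htate_adBar_of_keyLeaves` : R1 in final form from `KeyLeavesHyp p`.
-/
import Fermat.Agent.GP.GW.Euler.R1Wrap
import Fermat.Agent.GP.GW.E3.KeyCPQ

set_option autoImplicit false

noncomputable section

namespace Fermat.Agent.GP.GW.Euler.BaseHypOfLeaves

open Fermat.Agent.GC.Prof Fermat.Agent.GC.C0 Fermat.Agent.GC.Places Fermat.Agent.GC.KumH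
  Fermat.Agent.GC.KBInst ExtCitation Fermat.Agent.GP.GW Fermat.Agent.GP.GW.Euler
  Fermat.Agent.GP.GW.SKillTop Fermat.Agent.GP.Bridge.Ad0 Fermat.Agent.S53_helper35
  Fermat.Agent.GP.GW.Euler.R1Wrap Fermat.Agent.GP.GW.E3.KeyCPQLeaves

local notation "Qb" => AlgebraicClosure ℚ
local notation "GQ" => (AlgebraicClosure ℚ ≃ₐ[ℚ] AlgebraicClosure ℚ)

variable {p : ℕ} [Fact p.Prime]

/-- **the two remaining leaves (H2q) ∧ (UNITq)** for every pair `(F, T)`, in the binders of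
`R1Wrap.BaseHyp` (= those delivered by `SKillTop.exists_field_sigma_sha`). -/
def KeyLeavesHyp (p : ℕ) [Fact p.Prime] : Prop :=
  ∀ (F : IntermediateField ℚ Qb) [FiniteDimensional ℚ F] [F.fixingSubgroup.Normal]
    (T : Finset Nat.Primes),
    pPrime p ∈ T → (∀ g ∈ F.fixingSubgroup, cycloChar p g = 1) →
    ∀ hFT : F.IsUnramifiedOutside T,
      (∀ x : Hlc (levelK T F) (sUnitsK T F) 1, x = 0) →
      Function.Injective (locResW T F hFT (TpK p F) 2) →
      KeyLeavesQ (p := p) T F.fixingSubgroup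

/-- **`BaseHyp p` from the leaves** (`p` odd). -/
theorem baseHyp_of_keyLeaves (hp2 : p ≠ 2) (h : KeyLeavesHyp p) : BaseHyp p := by
  intro F _ _ T hpT hχ hFT hX hsha
  have : IsDiscrete (levelS T) (TChi p) := isDiscrete_TChi T hpT
  exact baseCase_of_leaves hp2 ((mem_levelS_iff T _).2 ⟨F, hFT, rfl⟩) hχ
    (TatePlug.hlcFinite hp2 T hpT) (h F T hpT hχ hFT hX hsha)

variable {k : Type} [Field k] [Algebra (ZMod p) k] [Finite k]
variable (ρbar : ResidualGaloisRep k) (b : Module.Basis (Fin 2) k ρbar.V)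

/-- **R1 in final form from the leaves**: `∃ Σ ⊇ S₀ ∪ S` with `(TATE)` for `(ad⁰ρ̄)^*(1)` at every
level `S' ⊇ Σ`. -/
theorem exists_sigma_htate_adBar_of_keyLeaves (hp2 : p ≠ 2) (S₀ : Finset Nat.Primes)
    (hpS₀ : pPrime p ∈ S₀) (hur : ∀ q : Nat.Primes, q ∉ S₀ → ρbar.IsUnramifiedAt (q : ℕ))
    (S : Finset Nat.Primes) (h : KeyLeavesHyp p) :
    ∃ Sig : Finset Nat.Primes, S₀ ∪ S ⊆ Sig ∧
      ∀ (S' : Finset Nat.Primes)
        [IsDiscrete (levelS S') ((adBar p ρbar b).dualTwist (cycloChar p))],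
        Sig ⊆ S' → TateLe S' ((adBar p ρbar b).dualTwist (cycloChar p)) :=
  exists_sigma_htate_adBar ρbar b hp2 S₀ hpS₀ hur S (baseHyp_of_keyLeaves hp2 h)

end Fermat.Agent.GP.GW.Euler.BaseHypOfLeaves
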