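/-
GATE-P (S56) / [P-GW] R1 line, (UNITq) top half (helper66): the binder bridges from helper71's
`R1Wrap.BaseHyp` / `BaseHypOfLeaves.KeyLeavesHyp` context to helper12's `K1Charpoly`, and
(UNITq) with its LHS transported and the `ψ`-factor in the (K0) spelling.

In the context `(F, T)` of `KeyLeavesHyp` (`[FiniteDimensional ℚ F] [F.fixingSubgroup.Normal]`,
`χ_cyc|_{G_F} = 1`):

* `numberField_of_finiteDimensional`, `normal_of_fixingSubgroup_normal` : the instances
  `NumberField F`, `Normal ℚ F` asked by `K1Charpoly` / `MackeyPlaces` / `PsiSide`;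
* `zetaF`, `isPrimitiveRoot_zetaF` : `ζ_p ∈ F`;
* `unitq_psi` : for `P = normPairQ G_F H`, `A = P.chiRes (cycloChar p)`, `n ∈ H`, `σ = n|_F`:
    `cp([n] | Hlc¹(W_A)) * (X - 1) = (X - C χ_cyc(n)) * cp(f ↦ f ∘ pullAbove σ) * cp(f ↦ f ∘ σ⁻¹•)`
  (functions on the primes of `F` above `T`, resp. on the infinite places of `F`).
What remains of (UNITq) in `KeyLeavesQ` is the transport (T-S), (T-∞) of the two permutation
polynomials (helper54 `PlacePoly`).
-/
import Fermat.Agent.GP.GW.Euler.K1Charpoly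
import Fermat.Agent.GP.GW.E3.PsiSide
import Fermat.Agent.GC.C0.ZetaMem

set_option autoImplicit false

open CategoryTheory NumberField IsDedekindDomain Module Polynomial

noncomputable section

namespace Fermat.Agent.GP.GW.Euler.UnitQTop

open Fermat.Agent.GC.Prof Fermat.Agent.GC.KumH Fermat.Agent.GC.C0 Fermat.Agent.GC.Places
  Fermat.Agent.GP.GW.E3 Fermat.Agent.GP.GW.E3.NormPair Fermat.Agent.GP.GW.EqSUnits
  Fermat.Agent.GP.GW.Euler.UnitDict Fermat.Agent.GP.GW.Euler.K1Charpoly
  Fermat.Agent.GP.GW.E3.PsiSide ExtCitation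

local notation "Qb" => AlgebraicClosure ℚ
local notation "GQ" => (AlgebraicClosure ℚ ≃ₐ[ℚ] AlgebraicClosure ℚ)

/-! ### Instances -/

/-- a finite subextension of `Qb/ℚ` is a number field -/
theorem numberField_of_finiteDimensional (F : IntermediateField ℚ Qb) [FiniteDimensional ℚ F] :
    NumberField F :=
  { to_charZero := inferInstance, to_finiteDimensional := inferInstance }

/-- `F/ℚ` is normal as soon as `G_F` is a normal subgroup of `G_ℚ` -/
theorem normal_of_fixingSubgroup_normal (F : IntermediateField ℚ Qb)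
    [hN : F.fixingSubgroup.Normal] : Normal ℚ F :=
  ((InfiniteGalois.normal_iff_isGalois F).1 hN).to_normal

variable {p : ℕ} [Fact p.Prime]

/-! ### `ζ_p ∈ F` -/

/-- a primitive `p`-th root of unity of `Qb` -/
def zetaQ (p : ℕ) [Fact p.Prime] : Qb := (Fermat.Agent.GJ.CycChar.exists_primitiveRoot p).choose

theorem isPrimitiveRoot_zetaQ : IsPrimitiveRoot (zetaQ p) p :=
  (Fermat.Agent.GJ.CycChar.exists_primitiveRoot p).choose_spec

theorem zetaQ_mem (F : IntermediateField ℚ Qb)
    (hχ : ∀ g ∈ F.fixingSubgroup, cycloChar p g = 1) : zetaQ p ∈ F :=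
  primitiveRoot_mem_of_cycloChar_eq_one F hχ isPrimitiveRoot_zetaQ

/-- `ζ_p` as an element of `F` -/
def zetaF (F : IntermediateField ℚ Qb) (hχ : ∀ g ∈ F.fixingSubgroup, cycloChar p g = 1) : F :=
  ⟨zetaQ p, zetaQ_mem F hχ⟩

theorem isPrimitiveRoot_zetaF (F : IntermediateField ℚ Qb)
    (hχ : ∀ g ∈ F.fixingSubgroup, cycloChar p g = 1) : IsPrimitiveRoot (zetaF F hχ) p :=
  isPrimitiveRoot_mk F isPrimitiveRoot_zetaQ (zetaQ_mem F hχ)

/-! ### (UNITq) with the `ψ`-factor -/

section Main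

variable (T : Finset Nat.Primes) (F : IntermediateField ℚ Qb) [NumberField F] [Normal ℚ F]
  [F.fixingSubgroup.Normal] (hpT : pPrime p ∈ T)
  (hχ : ∀ g ∈ F.fixingSubgroup, cycloChar p g = 1) (hFT : F.IsUnramifiedOutside T)
  (hX : ∀ x : Hlc (levelK T F) (sUnitsK T F) 1, x = 0)
  (H : Subgroup GQ) (hUH : F.fixingSubgroup ≤ H)

include hpT hχ hFT hX in
/-- **(UNITq), LHS transported, `ψ = χ_cyc(n)`.** -/
theorem unitq_psi (n : (normPairQ F.fixingSubgroup H hUH).H)
    [IsDiscrete (levelS T) ((normPairQ F.fixingSubgroup H hUH).big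
      ((normPairQ F.fixingSubgroup H hUH).chiRes (cycloChar p)))]
    [FiniteDimensional (ZMod p) (hlcStarRep (levelS T)
      ((normPairQ F.fixingSubgroup H hUH).chiRes (cycloChar p)) 1)] :
    ((hlcStarRep (levelS T) ((normPairQ F.fixingSubgroup H hUH).chiRes (cycloChar p)) 1).ρ
        (QuotientGroup.mk n : (normPairQ F.fixingSubgroup H hUH).C)).charpoly * (X - 1) =
      (X - C ((cycloChar p (n : GQ) : (ZMod p)ˣ) : ZMod p)) *
        (LinearMap.funLeft (ZMod p) (ZMod p)
          (pullAbove (L := F) (ratPlaces T) (AlgEquiv.restrictNormal (n : GQ) F))).charpoly *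
        (LinearMap.funLeft (ZMod p) (ZMod p)
          (fun w : InfinitePlace F => (AlgEquiv.restrictNormal (n : GQ) F)⁻¹ • w)).charpoly := by
  rw [← X_sub_C_cycloExpNat]
  exact unitq_lhs_normPairQ T F hpT hFT H hUH hX n (isPrimitiveRoot_zetaF F hχ)
    (cycloExpNat p (n : GQ)) (restrictNormal_zeta F (isPrimitiveRoot_zetaF F hχ) (n : GQ))

end Main

end Fermat.Agent.GP.GW.Euler.UnitQTop
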