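/-
GATE-P (S56) / [P-GW] R1 line — FINAL ASSEMBLY of the GW-E side (helper66).

`KeyLeavesHyp p` (= helper71's `R1Leaves.LeavesHyp p`) is a THEOREM for `p` odd:

* (H2q)   = helper83 `Mackey.h2q_dcPoly` (helper18 PTTailCharpoly + helper19 H30Local + helper71
            K2Big + helper74 DualPerm + helper83 MackeyCharpoly), `PS = ∏_{v ∈ T} dcPoly (D_v) n`;
* (UNITq) = `unitq_dcPoly` below: helper66 `UnitQTop.unitq_psi` (helper12 K1Charpoly + helper54
            `unit_charpoly` + `PsiSide`) + helper54 `PlacePoly` (T-S), (T-∞) + helper59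
            `PermPoly.charpoly_bigFixRep_triv` (the last factor is `cp([n] | W_k^{c = 1})`).

Consequences: `baseHyp : R1Wrap.BaseHyp p` and R1 in final form `exists_sigma_htate_adBar_final`.
-/
import Fermat.Agent.GP.GW.Euler.BaseHypOfLeaves
import Fermat.Agent.GP.GW.Euler.UnitQTop
import Fermat.Agent.GP.GW.E3.MackeyH2Q
import Fermat.Agent.GP.GW.EqSUnits.PlacePoly
import Fermat.Agent.GP.GW.E3.PermPoly

set_option autoImplicit false

open CategoryTheory NumberField IsDedekindDomain Module Polynomial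

noncomputable section

namespace Fermat.Agent.GP.GW.Euler.KeyLeavesHypFinal

open Fermat.Agent.GC.Prof Fermat.Agent.GC.PT.LocDataQ Fermat.Agent.GC.KumH Fermat.Agent.GC.C0
  Fermat.Agent.GC.Places Fermat.Agent.GC.KBInst
  Fermat.Agent.GP.GW Fermat.Agent.GP.GW.Euler
  Fermat.Agent.GP.GW.E3 Fermat.Agent.GP.GW.E3.NormPair Fermat.Agent.GP.GW.E3.Mackey
  Fermat.Agent.GP.GW.E3.PermPoly Fermat.Agent.GP.GW.EqSUnits
  Fermat.Agent.GP.GW.Euler.UnitDict Fermat.Agent.GP.GW.Euler.UnitQTop
  Fermat.Agent.GP.GW.Euler.BaseHypOfLeaves Fermat.Agent.GP.GW.Euler.R1Wrap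
  Fermat.Agent.GP.GW.E3.KeyCPQLeaves ExtCitation

local notation "Qb" => AlgebraicClosure ℚ
local notation "GQ" => (AlgebraicClosure ℚ ≃ₐ[ℚ] AlgebraicClosure ℚ)

variable {p : ℕ} [Fact p.Prime]

section UnitQ

variable (F : IntermediateField ℚ Qb) [NumberField F] [Normal ℚ F] [F.fixingSubgroup.Normal]
  (T : Finset Nat.Primes) (hpT : pPrime p ∈ T)
  (hχ : ∀ g ∈ F.fixingSubgroup, cycloChar p g = 1) (hFT : F.IsUnramifiedOutside T)
  (hX : ∀ x : Hlc (levelK T F) (sUnitsK T F) 1, x = 0)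
  (H : Subgroup GQ) (hUH : F.fixingSubgroup ≤ H)

include hpT hχ hFT hX in
/-- **(UNITq)** of `KeyCPQ.KeyLeavesQ` for every `n : H`, with `PS = ∏_{v ∈ T} dcPoly (D_v) n`. -/
theorem unitq_dcPoly (n : (normPairQ F.fixingSubgroup H hUH).H)
    [IsDiscrete (levelS T) ((normPairQ F.fixingSubgroup H hUH).big
      ((normPairQ F.fixingSubgroup H hUH).chiRes (cycloChar p)))]
    [FiniteDimensional (ZMod p) (hlcStarRep (levelS T)
      ((normPairQ F.fixingSubgroup H hUH).chiRes (cycloChar p)) 1)]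
    [FiniteDimensional (ZMod p)
      ((normPairQ F.fixingSubgroup H hUH).big ((normPairQ F.fixingSubgroup H hUH).triv₀ (k := ZMod p)))]
    [∀ v : (locDataQ T).ι,
      Finite (DC (decQ (idxPrime T v)) (normPairQ F.fixingSubgroup H hUH).H₀)] :
    ((hlcStarRep (levelS T) ((normPairQ F.fixingSubgroup H hUH).chiRes (cycloChar p)) 1).ρ
        (QuotientGroup.mk n : (normPairQ F.fixingSubgroup H hUH).C)).charpoly * (X - 1) =
      (X - C ((cycloChar p (n : GQ) : (ZMod p)ˣ) : ZMod p)) *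
        (∏ v : (locDataQ T).ι,
          dcPoly (ZMod p) (normPairQ F.fixingSubgroup H hUH) (decQ (idxPrime T v)) n) *
        ((bigFixRep ((normPairQ F.fixingSubgroup H hUH).triv₀ (k := ZMod p)) complexConjugation).ρ
          (QuotientGroup.mk n : (normPairQ F.fixingSubgroup H hUH).C)).charpoly := by
  have hnorm : NormalIn F.fixingSubgroup H :=
    normalIn_normPair (normPairQ F.fixingSubgroup H hUH)
  have hfinInf : Finite (DC (Subgroup.zpowers complexConjugation)
      (normPairQ F.fixingSubgroup H hUH).H₀) := finite_dc_decInf F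
  rw [unitq_psi T F hpT hχ hFT hX H hUH n, charpoly_bigFixRep_triv complexConjugation n]
  congr 1
  · congr 1
    -- (T-S)
    have h := charpoly_primesAbove F (ZMod p) T H n
    refine h.trans ?_
    rw [← Finset.prod_coe_sort]
    rfl
  · -- (T-∞)
    exact charpoly_infPlace F (ZMod p) H n

end UnitQ

/-! ### The two leaves for every pair `(F, T)` -/

/-- **`KeyLeavesHyp p` is a theorem** (`p` odd): (H2q) ∧ (UNITq) with the common
`PS = ∏_{v ∈ T} dcPoly (D_v) n`, for `n` a lift of a generator of `C = H ⧸ G_F`. -/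
theorem keyLeavesHyp (hp2 : p ≠ 2) : KeyLeavesHyp p := by
  intro F _ _ T hpT hχ hFT hX _ H hUH hcyc _ idisc fd1 fd2 fdk
  have hNF : NumberField F := numberField_of_finiteDimensional F
  have hN : Normal ℚ F := normal_of_fixingSubgroup_normal F
  have hfin : ∀ v : (locDataQ T).ι,
      Finite (DC (decQ (idxPrime T v)) (normPairQ F.fixingSubgroup H hUH).H₀) :=
    fun v => finite_dc_decQ F (Subtype.val (show ↥T from v))
  obtain ⟨g, hg⟩ := hcyc.exists_generator
  obtain ⟨n, rfl⟩ := QuotientGroup.mk_surjective g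
  exact ⟨n, hg, _, h2q_dcPoly hp2 F T hpT hχ hFT hX H hUH n,
    unitq_dcPoly F T hpT hχ hFT hX H hUH n⟩

/-- **`R1Wrap.BaseHyp p` is a theorem** (`p` odd): the E3 base case of Tate's global Euler
characteristic formula for every pair `(F, T)` delivered by `SKillTop.exists_field_sigma_sha`. -/
theorem baseHyp (hp2 : p ≠ 2) : BaseHyp p :=
  baseHyp_of_keyLeaves hp2 (keyLeavesHyp hp2)

variable {k : Type} [Field k] [Algebra (ZMod p) k] [Finite k]
variable (ρbar : ResidualGaloisRep k) (b : Module.Basis (Fin 2) k ρbar.V)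

open Fermat.Agent.GP.Bridge.Ad0 Fermat.Agent.S53_helper35 in
/-- **R1, UNCONDITIONAL** (`p` odd): `∃ Σ ⊇ S₀ ∪ S` such that `(TATE)` holds for `(ad⁰ρ̄)^*(1)` at
every level `S' ⊇ Σ` — the `htate` binder of CORE with `Σ` quantified first. -/
theorem exists_sigma_htate_adBar_final (hp2 : p ≠ 2) (S₀ : Finset Nat.Primes)
    (hpS₀ : pPrime p ∈ S₀) (hur : ∀ q : Nat.Primes, q ∉ S₀ → ρbar.IsUnramifiedAt (q : ℕ))
    (S : Finset Nat.Primes) :
    ∃ Sig : Finset Nat.Primes, S₀ ∪ S ⊆ Sig ∧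
      ∀ (S' : Finset Nat.Primes)
        [IsDiscrete (levelS S') ((adBar p ρbar b).dualTwist (cycloChar p))],
        Sig ⊆ S' → TateLe S' ((adBar p ρbar b).dualTwist (cycloChar p)) :=
  exists_sigma_htate_adBar ρbar b hp2 S₀ hpS₀ hur S (baseHyp hp2)

end Fermat.Agent.GP.GW.Euler.KeyLeavesHypFinal
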