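/-
GATE-P / S56 [P-GW] (helper51): abstract core of the `(ARCH)` line of helper78's (KEY-CP)
(board 4329): for commuting endomorphisms `γ`, `c` of a finite-dimensional space with `c² = 1` and
`2` invertible,
  `charpoly γ = charpoly (γ | ker (c - 1)) * charpoly (γ | ker (c + 1))`.
Mathlib + `CharpolyCalc` only.
-/
import Mathlib
import Fermat.Agent.GP.GW.Euler.CharpolyCalc

set_option autoImplicit false

open Polynomial Module

namespace Fermat.Agent.GP.GW.ArchSplit

open Fermat.Agent.GP.GW.CharpolyCalc

variable {k : Type*} [Field k] {W : Type*} [AddCommGroup W] [Module k W]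

/-- `γ` preserves `ker (c - 1)` when it commutes with `c`. -/
theorem stable_ker_sub_one {γ c : W →ₗ[k] W} (hcomm : ∀ w, γ (c w) = c (γ w)) :
    LinearMap.ker (c - 1) ≤ (LinearMap.ker (c - 1)).comap γ := by
  intro w hw
  rw [Submodule.mem_comap, LinearMap.mem_ker, LinearMap.sub_apply, Module.End.one_apply,
    sub_eq_zero] at *
  rw [← hcomm, hw]

/-- `γ` preserves `ker (c + 1)` when it commutes with `c`. -/
theorem stable_ker_add_one {γ c : W →ₗ[k] W} (hcomm : ∀ w, γ (c w) = c (γ w)) :
    LinearMap.ker (c + 1) ≤ (LinearMap.ker (c + 1)).comap γ := by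
  intro w hw
  rw [Submodule.mem_comap, LinearMap.mem_ker, LinearMap.add_apply, Module.End.one_apply] at *
  rw [← hcomm, ← map_add, hw, map_zero]

variable [FiniteDimensional k W]

/-- **(ARCH), abstract form**: the characteristic polynomial splits along the `±1`-eigenspaces of a
commuting involution. -/
theorem charpoly_eq_mul_of_involution (h2 : (2 : k) ≠ 0) (γ c : W →ₗ[k] W)
    (hc : ∀ w, c (c w) = w) (hcomm : ∀ w, γ (c w) = c (γ w)) :
    γ.charpoly = (γ.restrict (stable_ker_sub_one hcomm)).charpoly *
      (γ.restrict (stable_ker_add_one hcomm)).charpoly := by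
  -- the projection onto the `-1`-eigenspace
  let q₀ : W →ₗ[k] W := (2 : k)⁻¹ • (1 - c)
  have hq₀ : ∀ w, q₀ w ∈ LinearMap.ker (c + 1) := by
    intro w
    rw [LinearMap.mem_ker]
    simp only [q₀, LinearMap.smul_apply, LinearMap.sub_apply, Module.End.one_apply,
      LinearMap.add_apply, map_smul, map_sub, hc]
    have : c w + w - (w + c w) = 0 := by abel
    rw [this, smul_zero]
  let q : W →ₗ[k] LinearMap.ker (c + 1) := q₀.codRestrict _ hq₀
  have hq_apply : ∀ w, ((q w : LinearMap.ker (c + 1)) : W) = (2 : k)⁻¹ • (w - c w) := fun w => rfl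
  have hsurj : Function.Surjective q := by
    rintro ⟨w, hw⟩
    refine ⟨w, Subtype.ext ?_⟩
    rw [hq_apply]
    rw [LinearMap.mem_ker, LinearMap.add_apply, Module.End.one_apply] at hw
    have hcw : c w = -w := eq_neg_of_add_eq_zero_left hw
    show (2 : k)⁻¹ • (w - c w) = w
    rw [hcw, sub_neg_eq_add, ← two_smul k w, smul_smul, inv_mul_cancel₀ h2, one_smul]
  have hex : LinearMap.range (LinearMap.ker (c - 1)).subtype = LinearMap.ker q := by
    ext w
    rw [Submodule.range_subtype, LinearMap.mem_ker, LinearMap.mem_ker, LinearMap.sub_apply,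
      Module.End.one_apply]
    constructor
    · intro hw
      apply Subtype.ext
      rw [hq_apply]
      have : w - c w = 0 := by rw [← neg_sub, hw, neg_zero]
      rw [this, smul_zero]
      rfl
    · intro hw
      have h1 : (2 : k)⁻¹ • (w - c w) = 0 := by
        rw [← hq_apply, hw]
        rfl
      have h3 : w - c w = 0 := by
        rcases smul_eq_zero.1 h1 with h | h
        · exact absurd h (inv_ne_zero h2)
        · exact h
      rw [← neg_sub, h3, neg_zero]
  exact charpoly_of_exact (LinearMap.ker (c - 1)).subtype q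
    (Submodule.injective_subtype _) hsurj hex
    (γ.restrict (stable_ker_sub_one hcomm)) γ (γ.restrict (stable_ker_add_one hcomm))
    (fun x => rfl)
    (fun w => by
      apply Subtype.ext
      rw [LinearMap.coe_restrict_apply, hq_apply, hq_apply, map_smul, map_sub, hcomm])

/-- the dimension count that goes with it. -/
theorem finrank_eq_add_of_involution (h2 : (2 : k) ≠ 0) (c : W →ₗ[k] W)
    (hc : ∀ w, c (c w) = w) :
    finrank k W = finrank k (LinearMap.ker (c - 1)) + finrank k (LinearMap.ker (c + 1)) := by
  have h := charpoly_eq_mul_of_involution h2 (LinearMap.id : W →ₗ[k] W) c hc (fun w => rfl)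
  have h' := congrArg natDegree h
  rw [natDegree_mul (LinearMap.charpoly_monic _).ne_zero (LinearMap.charpoly_monic _).ne_zero,
    LinearMap.charpoly_natDegree, LinearMap.charpoly_natDegree, LinearMap.charpoly_natDegree] at h'
  exact h'

end Fermat.Agent.GP.GW.ArchSplit
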