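/-
GATE-P (S56) / [P-GW] S56-GW-INFCOIND (helper17; named by helper59 board 4110):
**inflation commutes with coinduction.**

For a surjective group homomorphism `π : G →* Γ`, a subgroup `C ≤ Γ` and `Y : Rep k C`:

  `Rep.res π (Rep.coind C.subtype Y) ≅ Rep.coind (C.comap π).subtype (Rep.res (π.subgroupComap C) Y)`

(`f ↦ f ∘ π`; an `H := C.comap π`-equivariant function `G → Y` is `ker π`-invariant because
`ker π ≤ H` acts trivially on `Rep.res (π.subgroupComap C) Y`, hence factors through `Γ`).

Also: the small group-theoretic transfer lemmas for `H := C.comap π`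
(`ker π ≤ H`, `H ⧸ ker ≃* C` in the form of a surjection `π.subgroupComap C` with kernel
`ker π`, `IsCyclic`/`Nat.card` transfer) and `res`-stability of finite-dimensionality and
short exactness.  Mathlib only.
-/
import Mathlib

set_option autoImplicit false

namespace Fermat.Agent.GP.GW.Euler.InfCoind

open CategoryTheory

universe uk u t

noncomputable section

variable {k : Type uk} [CommRing k] {G Γ : Type u} [Group G] [Group Γ]

section Iso

variable (π : G →* Γ) (C : Subgroup Γ) (Y : Rep.{t} k C)

/-- Pull back a `C`-equivariant function on `Γ` to a `C.comap π`-equivariant function on `G`. -/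
def pullV :
    (Representation.coindV C.subtype Y.ρ) →ₗ[k]
      (Representation.coindV (C.comap π).subtype (Rep.res (π.subgroupComap C) Y).ρ) where
  toFun f := ⟨fun g => f.1 (π g), fun h g => by
    have := f.2 (π.subgroupComap C h) (π g)
    change f.1 (π (h * g)) = Y.ρ (π.subgroupComap C h) (f.1 (π g))
    rw [map_mul]
    exact this⟩
  map_add' _ _ := rfl
  map_smul' _ _ := rfl

@[simp] lemma pullV_apply (f : Representation.coindV C.subtype Y.ρ) (g : G) :
    (pullV π C Y f).1 g = f.1 (π g) := rfl

lemma ker_le_comap : π.ker ≤ C.comap π := fun g hg => by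
  rw [Subgroup.mem_comap, MonoidHom.mem_ker.1 hg]
  exact C.one_mem

/-- A `C.comap π`-equivariant function on `G` is constant on the fibres of `π`. -/
lemma apply_eq_of_map_eq
    (F : Representation.coindV (C.comap π).subtype (Rep.res (π.subgroupComap C) Y).ρ)
    {g g' : G} (h : π g = π g') : F.1 g = F.1 g' := by
  have hn : π (g' * g⁻¹) = 1 := by rw [map_mul, map_inv, h, mul_inv_cancel]
  have hmem : g' * g⁻¹ ∈ C.comap π := ker_le_comap π C (MonoidHom.mem_ker.2 hn)
  have h1 := F.2 ⟨g' * g⁻¹, hmem⟩ g
  have h2 : π.subgroupComap C ⟨g' * g⁻¹, hmem⟩ = 1 := Subtype.ext hn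
  have h3 : (Rep.res (π.subgroupComap C) Y).ρ ⟨g' * g⁻¹, hmem⟩ = LinearMap.id := by
    change Y.ρ (π.subgroupComap C ⟨g' * g⁻¹, hmem⟩) = LinearMap.id
    rw [h2, map_one]
    rfl
  rw [h3] at h1
  have h4 : ((C.comap π).subtype ⟨g' * g⁻¹, hmem⟩) * g = g' := by
    change g' * g⁻¹ * g = g'
    rw [inv_mul_cancel_right]
  rw [h4] at h1
  exact h1.symm

variable {π} in
/-- Push a `C.comap π`-equivariant function on `G` down to `Γ` (`π` surjective). -/
def pushV (hπ : Function.Surjective π) :
    (Representation.coindV (C.comap π).subtype (Rep.res (π.subgroupComap C) Y).ρ) →ₗ[k]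
      (Representation.coindV C.subtype Y.ρ) where
  toFun F := ⟨fun γ => F.1 (Function.surjInv hπ γ), fun c γ => by
    obtain ⟨h, hh⟩ := hπ c.1
    have hmem : h ∈ C.comap π := by
      rw [Subgroup.mem_comap, hh]
      exact c.2
    have h1 : π (Function.surjInv hπ (C.subtype c * γ)) = π (h * Function.surjInv hπ γ) := by
      rw [Function.surjInv_eq hπ, map_mul, Function.surjInv_eq hπ, hh]
      rfl
    change F.1 (Function.surjInv hπ (C.subtype c * γ)) = Y.ρ c (F.1 (Function.surjInv hπ γ))
    rw [apply_eq_of_map_eq π C Y F h1]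
    have h2 := F.2 ⟨h, hmem⟩ (Function.surjInv hπ γ)
    have h3 : π.subgroupComap C ⟨h, hmem⟩ = c := Subtype.ext hh
    change F.1 (h * Function.surjInv hπ γ) = Y.ρ (π.subgroupComap C ⟨h, hmem⟩) _ at h2
    rw [h3] at h2
    exact h2⟩
  map_add' _ _ := rfl
  map_smul' _ _ := rfl

variable {π} in
/-- The linear equivalence `f ↦ f ∘ π` between the coinduced function spaces. -/
def pullEquiv (hπ : Function.Surjective π) :
    (Representation.coindV C.subtype Y.ρ) ≃ₗ[k]
      (Representation.coindV (C.comap π).subtype (Rep.res (π.subgroupComap C) Y).ρ) where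
  __ := pullV π C Y
  invFun := pushV C Y hπ
  left_inv f := by
    apply Subtype.ext
    funext γ
    change f.1 (π (Function.surjInv hπ γ)) = f.1 γ
    rw [Function.surjInv_eq hπ]
  right_inv F := by
    apply Subtype.ext
    funext g
    change F.1 (Function.surjInv hπ (π g)) = F.1 g
    exact apply_eq_of_map_eq π C Y F (Function.surjInv_eq hπ (π g))

variable {π} in
@[simp] lemma pullEquiv_apply (hπ : Function.Surjective π)
    (f : Representation.coindV C.subtype Y.ρ) (g : G) :
    (pullEquiv C Y hπ f).1 g = f.1 (π g) := rfl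

variable {π} in
/-- `f ↦ f ∘ π` as an equivalence of representations of `G`. -/
def pullRepEquiv (hπ : Function.Surjective π) :
    (Rep.res π (Rep.coind C.subtype Y)).ρ.Equiv
      (Rep.coind (C.comap π).subtype (Rep.res (π.subgroupComap C) Y)).ρ :=
  Representation.Equiv.mk (pullEquiv C Y hπ) fun g₀ => by
    apply LinearMap.ext
    intro f
    apply Subtype.ext
    funext g
    change f.1 (π g * π g₀) = f.1 (π (g * g₀))
    rw [map_mul]

variable {π} in
/-- **Inflation commutes with coinduction.** -/
def resCoindIso (hπ : Function.Surjective π) :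
    Rep.res π (Rep.coind C.subtype Y) ≅
      Rep.coind (C.comap π).subtype (Rep.res (π.subgroupComap C) Y) :=
  Rep.mkIso (pullRepEquiv C Y hπ)

variable {π} in
@[simp] lemma resCoindIso_hom_apply (hπ : Function.Surjective π)
    (f : Representation.coindV C.subtype Y.ρ) (g : G) :
    ((resCoindIso C Y hπ).hom.hom f).1 g = f.1 (π g) := rfl

variable {π} in
theorem nonempty_resCoindIso (hπ : Function.Surjective π) :
    Nonempty (Rep.res π (Rep.coind C.subtype Y) ≅
      Rep.coind (C.comap π).subtype (Rep.res (π.subgroupComap C) Y)) :=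
  ⟨resCoindIso C Y hπ⟩

end Iso

/-! ### Transfer lemmas for `H := C.comap π`, `H₀ := ker π` -/

section Transfer

variable (π : G →* Γ) (C : Subgroup Γ)

/-- The kernel of `π.subgroupComap C : C.comap π →* C` is `ker π` (inside `C.comap π`). -/
lemma ker_subgroupComap : (π.subgroupComap C).ker = π.ker.subgroupOf (C.comap π) := by
  ext h
  rw [MonoidHom.mem_ker, Subgroup.mem_subgroupOf, MonoidHom.mem_ker]
  constructor
  · intro hh
    exact congrArg Subtype.val hh
  · intro hh
    exact Subtype.ext hh

variable {π} in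
/-- `C.comap π ⧸ ker π ≃* C` for surjective `π`. -/
def comapQuotEquiv (hπ : Function.Surjective π) :
    (C.comap π) ⧸ (π.ker.subgroupOf (C.comap π)) ≃* C :=
  (QuotientGroup.quotientMulEquivOfEq (ker_subgroupComap π C).symm).trans
    (QuotientGroup.quotientKerEquivOfSurjective (π.subgroupComap C)
      (π.subgroupComap_surjective_of_surjective C hπ))

variable {π} in
lemma isCyclic_comap_quot (hπ : Function.Surjective π) [IsCyclic C] :
    IsCyclic ((C.comap π) ⧸ (π.ker.subgroupOf (C.comap π))) :=
  isCyclic_of_surjective (comapQuotEquiv C hπ).symm (comapQuotEquiv C hπ).symm.surjective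

variable {π} in
lemma card_comap_quot (hπ : Function.Surjective π) :
    Nat.card ((C.comap π) ⧸ (π.ker.subgroupOf (C.comap π))) = Nat.card C :=
  Nat.card_congr (comapQuotEquiv C hπ).toEquiv

variable {π} in
lemma relIndex_ker_comap (hπ : Function.Surjective π) :
    π.ker.relIndex (C.comap π) = Nat.card C := by
  rw [Subgroup.relIndex, Subgroup.index_eq_card]
  exact card_comap_quot C hπ

variable {π} in
/-- Elementwise form of cyclicity: a generator of `C` lifts to `h₀ ∈ C.comap π` such that every
element of `C.comap π` is a power of `h₀` modulo `ker π`. -/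
lemma exists_generator_mod_ker (hπ : Function.Surjective π) [IsCyclic C] :
    ∃ h₀ ∈ C.comap π, ∀ h ∈ C.comap π, ∃ n : ℤ, h * (h₀ ^ n)⁻¹ ∈ π.ker := by
  obtain ⟨c, hc⟩ := IsCyclic.exists_generator (α := C)
  obtain ⟨h₀, hh₀⟩ := hπ c.1
  refine ⟨h₀, by rw [Subgroup.mem_comap, hh₀]; exact c.2, fun h hh => ?_⟩
  obtain ⟨n, hn⟩ := Subgroup.mem_zpowers_iff.1 (hc ⟨π h, hh⟩)
  refine ⟨n, ?_⟩
  rw [MonoidHom.mem_ker, map_mul, map_inv, map_zpow, hh₀]
  have := congrArg Subtype.val hn
  rw [Subgroup.coe_zpow] at this
  rw [this]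
  exact mul_inv_cancel _

/-- `ker π` acts trivially on `Rep.res (π.subgroupComap C) Y`. -/
lemma res_subgroupComap_trivial_on_ker (Y : Rep.{t} k C) (h : C.comap π)
    (hh : (h : G) ∈ π.ker) :
    (Rep.res (π.subgroupComap C) Y).ρ h = LinearMap.id := by
  have h2 : π.subgroupComap C h = 1 := Subtype.ext (MonoidHom.mem_ker.1 hh)
  change Y.ρ (π.subgroupComap C h) = LinearMap.id
  rw [h2, map_one]
  rfl

/-- Restriction along any homomorphism keeps the carrier, hence finiteness. -/
lemma finite_res {G' : Type*} [Group G'] (f : G' →* G) (M : Rep.{t} k G) [Module.Finite k M] :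
    Module.Finite k (Rep.res f M) :=
  inferInstanceAs (Module.Finite k M)

/-- Coinduction from a subgroup of a FINITE group keeps finite-dimensionality. -/
lemma finite_coind_of_finite {k : Type uk} [Field k] {Γ : Type u} [Group Γ] [Finite Γ]
    (C : Subgroup Γ) (Y : Rep.{t} k C) [FiniteDimensional k Y] :
    FiniteDimensional k (Rep.coind C.subtype Y) := by
  have : Module.Finite k (Γ → Y) := Module.Finite.pi
  exact inferInstanceAs (FiniteDimensional k (Representation.coindV C.subtype Y.ρ))

end Transfer

end

end Fermat.Agent.GP.GW.Euler.InfCoind
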