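/-
GATE-P / S56 [P-GW] E3 (helper12): the leaf `(K1)` in CHARACTERISTIC POLYNOMIAL form, in the
spelling of helper54's `EqSUnits.unit_charpoly` — the LHS-transport of `(UNITq)`.

`F/ℚ` a normal number field inside `ℚ̄`, unramified outside `S ∋ p`, `P = (G_F ≤ H)`,
`A = 𝔽_p(χ_cyc)|_H`, `n ∈ H`, `σ = n|_F`, `R = ℤ[Gal(F/ℚ)]`:

* `quoDict`   : `quo p (sUnitsRepr (ratPlaces S)).asModule ≃+ (O_S^×)^{G_F} ⧸ p` (from `dictEquiv`);
* `quoKappa`  : `quo p (sUnitsRepr (ratPlaces S)).asModule ≃+ Hlc¹(G_{ℚ,S}, W_A)`;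
* `quoKappa_of_smul` : it carries `of σ • -` to the action of `[n] ∈ C = H ⧸ G_F`;
* `charpoly_hlcStar_one` : `charpoly ([n] | Hlc¹(G_{ℚ,S}, W_A)) = charpoly (σ | U_S(F)/p)`;
* `unitq_lhs` : with `unit_charpoly`:
  `charpoly ([n] | Hlc¹) * (X - 1) = (X - C m) * charpoly (σ | 𝔽_p[S_F]) * charpoly (σ | 𝔽_p[∞_F])`.
-/
import Fermat.Agent.GP.GW.Euler.StarBridge
import Fermat.Agent.GP.GW.Euler.UnitDict
import Fermat.Agent.GP.GW.EqSUnits.UnitCharpoly
import Fermat.Agent.GC.Kummer.H0Count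
import Fermat.Agent.GP.GW.E3.BaseQ

set_option autoImplicit false
set_option linter.style.haveILetI false
set_option linter.unusedSectionVars false

open CategoryTheory NumberField IsDedekindDomain Module Polynomial

noncomputable section

namespace Fermat.Agent.GP.GW.Euler.K1Charpoly

open Fermat.Agent.GC.Prof Fermat.Agent.GC.KumH Fermat.Agent.GC.KumH.MuChi Fermat.Agent.GC.C0
  Fermat.Agent.GC.Places Fermat.Agent.GC.SUnitHQ Fermat.Agent.GC.Local.Abs
open Fermat.Agent.GP.GW.Euler.StarRes Fermat.Agent.GP.GW.Euler.PhiKum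
  Fermat.Agent.GP.GW.Euler.KumQ Fermat.Agent.GP.GW.Euler.KumQuot
  Fermat.Agent.GP.GW.Euler.UnitDict Fermat.Agent.GP.GW.Euler.StarBridge
open Fermat.Agent.GP.GW.E3 Fermat.Agent.GP.GW.E3.NormPair
open Fermat.Agent.GP.GW.HerbrandAdd Fermat.Agent.GP.GW.EqSUnits Fermat.Agent.GP.GW.CharpolyAddFun

local notation "Qb" => AlgebraicClosure ℚ
local notation "GQ" => (AlgebraicClosure ℚ ≃ₐ[ℚ] AlgebraicClosure ℚ)

/-! ### Generic: `quo p A ≃+ I ⧸ pI` along an additive equivalence `A ≃+ I` -/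

section Generic

variable {R : Type*} [Ring R] (p : ℕ) {A : Type*} [AddCommGroup A] [Module R A]
  {I : Type*} [AddCommGroup I]

/-- `pI` as an additive subgroup -/
def pMulRange (I : Type*) [AddCommGroup I] : AddSubgroup I :=
  (zsmulAddGroupHom (p : ℤ) : I →+ I).range

theorem mem_pMulRange {x : I} : x ∈ pMulRange p I ↔ ∃ y : I, (p : ℤ) • y = x := Iff.rfl

theorem map_pRange (d : A ≃+ I) :
    (pRange (R := R) p A).toAddSubgroup.map d.toAddMonoidHom = pMulRange p I := by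
  ext x
  constructor
  · rintro ⟨_, ⟨b, rfl⟩, rfl⟩
    refine ⟨d b, ?_⟩
    show (p : ℤ) • d b = d (p • b)
    rw [map_nsmul, natCast_zsmul]
  · rintro ⟨y, rfl⟩
    refine ⟨p • d.symm y, ⟨d.symm y, rfl⟩, ?_⟩
    show d (p • d.symm y) = (p : ℤ) • y
    rw [map_nsmul, d.apply_symm_apply, natCast_zsmul]

/-- `A/pA ≃+ I/pI` -/
def quoCongr (d : A ≃+ I) : quo (R := R) p A ≃+ I ⧸ pMulRange p I :=
  QuotientAddGroup.congr (pRange (R := R) p A).toAddSubgroup (pMulRange p I) d (map_pRange p d)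

theorem quoCongr_mk (d : A ≃+ I) (a : A) :
    quoCongr (R := R) p d (Submodule.Quotient.mk a) = QuotientAddGroup.mk (d a) := rfl

end Generic

/-! ### The `(K1)` leaf -/

section Main

variable (S : Finset Nat.Primes) {p : ℕ} [Fact p.Prime] (F : IntermediateField ℚ Qb)
  [NumberField F] [Normal ℚ F]
variable (hpS : (⟨p, Fact.out⟩ : Nat.Primes) ∈ S) (hF : F.IsUnramifiedOutside S)

/-- the additive equivalence `U_S(F) ≃+ (O_S^×)^{G_F}` on the `ℤ[Gal(F/ℚ)]`-module of helper54 -/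
def dictAsModule :
    (sUnitsRepr (L := F) (ratPlaces S)).asModule ≃+ (sUnitsK S F).ρ.invariants :=
  ((sUnitsRepr (L := F) (ratPlaces S)).asModuleEquiv.toAddEquiv).trans (dictEquiv hF)

/-- `dictAsModule` carries `of σ • -`, `σ = n|_F`, to the action of `n` on `(O_S^×)^{G_F}`. -/
theorem dictAsModule_of_smul {n : GQ} (hn : Norm F.fixingSubgroup n)
    (a : (sUnitsRepr (L := F) (ratPlaces S)).asModule) :
    dictAsModule S F hF
        (MonoidAlgebra.of ℤ (F ≃ₐ[ℚ] F) (AlgEquiv.restrictNormal n F) • a) =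
      actInv (sUnitsS S) hn (dictAsModule S F hF a) := by
  rw [of_smul_asModule]
  exact dictEquiv_sAct hF hn (Additive.toMul ((sUnitsRepr (L := F) (ratPlaces S)).asModuleEquiv a))

/-- **`U_S(F)/p ≃+ (O_S^×)^{G_F} ⧸ p`** (helper54's `quo` to the quotient of `KumQuot`). -/
def quoDict :
    quo (R := MonoidAlgebra ℤ (F ≃ₐ[ℚ] F)) p (sUnitsRepr (L := F) (ratPlaces S)).asModule ≃+
      ((sUnitsK S F).ρ.invariants ⧸ pPow S F p) :=
  quoCongr p (dictAsModule S F hF)

theorem quoDict_mk (a : (sUnitsRepr (L := F) (ratPlaces S)).asModule) :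
    quoDict S F hF (p := p) (Submodule.Quotient.mk a) =
      QuotientAddGroup.mk (dictAsModule S F hF a) := rfl

/-- `quoDict` carries `of σ • -` to `actQuot n`. -/
theorem quoDict_of_smul {n : GQ} (hn : Norm F.fixingSubgroup n)
    (x : quo (R := MonoidAlgebra ℤ (F ≃ₐ[ℚ] F)) p (sUnitsRepr (L := F) (ratPlaces S)).asModule) :
    quoDict S F hF (MonoidAlgebra.of ℤ (F ≃ₐ[ℚ] F) (AlgEquiv.restrictNormal n F) • x) =
      actQuot S hn (quoDict S F hF x) := by
  obtain ⟨a, rfl⟩ := Submodule.Quotient.mk_surjective _ x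
  have h1 : quoDict S F hF (p := p) (Submodule.Quotient.mk
      (MonoidAlgebra.of ℤ (F ≃ₐ[ℚ] F) (AlgEquiv.restrictNormal n F) • a)) =
      QuotientAddGroup.mk (actInv (sUnitsS S) hn (dictAsModule S F hF a)) := by
    rw [quoDict_mk, dictAsModule_of_smul S F hF hn a]
  exact h1

variable (H : Subgroup GQ) (hle : F.fixingSubgroup ≤ H)
  (hcm : ∀ n ∈ H, ∀ s ∈ F.fixingSubgroup, n * s * n⁻¹ ∈ F.fixingSubgroup)
  (hX : ∀ x : Hlc (levelK S F) (sUnitsK S F) 1, x = 0)

/-- **`U_S(F)/p ≃+ Hlc¹(G_{ℚ,S}, W_A)`**, `A = 𝔽_p(χ_cyc)|_H`, `W_A = Coind_{G_F} Res A`. -/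
def quoKappa :
    haveI := isDiscrete_big_fieldPair S F hpS hF H hle hcm
    quo (R := MonoidAlgebra ℤ (F ≃ₐ[ℚ] F)) p (sUnitsRepr (L := F) (ratPlaces S)).asModule ≃+
      Hlc (levelS S)
        ((fieldPair F H hle hcm).big (resH (fieldPair F H hle hcm) (MuChi.chiQ p))) 1 :=
  (quoDict S F hF).trans (kappaStar S F hpS hF H hle hcm hX)

/-- **`quoKappa` carries `of σ • -`, `σ = n|_F`, to the action of `[n] ∈ C = H ⧸ G_F`.** -/
theorem quoKappa_of_smul (n : (fieldPair F H hle hcm).H)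
    (x : quo (R := MonoidAlgebra ℤ (F ≃ₐ[ℚ] F)) p (sUnitsRepr (L := F) (ratPlaces S)).asModule) :
    haveI := isDiscrete_big_fieldPair S F hpS hF H hle hcm
    quoKappa S F hpS hF H hle hcm hX
        (MonoidAlgebra.of ℤ (F ≃ₐ[ℚ] F) (AlgEquiv.restrictNormal (n : GQ) F) • x) =
      (hlcStarRep (levelS S) (resH (fieldPair F H hle hcm) (MuChi.chiQ p)) 1).ρ
        (QuotientGroup.mk n : (fieldPair F H hle hcm).C) (quoKappa S F hpS hF H hle hcm hX x) := by
  have hn : Norm F.fixingSubgroup (n : GQ) := norm_coe (fieldPair F H hle hcm) n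
  show kappaStar S F hpS hF H hle hcm hX (quoDict S F hF _) = _
  rw [quoDict_of_smul S F hF hn x]
  exact kappaStar_act S F hpS hF H hle hcm hX n hn _

/-- the primes of `F` above `S` form a finite set (instance needed by `unit_charpoly`) -/
instance finite_above_ratPlaces : Finite (above (L := F) (ratPlaces S)) := by
  rw [above_ratPlaces, Fermat.Agent.GC.KumXF.sPlaces_eq_primesAbove]
  exact Finset.finite_toSet _

include hpS hF hX in
/-- **`(K1)` in characteristic polynomial form**: the characteristic polynomial of `[n] ∈ C` on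
`Hlc¹(G_{ℚ,S}, W_A)` is the characteristic polynomial of `σ = n|_F` on `U_S(F)/p`, in the spelling of
helper54's `unit_charpoly` (any `ZMod p`-structure on `U_S(F)/p`). -/
theorem charpoly_hlcStar_one (n : (fieldPair F H hle hcm).H)
    [Module (ZMod p)
      (quo (R := MonoidAlgebra ℤ (F ≃ₐ[ℚ] F)) p (sUnitsRepr (L := F) (ratPlaces S)).asModule)]
    [hd : IsDiscrete (levelS S)
      ((fieldPair F H hle hcm).big (resH (fieldPair F H hle hcm) (MuChi.chiQ p)))]
    [FiniteDimensional (ZMod p)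
      (hlcStarRep (levelS S) (resH (fieldPair F H hle hcm) (MuChi.chiQ p)) 1)] :
    ((hlcStarRep (levelS S) (resH (fieldPair F H hle hcm) (MuChi.chiQ p)) 1).ρ
        (QuotientGroup.mk n : (fieldPair F H hle hcm).C)).charpoly =
      (smulEnd p (MonoidAlgebra.of ℤ (F ≃ₐ[ℚ] F) (AlgEquiv.restrictNormal (n : GQ) F))
        (quo (R := MonoidAlgebra ℤ (F ≃ₐ[ℚ] F)) p
          (sUnitsRepr (L := F) (ratPlaces S)).asModule)).charpoly := by
  exact (charpoly_smulEnd_of_addEquiv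
    (V := hlcStarRep (levelS S) (resH (fieldPair F H hle hcm) (MuChi.chiQ p)) 1)
    (MonoidAlgebra.of ℤ (F ≃ₐ[ℚ] F) (AlgEquiv.restrictNormal (n : GQ) F))
    (quoKappa S F hpS hF H hle hcm hX)
    ((hlcStarRep (levelS S) (resH (fieldPair F H hle hcm) (MuChi.chiQ p)) 1).ρ
      (QuotientGroup.mk n : (fieldPair F H hle hcm).C))
    (quoKappa_of_smul S F hpS hF H hle hcm hX n)).symm

include hpS hF hX in
/-- **The LHS-transport of `(UNITq)`**: `(K1)` + helper54's `unit_charpoly` (`K = ℚ`, `L = F`).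
`ζ ∈ F` a primitive `p`-th root of unity, `σ = n|_F`, `σ ζ = ζ ^ m`:
`charpoly ([n] | Hlc¹(G_{ℚ,S}, W_A)) * (X - 1)
   = (X - C m) * charpoly (σ | 𝔽_p[S_F]) * charpoly (σ | 𝔽_p[∞_F])`. -/
theorem unitq_lhs (n : (fieldPair F H hle hcm).H)
    [hd : IsDiscrete (levelS S)
      ((fieldPair F H hle hcm).big (resH (fieldPair F H hle hcm) (MuChi.chiQ p)))]
    [hfd : FiniteDimensional (ZMod p)
      (hlcStarRep (levelS S) (resH (fieldPair F H hle hcm) (MuChi.chiQ p)) 1)]
    {ζ : F} (hζ : IsPrimitiveRoot ζ p) (m : ℕ)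
    (hσ : (AlgEquiv.restrictNormal (n : GQ) F) ζ = ζ ^ m) :
    ((hlcStarRep (levelS S) (resH (fieldPair F H hle hcm) (MuChi.chiQ p)) 1).ρ
        (QuotientGroup.mk n : (fieldPair F H hle hcm).C)).charpoly * (X - 1) =
      (X - C (m : ZMod p)) *
        (LinearMap.funLeft (ZMod p) (ZMod p)
          (pullAbove (L := F) (ratPlaces S) (AlgEquiv.restrictNormal (n : GQ) F))).charpoly *
        (LinearMap.funLeft (ZMod p) (ZMod p)
          (fun w : InfinitePlace F => (AlgEquiv.restrictNormal (n : GQ) F)⁻¹ • w)).charpoly := by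
  letI : Module (ZMod p)
      (quo (R := MonoidAlgebra ℤ (F ≃ₐ[ℚ] F)) p (sUnitsRepr (L := F) (ratPlaces S)).asModule) :=
    AddCommGroup.zmodModule (quo_killed p)
  rw [charpoly_hlcStar_one S F hpS hF H hle hcm hX n]
  exact unit_charpoly hζ (ratPlaces S) (AlgEquiv.restrictNormal (n : GQ) F) m hσ

end Main

/-! ### The same in helper78's `BaseQ` spelling (`normPairQ`, `chiRes (cycloChar p)`) -/

section PlugQ

open ExtCitation

variable (S : Finset Nat.Primes) {p : ℕ} [Fact p.Prime] (F : IntermediateField ℚ Qb)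
  [NumberField F] [Normal ℚ F] [F.fixingSubgroup.Normal]
variable (hpS : (⟨p, Fact.out⟩ : Nat.Primes) ∈ S) (hF : F.IsUnramifiedOutside S)
  (H : Subgroup GQ) (hUH : F.fixingSubgroup ≤ H)
  (hX : ∀ x : Hlc (levelK S F) (sUnitsK S F) 1, x = 0)

include hpS hF hX in
/-- **`(UNITq)`, LHS-transported, for `P = normPairQ G_F H`, `A = P.chiRes (cycloChar p)`**
(the objects of `KeyCPQ S G_F`). -/
theorem unitq_lhs_normPairQ (n : (normPairQ F.fixingSubgroup H hUH).H)
    [hd : IsDiscrete (levelS S) ((normPairQ F.fixingSubgroup H hUH).big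
      ((normPairQ F.fixingSubgroup H hUH).chiRes (cycloChar p)))]
    [hfd : FiniteDimensional (ZMod p) (hlcStarRep (levelS S)
      ((normPairQ F.fixingSubgroup H hUH).chiRes (cycloChar p)) 1)]
    {ζ : F} (hζ : IsPrimitiveRoot ζ p) (m : ℕ)
    (hσ : (AlgEquiv.restrictNormal (n : GQ) F) ζ = ζ ^ m) :
    ((hlcStarRep (levelS S) ((normPairQ F.fixingSubgroup H hUH).chiRes (cycloChar p)) 1).ρ
        (QuotientGroup.mk n : (normPairQ F.fixingSubgroup H hUH).C)).charpoly * (X - 1) =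
      (X - C (m : ZMod p)) *
        (LinearMap.funLeft (ZMod p) (ZMod p)
          (pullAbove (L := F) (ratPlaces S) (AlgEquiv.restrictNormal (n : GQ) F))).charpoly *
        (LinearMap.funLeft (ZMod p) (ZMod p)
          (fun w : InfinitePlace F => (AlgEquiv.restrictNormal (n : GQ) F)⁻¹ • w)).charpoly :=
  unitq_lhs S F hpS hF H hUH (normPairQ F.fixingSubgroup H hUH).conj_mem hX n (hd := hd) (hfd := hfd) hζ m hσ

end PlugQ

end Fermat.Agent.GP.GW.Euler.K1Charpoly
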