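/-
GATE-P / S56 [P-GW] E3d (helper12), part 1: abstract Kummer sequences — NATURALITY and COINDUCTION.

On top of helper78's `GC/Kummer/HlcKummer.lean` (`KummerSeq T A c`, the connecting map `δ`):
* `homX`, `δ_naturality` : a morphism of Kummer sequences `(fT, fA)` (i.e. `ι ≫ fA = fT ≫ ι'`)
  commutes with the Kummer connecting maps.  In particular every AUTOMORPHISM of a Kummer
  sequence (e.g. the `⋆`-action of a normaliser on coinduced coefficients) acts compatibly on
  `Hlc^i(A)`, `Hlc^(i+1)(T)`;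
* `coindSeq` : the coinduction of a Kummer sequence from a subgroup is a Kummer sequence;
  `coindSeq_δ_shapiro` : its connecting map corresponds to the original one under Shapiro;
* `δ_surjective_of_h1_zero`, `δ_eq_zero_iff'`, `kummerEquiv` : if `Hlc^(i+1)(A) = 0` then
  `δ : Hlc^i(A)/c ≃ Hlc^(i+1)(T)`.
-/
import Fermat.Agent.GC.Kummer.HlcKummer
import Fermat.Agent.GC.Prof.LESNat
import Fermat.Agent.GC.Prof.Shapiro

set_option autoImplicit false

open CategoryTheory

noncomputable section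

namespace Fermat.Agent.GP.GW.Euler.KumNat

open Fermat.Agent.GC.Prof Fermat.Agent.GC.KumH Fermat.Agent.GC.Tate

universe u

variable {k G : Type u} [CommRing k] [Group G]

/-! ### Naturality -/

section Nat

variable (𝒰 : LevelSystem G) {T A T' A' : Rep.{u} k G} {c : k}
  [IsDiscrete 𝒰 T] [IsDiscrete 𝒰 A] [IsDiscrete 𝒰 T'] [IsDiscrete 𝒰 A']
  (K : KummerSeq T A c) (K' : KummerSeq T' A' c)

/-- A morphism of Kummer sequences as a morphism of short complexes. -/
def homX (fT : T ⟶ T') (fA : A ⟶ A') (h : K.ι ≫ fA = fT ≫ K'.ι) : K.X ⟶ K'.X where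
  τ₁ := fT
  τ₂ := fA
  τ₃ := fA
  comm₁₂ := h.symm
  comm₂₃ := by
    show fA ≫ (c • 𝟙 A') = (c • 𝟙 A) ≫ fA
    rw [Linear.comp_smul, Linear.smul_comp, Category.comp_id, Category.id_comp]

/-- **Naturality of the Kummer connecting map.** -/
theorem δ_naturality (fT : T ⟶ T') (fA : A ⟶ A') (h : K.ι ≫ fA = fT ≫ K'.ι) (i : ℕ) :
    K.δ 𝒰 i ≫ HlcMap 𝒰 fT (i + 1) = HlcMap 𝒰 fA i ≫ K'.δ 𝒰 i :=
  Hlcδ_naturality 𝒰 K.shortExact K'.shortExact (homX K K' fT fA h) i (i + 1) rfl

theorem δ_naturality_apply (fT : T ⟶ T') (fA : A ⟶ A') (h : K.ι ≫ fA = fT ≫ K'.ι) (i : ℕ)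
    (x : Hlc 𝒰 A i) :
    HlcMap 𝒰 fT (i + 1) (K.δ 𝒰 i x) = K'.δ 𝒰 i (HlcMap 𝒰 fA i x) :=
  congr($(δ_naturality 𝒰 K K' fT fA h i) x)

end Nat

/-! ### The Kummer isomorphism when `Hlc^(i+1)(A) = 0` -/

section Iso

variable (𝒰 : LevelSystem G) {T A : Rep.{u} k G} {c : k}
  [IsDiscrete 𝒰 T] [IsDiscrete 𝒰 A] (K : KummerSeq T A c)

include K in
theorem δ_surjective_of_zero (i : ℕ) (h0 : ∀ z : Hlc 𝒰 A (i + 1), z = 0) :
    Function.Surjective (K.δ 𝒰 i) := fun y =>
  (K.ι_eq_zero_iff i y).1 (h0 _)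

end Iso

/-! ### Coinduction -/

section Coind

variable (S : Subgroup G) {T A : Rep.{u} k S} {c : k} (K : KummerSeq T A c)

theorem coindMap_smul_id :
    Rep.coindMap S.subtype (c • 𝟙 A) = c • 𝟙 (Rep.coind S.subtype A) := by
  ext f
  rfl

theorem coindMap_ι_comp_smul :
    Rep.coindMap S.subtype K.ι ≫ (c • 𝟙 (Rep.coind S.subtype A)) = 0 := by
  rw [← coindMap_smul_id]
  have h1 : Rep.coindMap S.subtype K.ι ≫ Rep.coindMap S.subtype (c • 𝟙 A) =
      Rep.coindMap S.subtype (K.ι ≫ (c • 𝟙 A)) :=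
    ((Rep.coindFunctor k S.subtype).map_comp K.ι (c • 𝟙 A)).symm
  rw [h1, K.zero]
  ext f
  rfl

/-- The coinduction of a Kummer sequence. -/
def coindSeq : KummerSeq (Rep.coind S.subtype T) (Rep.coind S.subtype A) c where
  ι := Rep.coindMap S.subtype K.ι
  zero := coindMap_ι_comp_smul S K
  shortExact := by
    have h := coind_shortExact S K.shortExact
    have e : K.X.map (Rep.coindFunctor k S.subtype) =
        ShortComplex.mk (Rep.coindMap S.subtype K.ι) (c • 𝟙 (Rep.coind S.subtype A))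
          (coindMap_ι_comp_smul S K) := by
      show ShortComplex.mk _ _ _ = _
      congr 1
    rw [e] at h
    exact h

@[simp] theorem coindSeq_ι : (coindSeq S K).ι = Rep.coindMap S.subtype K.ι := rfl

variable (𝒰 : LevelSystem G) [IsDiscrete (𝒰.comap S.subtype) T] [IsDiscrete (𝒰.comap S.subtype) A]
  [IsDiscrete 𝒰 (Rep.coind S.subtype T)] [IsDiscrete 𝒰 (Rep.coind S.subtype A)]

/-- The connecting map of the coinduced Kummer sequence corresponds to the original connecting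
map under Shapiro. -/
theorem coindSeq_δ_shapiro (i : ℕ) :
    (coindSeq S K).δ 𝒰 i ≫ HlcShapiro 𝒰 S T (i + 1) =
      HlcShapiro 𝒰 S A i ≫ K.δ (𝒰.comap S.subtype) i := by
  have : IsDiscrete 𝒰 (K.X.map (Rep.coindFunctor k S.subtype)).X₁ :=
    ‹IsDiscrete 𝒰 (Rep.coind S.subtype T)›
  have : IsDiscrete 𝒰 (K.X.map (Rep.coindFunctor k S.subtype)).X₂ :=
    ‹IsDiscrete 𝒰 (Rep.coind S.subtype A)›
  have : IsDiscrete 𝒰 (K.X.map (Rep.coindFunctor k S.subtype)).X₃ :=
    ‹IsDiscrete 𝒰 (Rep.coind S.subtype A)›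
  exact Hlcδ_comp_HlcShapiro (𝒰 := 𝒰) (S := S) (Y := K.X) K.shortExact i (i + 1) rfl

theorem coindSeq_δ_shapiro_apply (i : ℕ) (x : Hlc 𝒰 (Rep.coind S.subtype A) i) :
    HlcShapiro 𝒰 S T (i + 1) ((coindSeq S K).δ 𝒰 i x) =
      K.δ (𝒰.comap S.subtype) i (HlcShapiro 𝒰 S A i x) :=
  congr($(coindSeq_δ_shapiro S K 𝒰 i) x)

end Coind

/-! ### Restriction -/

section Res

variable (S : Subgroup G) {T A : Rep.{u} k G} {c : k} (K : KummerSeq T A c)

theorem resMap_smul_id :
    (Rep.resFunctor S.subtype).map (c • 𝟙 A) = c • 𝟙 (Rep.res S.subtype A) := by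
  ext f
  rfl

theorem resMap_ι_comp_smul :
    (Rep.resFunctor S.subtype).map K.ι ≫ (c • 𝟙 (Rep.res S.subtype A)) = 0 := by
  rw [← resMap_smul_id, ← Functor.map_comp, K.zero]
  ext f
  rfl

/-- The restriction of a Kummer sequence to a subgroup. -/
def resSeq : KummerSeq (Rep.res S.subtype T) (Rep.res S.subtype A) c where
  ι := (Rep.resFunctor S.subtype).map K.ι
  zero := resMap_ι_comp_smul S K
  shortExact := by
    have h : (K.X.map (Rep.resFunctor (k := k) S.subtype)).ShortExact :=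
      K.shortExact.map_of_exact _
    have e : K.X.map (Rep.resFunctor (k := k) S.subtype) =
        ShortComplex.mk ((Rep.resFunctor S.subtype).map K.ι) (c • 𝟙 (Rep.res S.subtype A))
          (resMap_ι_comp_smul S K) := by
      show ShortComplex.mk _ _ _ = _
      congr 1
    rw [e] at h
    exact h

@[simp] theorem resSeq_ι : (resSeq S K).ι = (Rep.resFunctor S.subtype).map K.ι := rfl

end Res

end Fermat.Agent.GP.GW.Euler.KumNat
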