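/-
GATE-P / S56 [P-GW] (helper12): `Normal ℚ F` from `F.fixingSubgroup.Normal`.

helper71's `R1Wrap.BaseHyp` / helper66's `KeyLeavesHyp` quantify over `F : IntermediateField ℚ ℚ̄`
with `[FiniteDimensional ℚ F] [F.fixingSubgroup.Normal]`; the ROUTE-59 leaves (`K1Charpoly`,
`MackeyPlaces`, `UnitDict`) want `[NumberField F] [Normal ℚ F]`.  This file is the adapter
(infinite Galois correspondence `fixedField (fixingSubgroup F) = F`).
-/
import Mathlib
import Fermat.Agent.GC.Local.KrasnerDec

set_option autoImplicit false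

namespace Fermat.Agent.GP.GW.Euler.NormalOfFix

local notation "Qb" => AlgebraicClosure ℚ
local notation "GQ" => (AlgebraicClosure ℚ ≃ₐ[ℚ] AlgebraicClosure ℚ)

variable (F : IntermediateField ℚ Qb)

/-- If `G_F` is normal in `G_ℚ`, every `σ ∈ G_ℚ` maps `F` into itself. -/
theorem apply_mem_of_fixingSubgroup_normal [hN : F.fixingSubgroup.Normal] (σ : GQ) {x : Qb}
    (hx : x ∈ F) : σ x ∈ F := by
  have : IsGalois ℚ Qb := Fermat.Agent.GC.Local.KR.isGalois_Qb
  rw [← InfiniteGalois.fixedField_fixingSubgroup F, IntermediateField.mem_fixedField_iff]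
  intro τ hτ
  have h1 : σ⁻¹ * τ * σ ∈ F.fixingSubgroup := by
    have := hN.conj_mem τ hτ σ⁻¹
    simpa using this
  have h2 := (IntermediateField.mem_fixingSubgroup_iff F _).1 h1 x hx
  have h3 : σ⁻¹ (τ (σ x)) = x := h2
  have h4 := congrArg σ h3
  rw [show σ (σ⁻¹ (τ (σ x))) = τ (σ x) from σ.apply_symm_apply _] at h4
  exact h4

/-- **`F/ℚ` is normal as soon as `G_F` is a normal subgroup of `G_ℚ`.** -/
theorem normal_of_fixingSubgroup_normal [F.fixingSubgroup.Normal] : Normal ℚ F := by
  have : IsGalois ℚ Qb := Fermat.Agent.GC.Local.KR.isGalois_Qb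
  refine (IntermediateField.normal_iff_forall_map_le' (K := F)).2 ?_
  rintro σ _ ⟨x, hx, rfl⟩
  exact apply_mem_of_fixingSubgroup_normal F σ hx

/-- a finite extension of `ℚ` inside `ℚ̄` is a number field -/
theorem numberField_of_finiteDimensional [FiniteDimensional ℚ F] : NumberField F := ⟨⟩

end Fermat.Agent.GP.GW.Euler.NormalOfFix
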