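/-
GATE-P / S56 [P-GW] E3d (helper12), part 4: change of the ring of scalars on
`Φ_Σ(B) = Coind_Σ^G Res_Σ B`.

An additive equivariant equivalence `e : A ≃+ M` between representations of `G` over possibly
different rings `k`, `k'` induces an additive equivariant equivalence `Φ A ≃+ Φ M` (composition
with `e`) commuting with the `⋆`-action; hence (`GC/Prof/CoeffChange.HlcAddEquiv`)
`Hlc(G, Φ A) ≃+ Hlc(G, Φ M)` commuting with `HlcMap (⋆ n)` (`phiHlcEquiv_star`).
-/
import Fermat.Agent.GP.GW.Euler.StarRes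
import Fermat.Agent.GC.Prof.CoeffChange

set_option autoImplicit false

open CategoryTheory

noncomputable section

namespace Fermat.Agent.GP.GW.Euler.PhiCoeff

open Fermat.Agent.GC.Prof Fermat.Agent.GP.GW.Euler.StarRes

universe u

variable {k k' G : Type u} [CommRing k] [CommRing k'] [Group G] (Sg : Subgroup G)
  {A : Rep.{u} k G} {M : Rep.{u} k' G}

theorem comp_mem_coindV (e : A →+ M) (he : ∀ g a, e (A.ρ g a) = M.ρ g (e a)) (f : Phi Sg A) :
    (fun x : G => e (f.1 x)) ∈ Representation.coindV Sg.subtype (Rep.res Sg.subtype M).ρ := by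
  intro s x
  show e (f.1 ((s : G) * x)) = M.ρ (s : G) (e (f.1 x))
  rw [← he]
  exact congrArg e (f.2 s x)

/-- Composition with an additive equivariant map. -/
def phiAdd (e : A →+ M) (he : ∀ g a, e (A.ρ g a) = M.ρ g (e a)) : Phi Sg A →+ Phi Sg M where
  toFun f := ⟨fun x : G => e (f.1 x), comp_mem_coindV Sg e he f⟩
  map_zero' := by
    apply Subtype.ext
    funext x
    exact map_zero e
  map_add' f g := by
    apply Subtype.ext
    funext x
    exact map_add e _ _

theorem phiAdd_apply (e : A →+ M) (he : ∀ g a, e (A.ρ g a) = M.ρ g (e a)) (f : Phi Sg A)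
    (x : G) : (phiAdd Sg e he f).1 x = e (f.1 x) := rfl

theorem phiAdd_equivariant (e : A →+ M) (he : ∀ g a, e (A.ρ g a) = M.ρ g (e a)) (g : G)
    (f : Phi Sg A) : phiAdd Sg e he ((Phi Sg A).ρ g f) = (Phi Sg M).ρ g (phiAdd Sg e he f) := rfl

/-- Composition with an additive equivariant equivalence. -/
def phiAddEquiv (e : A ≃+ M) (he : ∀ g a, e (A.ρ g a) = M.ρ g (e a)) : Phi Sg A ≃+ Phi Sg M where
  toFun := phiAdd Sg e.toAddMonoidHom he
  invFun := phiAdd Sg e.symm.toAddMonoidHom (fun g m => by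
    show e.symm (M.ρ g m) = A.ρ g (e.symm m)
    rw [AddEquiv.symm_apply_eq, he, AddEquiv.apply_symm_apply])
  left_inv f := by
    apply Subtype.ext
    funext x
    exact e.symm_apply_apply _
  right_inv f := by
    apply Subtype.ext
    funext x
    exact e.apply_symm_apply _
  map_add' := map_add _

theorem phiAddEquiv_equivariant (e : A ≃+ M) (he : ∀ g a, e (A.ρ g a) = M.ρ g (e a)) (g : G)
    (f : Phi Sg A) :
    phiAddEquiv Sg e he ((Phi Sg A).ρ g f) = (Phi Sg M).ρ g (phiAddEquiv Sg e he f) := rfl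

variable {Sg}

theorem phiAddEquiv_star (e : A ≃+ M) (he : ∀ g a, e (A.ρ g a) = M.ρ g (e a)) {n : G}
    (hn : Norm Sg n) (f : Phi Sg A) :
    phiAddEquiv Sg e he ((star A hn).hom f) = (star M hn).hom (phiAddEquiv Sg e he f) := by
  apply Subtype.ext
  funext x
  exact he n _

variable (𝒰 : LevelSystem G) [IsDiscrete 𝒰 (Phi Sg A)] [IsDiscrete 𝒰 (Phi Sg M)]

/-- **Change of scalars on `Hlc(G, Φ ·)`.** -/
def phiHlcEquiv (e : A ≃+ M) (he : ∀ g a, e (A.ρ g a) = M.ρ g (e a)) (i : ℕ) :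
    Hlc 𝒰 (Phi Sg A) i ≃+ Hlc 𝒰 (Phi Sg M) i :=
  HlcAddEquiv 𝒰 (phiAddEquiv Sg e he) (phiAddEquiv_equivariant Sg e he) i

/-- Change of scalars commutes with the `⋆`-action. -/
theorem phiHlcEquiv_star (e : A ≃+ M) (he : ∀ g a, e (A.ρ g a) = M.ρ g (e a)) {n : G}
    (hn : Norm Sg n) (i : ℕ) (x : Hlc 𝒰 (Phi Sg A) i) :
    phiHlcEquiv 𝒰 e he i (HlcMap 𝒰 (star A hn) i x) =
      HlcMap 𝒰 (star M hn) i (phiHlcEquiv 𝒰 e he i x) :=
  HlcAdd_HlcMap 𝒰 (phiAddEquiv Sg e he).toAddMonoidHom (phiAddEquiv_equivariant Sg e he)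
    (phiAddEquiv Sg e he).toAddMonoidHom (phiAddEquiv_equivariant Sg e he)
    (star A hn) (star M hn) (phiAddEquiv_star e he hn) i x

end Fermat.Agent.GP.GW.Euler.PhiCoeff
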