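/-
GATE-P (S56) / [P-GW] R1, last glue (helper71): **R1 from the two leaves (H2q), (UNITq) alone.**

`KeyCPQLeaves.baseCase_of_leaves` (helper66) proves `BaseCase S U` from `KeyLeavesQ S U`;
`R1Wrap.exists_sigma_htate_adBar` (helper71) proves R1 from `BaseHyp p`.  Composite:

* `LeavesHyp p` : for every pair `(F, T)` in the binders delivered by
  `SKillTop.exists_field_sigma_sha` (`F` finite, `G_F` normal, `χ_cyc|_{G_F} = 1`, `p ∈ T`, `F`
  unramified outside `T`, `X(T,F) = 0`, `Ш²(G_{ℚ,T}, Coind_{G_F} ℤ/p) = 0`):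
  `KeyLeavesQ T G_F`;
* `baseHyp_of_leaves : LeavesHyp p → BaseHyp p`;
* `exists_sigma_htate_adBar_of_leaves` : `∃ Σ ⊇ S₀ ∪ S, ∀ S' ⊇ Σ, TateLe S' ((ad⁰ρ̄)^*(1))`.
-/
import Mathlib
import Fermat.Agent.GP.GW.Euler.R1Wrap
import Fermat.Agent.GP.GW.E3.KeyCPQ

set_option autoImplicit false

noncomputable section

namespace Fermat.Agent.GP.GW.Euler.R1Leaves

open Fermat.Agent.GC.Prof Fermat.Agent.GC.C0 Fermat.Agent.GC.Places Fermat.Agent.GC.KumH
  Fermat.Agent.GC.KBInst ExtCitation Fermat.Agent.GP.GW Fermat.Agent.GP.GW.Euler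
  Fermat.Agent.GP.GW.SKillTop Fermat.Agent.GP.Bridge.Ad0 Fermat.Agent.S53_helper35
  Fermat.Agent.GP.GW.E3 Fermat.Agent.GP.GW.E3.KeyCPQLeaves Fermat.Agent.GP.GW.Euler.R1Wrap

local notation "Qb" => AlgebraicClosure ℚ
local notation "GQ" => (AlgebraicClosure ℚ ≃ₐ[ℚ] AlgebraicClosure ℚ)

variable {p : ℕ} [Fact p.Prime]

/-- The two leaves (H2q), (UNITq) of (KEY-CP) for every pair `(F, T)` in the binders delivered by
`SKillTop.exists_field_sigma_sha`. -/
def LeavesHyp (p : ℕ) [Fact p.Prime] : Prop :=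
  ∀ (F : IntermediateField ℚ Qb) [FiniteDimensional ℚ F] [F.fixingSubgroup.Normal]
    (T : Finset Nat.Primes),
    pPrime p ∈ T → (∀ g ∈ F.fixingSubgroup, cycloChar p g = 1) →
    ∀ hFT : F.IsUnramifiedOutside T,
      (∀ x : Hlc (levelK T F) (sUnitsK T F) 1, x = 0) →
      Function.Injective (locResW T F hFT (TpK p F) 2) →
      KeyLeavesQ (p := p) T F.fixingSubgroup

/-- `BaseHyp p` from the leaves. -/
theorem baseHyp_of_leaves (hp2 : p ≠ 2) (h : LeavesHyp p) : BaseHyp p := by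
  intro F _ _ T hpT hχ hFT hX hsha
  have : IsDiscrete (levelS T) (TChi p) := isDiscrete_TChi T hpT
  exact baseCase_of_leaves hp2 ((mem_levelS_iff T _).2 ⟨F, hFT, rfl⟩) hχ
    (TatePlug.hlcFinite hp2 T hpT) (h F T hpT hχ hFT hX hsha)

variable {k : Type} [Field k] [Algebra (ZMod p) k] [Finite k]
variable (ρbar : ResidualGaloisRep k) (b : Module.Basis (Fin 2) k ρbar.V)

/-- **R1 from the two leaves alone**, `Σ` first. -/
theorem exists_sigma_htate_adBar_of_leaves (hp2 : p ≠ 2) (S₀ : Finset Nat.Primes)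
    (hpS₀ : pPrime p ∈ S₀) (hur : ∀ q : Nat.Primes, q ∉ S₀ → ρbar.IsUnramifiedAt (q : ℕ))
    (S : Finset Nat.Primes) (h : LeavesHyp p) :
    ∃ Sig : Finset Nat.Primes, S₀ ∪ S ⊆ Sig ∧
      ∀ (S' : Finset Nat.Primes)
        [IsDiscrete (levelS S') ((adBar p ρbar b).dualTwist (cycloChar p))],
        Sig ⊆ S' → TateLe S' ((adBar p ρbar b).dualTwist (cycloChar p)) :=
  exists_sigma_htate_adBar ρbar b hp2 S₀ hpS₀ hur S (baseHyp_of_leaves hp2 h)

end Fermat.Agent.GP.GW.Euler.R1Leaves
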