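/-
GATE-P (S56) / [P-GW] leaf S56-GW-R1-OFKEY (helper7): **R1 from (KEY-CP) ALONE.**

`R1` = the `htate` binder of `GP/Core/CoreAsm` / `CoreInst`:
`∀ S' ⊇ Σ, TateLe S' ((adBar p ρbar b).dualTwist (cycloChar p))`.

Chain on main: `TateAd0.htate_adBar` (helper7) ⟸ `BaseCase S' U` ⟸ `BaseQ.baseCase_of_keyCPQ`
(helper78) with three further inputs — `HlcFinite S'` (← `TatePlug.hlcFinite`, helper19's
`NineTermExport`), `TwInvQ U` (← helper51's leaf G1 `TwInvAddFun.exists_twInv_additive`) and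
`KeyCPQ S' U`.  This file discharges the first two:

* `twInvQ U : TwInvQ U` (unconditional);
* `baseCase_of_keyCPQ_alone` : `KeyCPQ S U ⟹ BaseCase S U` (`p` odd, `p ∈ S`, `U` a normal level on
  which `cycloChar p` is trivial);
* `tateLe_of_keyCPQ` : `(TATE)` for every f.d. discrete `N` trivial on `U`;
* **`htate_adBar_of_keyCPQ`** : R1 for `N = adBar p ρbar b`, `U = kerBoth (toMatRes ρbar b)`, from
  `∀ S' ⊇ Σ, KeyCPQ S' U` — the ONLY open statement of the `[P-GW]` side of S56.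
Imports only.
-/
import Mathlib
import Fermat.Agent.GP.GW.Euler.TateAd0
import Fermat.Agent.GP.GW.Euler.TwInvAddFun
import Fermat.Agent.GP.GW.E3.BaseQ

set_option autoImplicit false

namespace Fermat.Agent.GP.GW.Euler.R1OfKey

open Fermat.Agent.GC.Prof Fermat.Agent.GC.PT Fermat.Agent.GC.PT.Triples CategoryTheory
  ExtCitation Module Fermat.Agent.GC.C0 Fermat.Agent.GP.GW Fermat.Agent.GP.GW.Euler
  Fermat.Agent.GP.GW.SKillTop Fermat.Agent.GP.Bridge.Ad0 Fermat.Agent.S53_helper35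
  Fermat.Agent.GP.GW.E3

noncomputable section

variable {p : ℕ} [Fact p.Prime]

/-- **Leaf G1 over `G_ℚ`, unconditional** (helper51's `exists_twInv_additive`). -/
theorem twInvQ (U : Subgroup Fermat.Agent.GC.C0.GQ) [U.Normal] : TwInvQ (p := p) U := by
  intro H hUH g hg hpC n b
  have hne0 : Nat.card (normPairQ U H hUH).C ≠ 0 := by
    intro h0
    apply hpC
    rw [h0]
    exact dvd_zero p
  have hfin : Finite (normPairQ U H hUH).C := Nat.finite_of_card_ne_zero hne0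
  have hn : (Nat.card (normPairQ U H hUH).C : ZMod p) ≠ 0 := by
    rw [Ne, ZMod.natCast_eq_zero_iff]
    exact hpC
  obtain ⟨F, -, hmul, hF⟩ := TwInvAddFun.exists_twInv_additive (p := p) g hg hn b
  exact ⟨F, hmul, fun X _ => hF X⟩

/-- **E3 BASE from (KEY-CP) alone.** -/
theorem baseCase_of_keyCPQ_alone (hp2 : p ≠ 2) {S : Finset Nat.Primes}
    [IsDiscrete (levelS S) (TChi p)] (hpS : pPrime p ∈ S)
    {U : Subgroup Fermat.Agent.GC.C0.GQ} [U.Normal] (hU : U ∈ (levelS S).sets)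
    (hχU : ∀ u ∈ U, cycloChar p u = 1) (hKEY : KeyCPQ (p := p) S U) :
    BaseCase (p := p) S U :=
  baseCase_of_keyCPQ hU hχU (TatePlug.hlcFinite hp2 S hpS) (twInvQ U) hKEY

/-- **`(TATE)` from (KEY-CP) alone**, for every f.d. discrete `N` trivial on `U`. -/
theorem tateLe_of_keyCPQ (hp2 : p ≠ 2) (S : Finset Nat.Primes)
    [IsDiscrete (levelS S) (TChi p)] (hpS : pPrime p ∈ S)
    (U : Subgroup Fermat.Agent.GC.C0.GQ) [U.Normal] (hU : U ∈ (levelS S).sets)
    (hχU : ∀ u ∈ U, cycloChar p u = 1) (hKEY : KeyCPQ (p := p) S U)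
    (N : Rep.{0} (ZMod p) Fermat.Agent.GC.C0.GQ) [FiniteDimensional (ZMod p) N] [IsDiscrete (levelS S) N]
    (hN : ∀ u ∈ U, N.ρ u = 1) : TateLe S N :=
  TatePlug.tateLe_of_baseCase hp2 S hpS U hU (baseCase_of_keyCPQ_alone hp2 hpS hU hχU hKEY) N hN

variable {k : Type} [Field k] [Algebra (ZMod p) k] [Finite k]
variable (ρbar : ResidualGaloisRep k) (b : Module.Basis (Fin 2) k ρbar.V)

/-- **R1 from (KEY-CP) alone**: the `htate` binder of `CoreAsm.selmerBounds_base_of_nodes` /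
`CoreInst` for `N := adBar p ρbar b`, from `KeyCPQ S' G_F` at every level `S' ⊇ Σ`
(`G_F = kerBoth (toMatRes ρbar b)`, `F = ℚ(ρ̄, ζ_p)`). -/
theorem htate_adBar_of_keyCPQ (hp2 : p ≠ 2) (S₀ : Finset Nat.Primes) (hpS₀ : pPrime p ∈ S₀)
    (hur : ∀ q : Nat.Primes, q ∉ S₀ → ρbar.IsUnramifiedAt (q : ℕ))
    (Sig : Finset Nat.Primes) (hSig : S₀ ⊆ Sig)
    (hKEY : ∀ S' : Finset Nat.Primes, Sig ⊆ S' →
      KeyCPQ (p := p) S' (kerBoth (p := p) (toMatRes ρbar b))) :
    ∀ (S' : Finset Nat.Primes)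
      [IsDiscrete (levelS S') ((adBar p ρbar b).dualTwist (cycloChar p))],
      Sig ⊆ S' → TateLe S' ((adBar p ρbar b).dualTwist (cycloChar p)) := by
  refine TateAd0.htate_adBar ρbar b hp2 S₀ hpS₀ hur Sig hSig fun S' hS' => ?_
  have hpS' : pPrime p ∈ S' := hS' (hSig hpS₀)
  have : IsDiscrete (levelS S') (TChi p) := isDiscrete_TChi S' hpS'
  exact baseCase_of_keyCPQ_alone hp2 hpS'
    (TateAd0.kerBoth_mem_levelS ρbar b S₀ hpS₀ hur (hSig.trans hS')) (fun _ hu => hu.2)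
    (hKEY S' hS')

end

end Fermat.Agent.GP.GW.Euler.R1OfKey
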