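/-
GATE-P / S56 [P-GW] leaf S56-GW-RANKP-ADDFUN (helper51) = item E3-ADDRP (a) of helper74 (board 4198):
**`r_P(X, γ) = finrank range P(γ_X)` is an additive function** when `γ ^ n = 1` and `p ∤ n`.

* linear-algebra core (any field `k`, `(n : k) ≠ 0`): `exists_idempotent_poly` (every `P` has an
  "idempotent modulo `X^n - 1`" polynomial `E` with the same range on every `γ` with `γ^n = 1`),
  `finrank_range_aeval_exact` (additivity on short exact sequences of pairs `(V, γ)`);
* `rankP r P M` for finite `p`-killed `R`-modules (`R` any ring, `r ^ n = 1`), `rankP_eq`,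
  `rankP_iso`, `rankP_exact`, **`rankPAddFun : HerbrandAdd.AddFun R p ℤ`**,
  **`rankP_isAddFun : LatticeRed.IsAddFun`**;
* with `R` generated by `r`: identities between characteristic polynomials give identities between
  `rankP`'s (`rankP_add_eq_of_charpoly_mul_eq`, from `AddFunOfCharpoly`).
-/
import Mathlib
import Fermat.Agent.GP.GW.HerbrandAdd
import Fermat.Agent.GP.GW.LatticeRed
import Fermat.Agent.GP.GW.Euler.CharpolyAddFun
import Fermat.Agent.GP.GW.Euler.AddFunOfCharpoly

set_option autoImplicit false

open Polynomial Module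

namespace Fermat.Agent.GP.GW.RankP

open Fermat.Agent.GP.GW.CharpolyAddFun

universe u uR

/-! ### linear algebra over a field -/

section Core

variable {k : Type*} [Field k]

/-- polynomials in intertwined operators are intertwined. -/
theorem aeval_intertwine {V W : Type*} [AddCommGroup V] [Module k V] [AddCommGroup W]
    [Module k W] (φ : V →ₗ[k] W) (γ : V →ₗ[k] V) (δ : W →ₗ[k] W)
    (h : ∀ v, φ (γ v) = δ (φ v)) (P : k[X]) (v : V) :
    φ (aeval γ P v) = aeval δ P (φ v) := by
  induction P using Polynomial.induction_on' generalizing v with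
  | add P Q hP hQ => simp only [map_add, LinearMap.add_apply, hP, hQ]
  | monomial m a =>
    have hpow : ∀ (m : ℕ) (v : V), φ ((γ ^ m) v) = (δ ^ m) (φ v) := by
      intro m
      induction m with
      | zero => intro v; simp
      | succ m ih =>
        intro v
        rw [pow_succ, pow_succ, Module.End.mul_apply, Module.End.mul_apply, ih, h]
    simp only [aeval_monomial, Module.End.mul_apply, Module.algebraMap_end_apply, map_smul, hpow]

/-- **idempotent polynomial**: for a squarefree `Q` and any `P` there is `E` with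
`E² ≡ E`, `E ≡ a P`, `P ≡ E P` modulo `Q`. -/
theorem exists_idempotent_poly {Q : k[X]} (hQ : Squarefree Q) (P : k[X]) :
    ∃ E a c d : k[X], E * E = E + c * Q ∧ (∃ b, E = a * P + b * Q) ∧ P = E * P + d * Q := by
  classical
  set D := EuclideanDomain.gcd P Q with hD
  obtain ⟨P', hP'⟩ : D ∣ P := EuclideanDomain.gcd_dvd_left P Q
  obtain ⟨D', hD'⟩ : D ∣ Q := EuclideanDomain.gcd_dvd_right P Q
  have hbez : D = P * EuclideanDomain.gcdA P Q + Q * EuclideanDomain.gcdB P Q :=
    EuclideanDomain.gcd_eq_gcd_ab P Q
  set s := EuclideanDomain.gcdA P Q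
  set t := EuclideanDomain.gcdB P Q
  have hcop : IsCoprime D D' := by
    rw [hD'] at hQ
    exact ((squarefree_mul_iff.1 hQ).1).isCoprime
  obtain ⟨u, v, huv⟩ := hcop
  refine ⟨u * D, u * s, -(u * v), v * P', ?_, ⟨u * t, ?_⟩, ?_⟩
  · -- `E² = E - u v Q`
    have h1 : u * D = 1 - v * D' := by rw [← huv]; ring
    calc u * D * (u * D) = u * D * (1 - v * D') := by rw [← h1]
      _ = u * D + -(u * v) * (D * D') := by ring
      _ = u * D + -(u * v) * Q := by rw [← hD']
  · calc u * D = u * (P * s + Q * t) := by rw [← hbez]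
      _ = u * s * P + u * t * Q := by ring
  · calc P = (u * D + v * D') * P := by rw [huv, one_mul]
      _ = u * D * P + v * D' * (D * P') := by rw [← hP']; ring
      _ = u * D * P + v * P' * (D * D') := by ring
      _ = u * D * P + v * P' * Q := by rw [← hD']

/-- ranges of an operator which is idempotent on the middle term form a short exact sequence. -/
theorem finrank_range_exact {A B C : Type*} [AddCommGroup A] [Module k A] [AddCommGroup B]
    [Module k B] [AddCommGroup C] [Module k C] [FiniteDimensional k B]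
    (i : A →ₗ[k] B) (q : B →ₗ[k] C) (hi : Function.Injective i) (hq : Function.Surjective q)
    (hex : Function.Exact i q) (εA : A →ₗ[k] A) (εB : B →ₗ[k] B) (εC : C →ₗ[k] C)
    (hiε : ∀ a, i (εA a) = εB (i a)) (hqε : ∀ b, q (εB b) = εC (q b))
    (hidem : ∀ b, εB (εB b) = εB b) :
    finrank k (LinearMap.range εB) =
      finrank k (LinearMap.range εA) + finrank k (LinearMap.range εC) := by
  have hA : FiniteDimensional k A := FiniteDimensional.of_injective i hi
  have hC : FiniteDimensional k C := FiniteDimensional.of_surjective q hq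
  let g : LinearMap.range εB →ₗ[k] LinearMap.range εC :=
    q.restrict (by
      rintro _ ⟨b, rfl⟩
      exact ⟨q b, (hqε b).symm⟩)
  let h : LinearMap.range εA →ₗ[k] LinearMap.range εB :=
    i.restrict (by
      rintro _ ⟨a, rfl⟩
      exact ⟨i a, (hiε a).symm⟩)
  have hg : Function.Surjective g := by
    rintro ⟨_, c', rfl⟩
    obtain ⟨b', rfl⟩ := hq c'
    exact ⟨⟨εB b', b', rfl⟩, Subtype.ext (hqε b')⟩
  have hh : Function.Injective h := by
    intro x y hxy
    apply Subtype.ext
    apply hi
    exact congrArg Subtype.val hxy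
  have hker : LinearMap.range h = LinearMap.ker g := by
    ext ⟨b, hb⟩
    rw [LinearMap.mem_range, LinearMap.mem_ker]
    constructor
    · rintro ⟨⟨a, ha⟩, hab⟩
      apply Subtype.ext
      have : i a = b := congrArg Subtype.val hab
      show q b = 0
      rw [← this]
      exact (hex (i a)).2 ⟨a, rfl⟩
    · intro hgb
      have hqb : q b = 0 := congrArg Subtype.val hgb
      obtain ⟨a, rfl⟩ := (hex b).1 hqb
      obtain ⟨b', hb'⟩ := hb
      have hfix : εB (i a) = i a := by rw [← hb', hidem]
      refine ⟨⟨εA a, a, rfl⟩, Subtype.ext ?_⟩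
      show i (εA a) = i a
      rw [hiε, hfix]
  have h1 := LinearMap.finrank_range_add_finrank_ker g
  rw [LinearMap.range_eq_top.2 hg, finrank_top, ← hker, LinearMap.finrank_range_of_inj hh] at h1
  omega

variable {n : ℕ}

/-- for `γ ^ n = 1`, `(n : k) ≠ 0`: the range of `P(γ)` is the range of an idempotent `E(γ)`, with
`E` depending only on `P` and `n`. -/
theorem exists_idempotent_aeval (hn : (n : k) ≠ 0) (P : k[X]) :
    ∃ E : k[X], ∀ {V : Type u} [AddCommGroup V] [Module k V] (γ : V →ₗ[k] V), γ ^ n = 1 →
      (∀ v, aeval γ E (aeval γ E v) = aeval γ E v) ∧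
        LinearMap.range (aeval γ E) = LinearMap.range (aeval γ P) := by
  have hsq : Squarefree (X ^ n - C (1 : k)) :=
    (separable_X_pow_sub_C (1 : k) hn one_ne_zero).squarefree
  obtain ⟨E, a, c, d, h1, ⟨b, h2⟩, h3⟩ := exists_idempotent_poly hsq P
  refine ⟨E, fun {V} _ _ γ hγ => ?_⟩
  have hQ : aeval γ (X ^ n - C (1 : k)) = 0 := by
    rw [map_sub, map_pow, aeval_X, aeval_C, hγ, map_one, sub_self]
  constructor
  · intro v
    have := congrArg (fun R : k[X] => aeval γ R v) h1
    simp only [map_add, map_mul, hQ, mul_zero, add_zero, Module.End.mul_apply] at this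
    exact this
  · apply le_antisymm
    · rintro _ ⟨v, rfl⟩
      have h2' : E = P * a + b * (X ^ n - C (1 : k)) := by rw [h2]; ring
      have := congrArg (fun R : k[X] => aeval γ R v) h2'
      simp only [map_add, map_mul, hQ, mul_zero, add_zero, Module.End.mul_apply] at this
      exact ⟨aeval γ a v, this.symm⟩
    · rintro _ ⟨v, rfl⟩
      have := congrArg (fun R : k[X] => aeval γ R v) h3
      simp only [map_add, map_mul, hQ, mul_zero, add_zero, Module.End.mul_apply] at this
      exact ⟨aeval γ P v, this.symm⟩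

/-- **additivity of `finrank range P(γ)`** on short exact sequences of pairs `(V, γ)` with
`γ ^ n = 1`, `(n : k) ≠ 0`. -/
theorem finrank_range_aeval_exact (hn : (n : k) ≠ 0) {A B C : Type u} [AddCommGroup A]
    [Module k A] [AddCommGroup B] [Module k B] [AddCommGroup C] [Module k C]
    [FiniteDimensional k B] (i : A →ₗ[k] B) (q : B →ₗ[k] C) (hi : Function.Injective i)
    (hq : Function.Surjective q) (hex : Function.Exact i q)
    (γA : A →ₗ[k] A) (γB : B →ₗ[k] B) (γC : C →ₗ[k] C)
    (hiγ : ∀ a, i (γA a) = γB (i a)) (hqγ : ∀ b, q (γB b) = γC (q b)) (hγ : γB ^ n = 1)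
    (P : k[X]) :
    finrank k (LinearMap.range (aeval γB P)) =
      finrank k (LinearMap.range (aeval γA P)) + finrank k (LinearMap.range (aeval γC P)) := by
  have hpowA : ∀ (m : ℕ) (a : A), i ((γA ^ m) a) = (γB ^ m) (i a) := by
    intro m
    induction m with
    | zero => intro a; simp
    | succ m ih =>
      intro a
      rw [pow_succ, pow_succ, Module.End.mul_apply, Module.End.mul_apply, ih, hiγ]
  have hpowC : ∀ (m : ℕ) (b : B), q ((γB ^ m) b) = (γC ^ m) (q b) := by
    intro m
    induction m with
    | zero => intro b; simp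
    | succ m ih =>
      intro b
      rw [pow_succ, pow_succ, Module.End.mul_apply, Module.End.mul_apply, ih, hqγ]
  have hγA : γA ^ n = 1 := by
    apply LinearMap.ext
    intro a
    apply hi
    rw [hpowA, hγ]
    simp
  have hγC : γC ^ n = 1 := by
    apply LinearMap.ext
    intro c
    obtain ⟨b, rfl⟩ := hq c
    rw [← hpowC, hγ]
    simp
  obtain ⟨E, hE⟩ := exists_idempotent_aeval.{u} (k := k) hn P
  obtain ⟨-, hrA⟩ := hE γA hγA
  obtain ⟨hidB, hrB⟩ := hE γB hγ
  obtain ⟨-, hrC⟩ := hE γC hγC
  rw [← hrA, ← hrB, ← hrC]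
  exact finrank_range_exact i q hi hq hex (aeval γA E) (aeval γB E) (aeval γC E)
    (fun a => aeval_intertwine i γA γB hiγ E a) (fun b => aeval_intertwine q γB γC hqγ E b) hidB

end Core

/-! ### the additive function `rankP` on `R`-modules -/

section Val

variable {R : Type uR} [Ring R] (r : R) {p : ℕ} [Fact p.Prime] (P : (ZMod p)[X])

/-- explicit-instance form -/
noncomputable def rankAux (M : Type*) [AddCommGroup M] [Module R M] (inst : Module (ZMod p) M) :
    ℕ :=
  finrank (ZMod p) (LinearMap.range (aeval (smulEnd p r M) P))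

theorem rankAux_congr (M : Type*) [AddCommGroup M] [Module R M]
    (inst inst' : Module (ZMod p) M) : rankAux r P M inst = rankAux r P M inst' := by
  obtain rfl : inst = inst' := Subsingleton.elim _ _
  rfl

open Classical in
/-- **`r_P`**: the `𝔽_p`-dimension of the range of `P(r • ·)` on a finite `R`-module killed by `p`
(and `0` on all other modules). -/
noncomputable def rankP (M : Type*) [AddCommGroup M] [Module R M] : ℤ :=
  if h : Finite M ∧ ∀ m : M, p • m = 0 then
    (rankAux r P M (AddCommGroup.zmodModule h.2) : ℤ)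
  else 0

/-- computation of `rankP` with respect to ANY `ZMod p`-module structure. -/
theorem rankP_eq (M : Type*) [AddCommGroup M] [Module R M] [inst : Module (ZMod p) M]
    [hfin : Finite M] :
    rankP r P M = (finrank (ZMod p) (LinearMap.range (aeval (smulEnd p r M) P)) : ℤ) := by
  have h : Finite M ∧ ∀ m : M, p • m = 0 := ⟨hfin, ZModModule.char_nsmul_eq_zero p⟩
  unfold rankP
  rw [dif_pos h, rankAux_congr r P M _ inst]
  rfl

theorem rankP_of_not (M : Type*) [AddCommGroup M] [Module R M]
    (h : ¬ (Finite M ∧ ∀ m : M, p • m = 0)) : rankP r P M = 0 := by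
  unfold rankP
  rw [dif_neg h]

/-- invariance under `R`-linear isomorphisms (no hypothesis on the modules). -/
theorem rankP_iso {M N : Type*} [AddCommGroup M] [Module R M] [AddCommGroup N] [Module R N]
    (e : M ≃ₗ[R] N) : rankP r P M = rankP r P N := by
  classical
  by_cases h : Finite M ∧ ∀ m : M, p • m = 0
  · obtain ⟨hfin, hk⟩ := h
    have hfinN : Finite N := Finite.of_equiv M e.toEquiv
    have hkN : ∀ n : N, p • n = 0 := fun n => by
      obtain ⟨m, rfl⟩ := e.surjective n
      rw [← map_nsmul, hk, map_zero]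
    have iM : Module (ZMod p) M := AddCommGroup.zmodModule hk
    have iN : Module (ZMod p) N := AddCommGroup.zmodModule hkN
    rw [rankP_eq r P M, rankP_eq r P N]
    have hmap : (LinearMap.range (aeval (smulEnd p r M) P)).map
        (zmodEquiv p e : M →ₗ[ZMod p] N) = LinearMap.range (aeval (smulEnd p r N) P) := by
      ext n
      constructor
      · rintro ⟨_, ⟨m, rfl⟩, rfl⟩
        refine ⟨e m, ?_⟩
        have := aeval_intertwine (zmodEquiv p e : M →ₗ[ZMod p] N) (smulEnd p r M)
          (smulEnd p r N) (fun v => by simp) P m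
        exact this.symm
      · rintro ⟨n', rfl⟩
        refine ⟨aeval (smulEnd p r M) P (e.symm n'), ⟨_, rfl⟩, ?_⟩
        have := aeval_intertwine (zmodEquiv p e : M →ₗ[ZMod p] N) (smulEnd p r M)
          (smulEnd p r N) (fun v => by simp) P (e.symm n')
        rw [this]
        simp
    rw [← hmap]
    exact_mod_cast (LinearEquiv.finrank_map_eq (zmodEquiv p e) _).symm
  · have h' : ¬ (Finite N ∧ ∀ n : N, p • n = 0) := by
      rintro ⟨hfin, hk⟩
      apply h
      refine ⟨Finite.of_equiv N e.symm.toEquiv, fun m => ?_⟩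
      apply e.injective
      rw [map_nsmul, hk, map_zero]
    rw [rankP_of_not r P M h, rankP_of_not r P N h']

variable {n : ℕ}

/-- additivity along a short exact sequence with finite `p`-killed middle term
(`r ^ n = 1`, `p ∤ n`). -/
theorem rankP_exact (hr : r ^ n = 1) (hpn : ¬ p ∣ n) {A B C : Type u} [AddCommGroup A]
    [Module R A] [AddCommGroup B] [Module R B] [AddCommGroup C] [Module R C]
    (i : A →ₗ[R] B) (q : B →ₗ[R] C) (hi : Function.Injective i) (hq : Function.Surjective q)
    (hex : Function.Exact i q) [hfin : Finite B] (hk : ∀ b : B, p • b = 0) :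
    rankP r P B = rankP r P A + rankP r P C := by
  classical
  have hfinA : Finite A := Finite.of_injective i hi
  have hfinC : Finite C := Finite.of_surjective q hq
  have hkA : ∀ a : A, p • a = 0 := fun a => by
    apply hi
    rw [map_nsmul, hk, map_zero]
  have hkC : ∀ c : C, p • c = 0 := fun c => by
    obtain ⟨b, rfl⟩ := hq c
    rw [← map_nsmul, hk, map_zero]
  have iA : Module (ZMod p) A := AddCommGroup.zmodModule hkA
  have iB : Module (ZMod p) B := AddCommGroup.zmodModule hk
  have iC : Module (ZMod p) C := AddCommGroup.zmodModule hkC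
  rw [rankP_eq r P A, rankP_eq r P B, rankP_eq r P C]
  have hn : ((n : ℕ) : ZMod p) ≠ 0 := by
    rw [Ne, ZMod.natCast_eq_zero_iff]
    exact hpn
  have hγ : (smulEnd p r B) ^ n = 1 := by
    apply LinearMap.ext
    intro b
    have hpow : ∀ (m : ℕ) (b : B), ((smulEnd p r B) ^ m) b = r ^ m • b := by
      intro m
      induction m with
      | zero => intro b; simp
      | succ m ih =>
        intro b
        rw [pow_succ, Module.End.mul_apply, ih, smulEnd_apply, pow_succ, mul_smul]
    rw [hpow, hr, one_smul]
    rfl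
  have key := finrank_range_aeval_exact.{u} (k := ZMod p) hn
    (zmodLin p i : A →ₗ[ZMod p] B) (zmodLin p q : B →ₗ[ZMod p] C) hi hq
    (fun b => by simp only [zmodLin_apply]; exact hex b)
    (smulEnd p r A) (smulEnd p r B) (smulEnd p r C)
    (fun x => by simp only [zmodLin_apply, smulEnd_apply, map_smul])
    (fun x => by simp only [zmodLin_apply, smulEnd_apply, map_smul]) hγ P
  rw [key]
  push_cast
  rfl

/-- additivity along a submodule. -/
theorem rankP_add (hr : r ^ n = 1) (hpn : ¬ p ∣ n) {M : Type u} [AddCommGroup M] [Module R M]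
    [Finite M] (hk : ∀ m : M, p • m = 0) (W : Submodule R M) :
    rankP r P M = rankP r P W + rankP r P (M ⧸ W) :=
  rankP_exact r P hr hpn W.subtype W.mkQ W.injective_subtype W.mkQ_surjective
    (LinearMap.exact_subtype_mkQ W) hk

end Val

/-! ### packagings and consequences -/

section Package

open HerbrandAdd

variable (R : Type uR) [Ring R] (r : R) (p : ℕ) [Fact p.Prime] (P : (ZMod p)[X]) {n : ℕ}

/-- `rankP r P` as an additive function in the sense of `HerbrandAdd` (helper9). -/
noncomputable def rankPAddFun (hr : r ^ n = 1) (hpn : ¬ p ∣ n) : AddFun.{u} R p ℤ where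
  φ M _ _ := rankP r P M
  iso _ e := rankP_iso r P e
  add hk W := rankP_add r P hr hpn hk W

@[simp] theorem rankPAddFun_phi (hr : r ^ n = 1) (hpn : ¬ p ∣ n) (M : Type u) [AddCommGroup M]
    [Module R M] : (rankPAddFun.{u} R r p P hr hpn).φ M = rankP r P M := rfl

/-- `rankP r P` is an additive function in the sense of `LatticeRed` (helper74) — so it can be fed
to `lattice_red`, `TorsionQuot`, `E3/Unit.phi_unit`, … -/
theorem rankP_isAddFun (hr : r ^ n = 1) (hpn : ¬ p ∣ n) :
    LatticeRed.IsAddFun.{u} (R := R) p
      (fun (A : Type u) [AddCommGroup A] [Module R A] => rankP r P A) where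
  iso _ _ _ _ _ _ e := rankP_iso r P e
  add _ _ _ _ _ _ _ _ _ i q hi hq hex hfin hk :=
    haveI := hfin
    rankP_exact r P hr hpn i q hi hq hex hk

variable {R r p}

/-- **`(UNIT)` in `r_P`-form from a characteristic-polynomial identity** (`R` generated by `r`):
`P_A · P_B = P_A' · P_B'` ⟹ `r_P(A) + r_P(B) = r_P(A') + r_P(B')`. -/
theorem rankP_add_eq_of_charpoly_mul_eq (hr : r ^ n = 1) (hpn : ¬ p ∣ n)
    (hgen : ∀ x : R, x ∈ Subring.closure {r}) {A B A' B' : Type u}
    [AddCommGroup A] [Module R A] [Module (ZMod p) A] [Finite A]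
    [AddCommGroup B] [Module R B] [Module (ZMod p) B] [Finite B]
    [AddCommGroup A'] [Module R A'] [Module (ZMod p) A'] [Finite A']
    [AddCommGroup B'] [Module R B'] [Module (ZMod p) B'] [Finite B']
    (h : (smulEnd p r A).charpoly * (smulEnd p r B).charpoly =
      (smulEnd p r A').charpoly * (smulEnd p r B').charpoly) :
    rankP r P A + rankP r P B = rankP r P A' + rankP r P B' :=
  AddFunOfCharpoly.phi_add_eq_of_charpoly_mul_eq (rankPAddFun.{u} R r p P hr hpn) hgen h

/-- equal characteristic polynomials ⟹ equal `r_P`. -/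
theorem rankP_eq_of_charpoly_eq (hr : r ^ n = 1) (hpn : ¬ p ∣ n)
    (hgen : ∀ x : R, x ∈ Subring.closure {r}) {M N : Type u}
    [AddCommGroup M] [Module R M] [Module (ZMod p) M] [Finite M]
    [AddCommGroup N] [Module R N] [Module (ZMod p) N] [Finite N]
    (h : (smulEnd p r M).charpoly = (smulEnd p r N).charpoly) :
    rankP r P M = rankP r P N :=
  AddFunOfCharpoly.phi_eq_of_charpoly_eq (rankPAddFun.{u} R r p P hr hpn) hgen h

end Package

end Fermat.Agent.GP.GW.RankP
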