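/-
GATE-P / S56 [P-GW] (helper12): the LHS of `(UNITq)` in the binders of helper71's `BaseHyp` /
helper66's `KeyLeavesHyp` — `F` finite over `ℚ` with `G_F` normal in `G_ℚ`, `χ_cyc|_{G_F} = 1`:

`charpoly ([n] | Hlc¹(G_{ℚ,T}, W_A)) * (X - 1)
   = (X - C χ_cyc(n)) * charpoly (σ_n | 𝔽_p[T_F]) * charpoly (σ_n | 𝔽_p[∞_F])`,

`P = normPairQ G_F H hUH`, `A = P.chiRes (cycloChar p)`, `σ_n = n|_F`.  What remains of `(UNITq)` is
the places side: the two `funLeft` polynomials in the double-coset spelling (helper54 `(T-S)`, `(T-∞)`).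
-/
import Fermat.Agent.GP.GW.Euler.K1Charpoly
import Fermat.Agent.GP.GW.Euler.NormalOfFix
import Fermat.Agent.GP.GW.E3.EqDictPsi

set_option autoImplicit false
set_option linter.style.haveILetI false
set_option linter.unusedSectionVars false

open CategoryTheory NumberField IsDedekindDomain Module Polynomial

noncomputable section

namespace Fermat.Agent.GP.GW.Euler.UnitQLhs

open Fermat.Agent.GC.Prof Fermat.Agent.GC.KumH Fermat.Agent.GC.C0 Fermat.Agent.GC.Places
  Fermat.Agent.GC.SUnitHQ ExtCitation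
open Fermat.Agent.GP.GW.Euler.UnitDict Fermat.Agent.GP.GW.Euler.K1Charpoly
  Fermat.Agent.GP.GW.Euler.NormalOfFix
open Fermat.Agent.GP.GW.E3 Fermat.Agent.GP.GW.E3.NormPair Fermat.Agent.GP.GW.EqSUnits

local notation "Qb" => AlgebraicClosure ℚ
local notation "GQ" => (AlgebraicClosure ℚ ≃ₐ[ℚ] AlgebraicClosure ℚ)

variable {p : ℕ} [Fact p.Prime] (F : IntermediateField ℚ Qb) [FiniteDimensional ℚ F]
  [F.fixingSubgroup.Normal] (T : Finset Nat.Primes)

/-- **`(UNITq)`, LHS-transported, in the binders of `BaseHyp` / `KeyLeavesHyp`.** -/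
theorem unitq_lhs_baseHyp (hpT : pPrime p ∈ T)
    (hχ : ∀ g ∈ F.fixingSubgroup, cycloChar p g = 1) (hFT : F.IsUnramifiedOutside T)
    (hX : ∀ x : Hlc (levelK T F) (sUnitsK T F) 1, x = 0)
    (H : Subgroup GQ) (hUH : F.fixingSubgroup ≤ H) (n : (normPairQ F.fixingSubgroup H hUH).H)
    [hd : IsDiscrete (levelS T) ((normPairQ F.fixingSubgroup H hUH).big
      ((normPairQ F.fixingSubgroup H hUH).chiRes (cycloChar p)))]
    [hfd : FiniteDimensional (ZMod p) (hlcStarRep (levelS T)
      ((normPairQ F.fixingSubgroup H hUH).chiRes (cycloChar p)) 1)] :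
    haveI : NumberField F := numberField_of_finiteDimensional F
    haveI : Normal ℚ F := normal_of_fixingSubgroup_normal F
    ((hlcStarRep (levelS T) ((normPairQ F.fixingSubgroup H hUH).chiRes (cycloChar p)) 1).ρ
        (QuotientGroup.mk n : (normPairQ F.fixingSubgroup H hUH).C)).charpoly * (X - 1) =
      (X - C ((cycloChar p (n : GQ) : (ZMod p)ˣ) : ZMod p)) *
        (LinearMap.funLeft (ZMod p) (ZMod p)
          (pullAbove (L := F) (ratPlaces T) (AlgEquiv.restrictNormal (n : GQ) F))).charpoly *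
        (LinearMap.funLeft (ZMod p) (ZMod p)
          (fun w : InfinitePlace F => (AlgEquiv.restrictNormal (n : GQ) F)⁻¹ • w)).charpoly := by
  haveI : NumberField F := numberField_of_finiteDimensional F
  haveI : Normal ℚ F := normal_of_fixingSubgroup_normal F
  obtain ⟨ζ, hζ⟩ := EqDict.exists_primitiveRoot_of_fixingSubgroup_le p F hχ
  rw [← EqDict.X_sub_C_cycloExp]
  exact unitq_lhs_normPairQ T F hpT hFT H hUH hX n (hd := hd) (hfd := hfd) hζ
    (cycloExp p (n : GQ)) (EqDict.restrictNormal_root_eq_pow p F (n : GQ) ζ hζ.pow_eq_one)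

end Fermat.Agent.GP.GW.Euler.UnitQLhs
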